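/-
PROJECT D (S48), part A, brick A6c (helper24): THE ANALYTIC CORE OF CHEBOTAREV.
The typed seams of the bricks of `TwistL` (every seam is a `def .. : Prop`).

`TwistL` proves `helper4`'s seam (S-LC) `LContinuous` (boundedness + Lipschitz continuity on
`(1, 2]` of `L_F(s, ψ ∘ N) = ∑_I ψ(N I) N I ^ (-s)` when `ψ ∘ N` is non-trivial) by a route
WITHOUT integrals, WITHOUT lattice point counting and WITHOUT the ray class group.

Mathlib only.
-/
import Mathlib

set_option autoImplicit false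

noncomputable section

namespace Fermat.Agent.S48.A.TwistL.Seams

open NumberField NumberField.Units

/-- A weight on the nonzero integers of `F` whose sum over every orbit of the units is the
number of roots of unity (a partition of unity under the units, up to torsion). -/
def UnitWeight (F : Type) [Field F] [NumberField F] (wt : 𝓞 F → ℝ) : Prop :=
  (∀ α, 0 ≤ wt α) ∧
    ∀ α : 𝓞 F, α ≠ 0 → HasSum (fun u : (𝓞 F)ˣ => wt ((u : 𝓞 F) * α)) (torsionOrder F : ℝ)

open scoped Classical in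
/-- **(U) UNFOLDING.**  `J ≠ 0` an integral ideal, `f` a function on ideals, `g` its transport
to `J ∖ 0` (`g α = f I` when `I * J = (α)`): the `wt`-weighted sum of `g` over `J ∖ 0` is
`torsionOrder` times the sum of `f` over the nonzero ideals `I` with `I * J` principal
(= the ideals of the class inverse to the class of `J`). -/
def Unfold : Prop :=
  ∀ (F : Type) [Field F] [NumberField F] (wt : 𝓞 F → ℝ), UnitWeight F wt →
    ∀ J : Ideal (𝓞 F), J ≠ ⊥ →
    ∀ f : Ideal (𝓞 F) → ℂ, (Summable fun I => ‖f I‖) →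
    ∀ g : 𝓞 F → ℂ,
      (∀ (α : 𝓞 F) (I : Ideal (𝓞 F)), α ≠ 0 → I * J = Ideal.span {α} → g α = f I) →
      HasSum (fun α : 𝓞 F => if α ∈ J ∧ α ≠ 0 then ((wt α : ℝ) : ℂ) * g α else 0)
        ((torsionOrder F : ℂ) *
          ∑' I : Ideal (𝓞 F), if I ≠ ⊥ ∧ (I * J).IsPrincipal then f I else 0)

/-- **(R) CLASS REPRESENTATIVES PRIME TO `m`** (= `helper4`'s `ClassRep`). -/
def ClassRep : Prop :=
  ∀ (F : Type) [Field F] [NumberField F] (m : ℕ), m ≠ 0 → ∀ C : ClassGroup (𝓞 F),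
    ∃ J : nonZeroDivisors (Ideal (𝓞 F)), ClassGroup.mk0 J = C ∧
      IsCoprime (J : Ideal (𝓞 F)) (Ideal.span {(m : 𝓞 F)})

/-- the value of `ψ` at the norm of an integer of `F` -/
def psiN (F : Type) [Field F] [NumberField F] {m : ℕ} (ψ : DirichletCharacter ℂ m)
    (α : 𝓞 F) : ℂ :=
  ψ ((Algebra.norm ℤ α : ℤ) : ZMod m)

open scoped Classical in
/-- **(N) THE RESIDUE SUMS.**  `ψ(N α)` depends on `α` modulo `m` only; for `J` prime to `m` the
sum of `ψ(N α)` over `J / mJ` is the sum over `𝓞 / m𝓞`; and if the latter does not vanish then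
`ψ ∘ N` is trivial on the integers prime to `m`. -/
def ResidueSums : Prop :=
  ∀ (F : Type) [Field F] [NumberField F] (m : ℕ) [NeZero m] (ψ : DirichletCharacter ℂ m),
    (∀ α β : 𝓞 F, psiN F ψ (α + (m : 𝓞 F) * β) = psiN F ψ α) ∧
    (∀ J : Ideal (𝓞 F), IsCoprime J (Ideal.span {(m : 𝓞 F)}) →
      ∑ᶠ q : 𝓞 F ⧸ (Ideal.span {(m : 𝓞 F)} * J),
          (if (Quotient.out q : 𝓞 F) ∈ J then psiN F ψ (Quotient.out q) else 0) =
        ∑ᶠ q : 𝓞 F ⧸ Ideal.span {(m : 𝓞 F)}, psiN F ψ (Quotient.out q)) ∧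
    ((∑ᶠ q : 𝓞 F ⧸ Ideal.span {(m : 𝓞 F)}, psiN F ψ (Quotient.out q)) ≠ 0 →
      ∀ β : 𝓞 F, IsCoprime (Ideal.span {β}) (Ideal.span {(m : 𝓞 F)}) → psiN F ψ β = 1)

/-- bookkeeping: the congruence lemma of `psiN` is generated in this file -/
theorem psiN_congr_stored (F : Type) [Field F] [NumberField F] {m : ℕ}
    (ψ : DirichletCharacter ℂ m) (α : 𝓞 F) : psiN F ψ α = psiN F ψ α := by
  have := @psiN.congr_simp F
  rfl

end Fermat.Agent.S48.A.TwistL.Seams
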