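/-
PROJECT D (S48), part A, brick A6c (TwistL), giveaway (N): THE RESIDUE SUMS.
`ψ(N α)` depends on `α` modulo `m` only; for `J` prime to `m` the sum of `ψ(N α)` over `J / mJ` is
the sum over `𝓞 / m𝓞`; if the latter does not vanish then `ψ ∘ N` is trivial on the integers prime
to `m`.  Proves `Seams.ResidueSums`.
-/
import Mathlib
import Fermat.Agent.S48.A.TwistL.Seams

set_option autoImplicit false

noncomputable section

namespace Fermat.Agent.S48.A.TwistL.Residue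

open NumberField Fermat.Agent.S48.A.TwistL.Seams

/-! ### The norm modulo `m` -/

variable {F : Type} [Field F] [NumberField F]

/-- The norm of `α + m β` is congruent to the norm of `α` modulo `m`. -/
theorem norm_add_mul_cast (m : ℕ) (α β : 𝓞 F) :
    ((Algebra.norm ℤ (α + (m : 𝓞 F) * β) : ℤ) : ZMod m) = ((Algebra.norm ℤ α : ℤ) : ZMod m) := by
  classical
  let b := NumberField.RingOfIntegers.basis F
  rw [Algebra.norm_eq_matrix_det b, Algebra.norm_eq_matrix_det b]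
  have h1 : ∀ A : Matrix (Module.Free.ChooseBasisIndex ℤ (𝓞 F))
      (Module.Free.ChooseBasisIndex ℤ (𝓞 F)) ℤ,
      ((A.det : ℤ) : ZMod m) = ((Int.castRingHom (ZMod m)).mapMatrix A).det := by
    intro A
    exact RingHom.map_det (Int.castRingHom (ZMod m)) A
  rw [h1, h1]
  congr 1
  rw [map_add, map_mul, map_natCast, map_add, map_mul, map_natCast]
  have h2 : ((m : ℕ) : Matrix (Module.Free.ChooseBasisIndex ℤ (𝓞 F))
      (Module.Free.ChooseBasisIndex ℤ (𝓞 F)) (ZMod m)) = 0 := by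
    rw [← Matrix.diagonal_natCast, ZMod.natCast_self]
    exact Matrix.diagonal_zero
  rw [h2, zero_mul, add_zero]

theorem psiN_add_mul {m : ℕ} (ψ : DirichletCharacter ℂ m) (α β : 𝓞 F) :
    psiN F ψ (α + (m : 𝓞 F) * β) = psiN F ψ α := by
  unfold psiN
  rw [norm_add_mul_cast]

theorem psiN_eq_of_sub_mem {m : ℕ} (ψ : DirichletCharacter ℂ m) {α α' : 𝓞 F}
    (h : α - α' ∈ Ideal.span {(m : 𝓞 F)}) : psiN F ψ α = psiN F ψ α' := by
  obtain ⟨β, hβ⟩ := Ideal.mem_span_singleton'.mp h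
  have e : α = α' + (m : 𝓞 F) * β := by
    rw [mul_comm, hβ]
    ring
  rw [e, psiN_add_mul]

theorem psiN_mul {m : ℕ} (ψ : DirichletCharacter ℂ m) (α β : 𝓞 F) :
    psiN F ψ (α * β) = psiN F ψ α * psiN F ψ β := by
  unfold psiN
  rw [map_mul, Int.cast_mul, map_mul]

/-! ### The sum over `J / mJ` -/

omit [NumberField F] in
theorem out_sub_mem (I : Ideal (𝓞 F)) (x : 𝓞 F) :
    (Quotient.out (Ideal.Quotient.mk I x) : 𝓞 F) - x ∈ I := by
  rw [← Ideal.Quotient.eq, Ideal.Quotient.mk_out]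

open scoped Classical in
theorem finsum_coprime {m : ℕ} (ψ : DirichletCharacter ℂ m) (J : Ideal (𝓞 F))
    (hJ : IsCoprime J (Ideal.span {(m : 𝓞 F)})) :
    ∑ᶠ q : 𝓞 F ⧸ (Ideal.span {(m : 𝓞 F)} * J),
        (if (Quotient.out q : 𝓞 F) ∈ J then psiN F ψ (Quotient.out q) else 0) =
      ∑ᶠ q : 𝓞 F ⧸ Ideal.span {(m : 𝓞 F)}, psiN F ψ (Quotient.out q) := by
  set M : Ideal (𝓞 F) := Ideal.span {(m : 𝓞 F)} with hM
  set I : Ideal (𝓞 F) := M * J with hI
  have hIM : I ≤ M := Ideal.mul_le_left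
  have hIJ : I ≤ J := Ideal.mul_le_right
  let π : 𝓞 F ⧸ I → 𝓞 F ⧸ M := Ideal.Quotient.factor hIM
  have hπ : ∀ q : 𝓞 F ⧸ I, π q = Ideal.Quotient.mk M (Quotient.out q) := by
    intro q
    have h1 : π (Ideal.Quotient.mk I (Quotient.out q)) = Ideal.Quotient.mk M (Quotient.out q) :=
      Ideal.Quotient.factor_mk hIM _
    rwa [Ideal.Quotient.mk_out] at h1
  let S : Set (𝓞 F ⧸ I) := {q | (Quotient.out q : 𝓞 F) ∈ J}
  have hS : ∀ x : 𝓞 F, x ∈ J → Ideal.Quotient.mk I x ∈ S := by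
    intro x hx
    have h1 := out_sub_mem I x
    have h2 : (Quotient.out (Ideal.Quotient.mk I x) : 𝓞 F) =
        ((Quotient.out (Ideal.Quotient.mk I x) : 𝓞 F) - x) + x := by ring
    show (Quotient.out (Ideal.Quotient.mk I x) : 𝓞 F) ∈ J
    rw [h2]
    exact J.add_mem (hIJ h1) hx
  have e1 : ∑ᶠ q : 𝓞 F ⧸ I,
      (if (Quotient.out q : 𝓞 F) ∈ J then psiN F ψ (Quotient.out q) else 0) =
      ∑ᶠ q ∈ S, psiN F ψ (Quotient.out q) := by
    rw [finsum_mem_def]
    refine finsum_congr (fun q => ?_)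
    by_cases hq : (Quotient.out q : 𝓞 F) ∈ J
    · rw [if_pos hq, Set.indicator_of_mem (show q ∈ S from hq)]
    · rw [if_neg hq, Set.indicator_of_notMem (show q ∉ S from hq)]
  rw [e1, ← finsum_mem_univ (fun q : 𝓞 F ⧸ M => psiN F ψ (Quotient.out q))]
  refine finsum_mem_eq_of_bijOn π ⟨fun _ _ => Set.mem_univ _, ?_, ?_⟩ ?_
  · -- injective on `S`
    intro q hq q' hq' hqq'
    rw [hπ q, hπ q', Ideal.Quotient.eq] at hqq'
    have h1 : (Quotient.out q : 𝓞 F) - Quotient.out q' ∈ J := J.sub_mem hq hq'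
    have h2 : (Quotient.out q : 𝓞 F) - Quotient.out q' ∈ J ⊓ M := ⟨h1, hqq'⟩
    rw [← Ideal.mul_eq_inf_of_isCoprime hJ, mul_comm] at h2
    have h3 : Ideal.Quotient.mk I (Quotient.out q) = Ideal.Quotient.mk I (Quotient.out q') :=
      Ideal.Quotient.eq.mpr h2
    rwa [Ideal.Quotient.mk_out, Ideal.Quotient.mk_out] at h3
  · -- surjective
    intro r _
    obtain ⟨j, hj, n, hn, hjn⟩ := Ideal.isCoprime_iff_exists.mp hJ
    refine ⟨Ideal.Quotient.mk I (Quotient.out r * j), hS _ (J.mul_mem_left _ hj), ?_⟩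
    have h1 : π (Ideal.Quotient.mk I (Quotient.out r * j)) =
        Ideal.Quotient.mk M (Quotient.out r * j) := Ideal.Quotient.factor_mk hIM _
    rw [h1]
    have h2 : Ideal.Quotient.mk M (Quotient.out r * j) = Ideal.Quotient.mk M (Quotient.out r) := by
      rw [Ideal.Quotient.eq]
      have e : (Quotient.out r : 𝓞 F) * j - Quotient.out r = -(Quotient.out r * n) := by
        have : j = 1 - n := by rw [← hjn]; ring
        rw [this]
        ring
      rw [e]
      exact M.neg_mem (M.mul_mem_left _ hn)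
    rw [h2, Ideal.Quotient.mk_out]
  · -- the summands agree
    intro q _
    refine psiN_eq_of_sub_mem ψ ?_
    rw [← Ideal.Quotient.eq, Ideal.Quotient.mk_out]
    exact (hπ q).symm

/-! ### Non-vanishing of the full residue sum -/

theorem psiN_eq_one_of_finsum_ne_zero {m : ℕ} (ψ : DirichletCharacter ℂ m)
    (h0 : (∑ᶠ q : 𝓞 F ⧸ Ideal.span {(m : 𝓞 F)}, psiN F ψ (Quotient.out q)) ≠ 0)
    (β : 𝓞 F) (hβ : IsCoprime (Ideal.span {β}) (Ideal.span {(m : 𝓞 F)})) : psiN F ψ β = 1 := by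
  set M : Ideal (𝓞 F) := Ideal.span {(m : 𝓞 F)} with hM
  rw [Ideal.isCoprime_span_singleton_iff] at hβ
  obtain ⟨a, b, hab⟩ := hβ
  have hu : Ideal.Quotient.mk M β * Ideal.Quotient.mk M a = 1 := by
    rw [← map_mul, ← map_one (Ideal.Quotient.mk M), Ideal.Quotient.eq]
    have e : β * a - 1 = -(b * (m : 𝓞 F)) := by
      rw [← hab]
      ring
    rw [e]
    exact M.neg_mem (M.mul_mem_left _ (Ideal.subset_span rfl))
  let u : (𝓞 F ⧸ M)ˣ := ⟨Ideal.Quotient.mk M β, Ideal.Quotient.mk M a, hu, by rw [mul_comm]; exact hu⟩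
  have key : ∀ r : 𝓞 F ⧸ M, psiN F ψ (Quotient.out (u.mulLeft r)) =
      psiN F ψ β * psiN F ψ (Quotient.out r) := by
    intro r
    rw [← psiN_mul]
    refine psiN_eq_of_sub_mem ψ ?_
    rw [← Ideal.Quotient.eq, Ideal.Quotient.mk_out, map_mul, Ideal.Quotient.mk_out]
    rfl
  have h1 : ∑ᶠ r : 𝓞 F ⧸ M, psiN F ψ (Quotient.out r) =
      psiN F ψ β * ∑ᶠ r : 𝓞 F ⧸ M, psiN F ψ (Quotient.out r) := by
    conv_lhs => rw [← finsum_comp_equiv u.mulLeft]
    rw [mul_finsum]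
    exact finsum_congr key
  have h2 : (1 - psiN F ψ β) * ∑ᶠ r : 𝓞 F ⧸ M, psiN F ψ (Quotient.out r) = 0 := by
    rw [sub_mul, one_mul, ← h1, sub_self]
  rcases mul_eq_zero.mp h2 with h | h
  · exact (sub_eq_zero.mp h).symm
  · exact absurd h h0

/-! ### The seam -/

/-- **(N)** the residue sums, literal of `Seams.ResidueSums`. -/
theorem residueSums : ResidueSums := by
  intro F _ _ m _ ψ
  refine ⟨fun α β => psiN_add_mul ψ α β, fun J hJ => ?_, fun h0 β hβ =>
    psiN_eq_one_of_finsum_ne_zero ψ h0 β hβ⟩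
  convert finsum_coprime ψ J hJ

end Fermat.Agent.S48.A.TwistL.Residue
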