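/-
PROJECT D (S48), part A, brick A6c (helper24): THE ANALYTIC CORE OF CHEBOTAREV, file 9.

THE ALGEBRA OF THE ASSEMBLY: ideals prime to `m`, their norms modulo `m`, ideal classes.

Mathlib only.
-/
import Mathlib

set_option autoImplicit false
set_option linter.unusedSectionVars false

noncomputable section

namespace Fermat.Agent.S48.A.TwistL.Alg

open NumberField Ideal nonZeroDivisors

variable (F : Type*) [Field F] [NumberField F]

/-- the norm of an ideal prime to `m` is prime to `m` -/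
theorem coprime_absNorm {m : ℕ} {J : Ideal (𝓞 F)} (hJb : J ≠ ⊥)
    (hJ : IsCoprime J (Ideal.span {(m : 𝓞 F)})) : (absNorm J).Coprime m := by
  obtain ⟨j, hj, y, hy, hjy⟩ := Ideal.isCoprime_iff_exists.mp hJ
  obtain ⟨γ, rfl⟩ := Ideal.mem_span_singleton'.mp hy
  by_contra hcop
  obtain ⟨p, hp, hpJ, hpm⟩ := Nat.Prime.not_coprime_iff_dvd.mp hcop
  have hJ0 : absNorm J ≠ 0 := fun h0 => hJb (absNorm_eq_zero_iff.mp h0)
  have hfin : Finite (𝓞 F ⧸ J) := by
    rw [absNorm_apply, Submodule.cardQuot_apply] at hJ0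
    exact Nat.finite_of_card_ne_zero hJ0
  have : Fintype (𝓞 F ⧸ J) := Fintype.ofFinite _
  have : Fact p.Prime := ⟨hp⟩
  have hcard : p ∣ Fintype.card (𝓞 F ⧸ J) := by
    rw [← Nat.card_eq_fintype_card, ← Submodule.cardQuot_apply, ← absNorm_apply]
    exact hpJ
  obtain ⟨x, hx⟩ := exists_prime_addOrderOf_dvd_card p hcard
  have hpx : p • x = 0 := by rw [← hx]; exact addOrderOf_nsmul_eq_zero x
  obtain ⟨k, rfl⟩ := hpm
  have hmx : ((p * k : ℕ) : 𝓞 F ⧸ J) * x = 0 := by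
    rw [Nat.cast_mul, mul_comm (p : 𝓞 F ⧸ J), mul_assoc, ← nsmul_eq_mul p x, hpx, mul_zero]
  have hone : (1 : 𝓞 F ⧸ J) = Ideal.Quotient.mk J γ * ((p * k : ℕ) : 𝓞 F ⧸ J) := by
    rw [← map_one (Ideal.Quotient.mk J), ← hjy, map_add, Ideal.Quotient.eq_zero_iff_mem.mpr hj,
      zero_add, map_mul, map_natCast]
  have hx0 : x = 0 := by
    rw [← one_mul x, hone, mul_assoc, hmx, mul_zero]
  rw [hx0, addOrderOf_zero] at hx
  exact hp.one_lt.ne hx

/-- the norm of an ideal prime to `m` is a unit modulo `m` -/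
theorem isUnit_absNorm {m : ℕ} {J : Ideal (𝓞 F)} (hJb : J ≠ ⊥)
    (hJ : IsCoprime J (Ideal.span {(m : 𝓞 F)})) : IsUnit ((absNorm J : ℕ) : ZMod m) :=
  (ZMod.isUnit_iff_coprime _ _).mpr (coprime_absNorm F hJb hJ)

/-- an ideal whose norm is a unit modulo `m` is prime to `m` -/
theorem isCoprime_of_isUnit {m : ℕ} {I : Ideal (𝓞 F)} (h : IsUnit ((absNorm I : ℕ) : ZMod m)) :
    IsCoprime I (Ideal.span {(m : 𝓞 F)}) := by
  have hc : (absNorm I).Coprime m := (ZMod.isUnit_iff_coprime _ _).mp h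
  rw [Ideal.isCoprime_iff_exists]
  have hb := Nat.Coprime.isCoprime hc
  obtain ⟨a, b, hab⟩ := hb
  refine ⟨(a : 𝓞 F) * (absNorm I : 𝓞 F), I.mul_mem_left _ (absNorm_mem I),
    (b : 𝓞 F) * (m : 𝓞 F), Ideal.mul_mem_left _ _ (Ideal.mem_span_singleton_self _), ?_⟩
  have := congrArg (fun z : ℤ => (z : 𝓞 F)) hab
  simpa using this

/-- an ideal at which a Dirichlet character of the norm does not vanish is prime to `m` -/
theorem isCoprime_of_ne_zero {m : ℕ} (ψ : DirichletCharacter ℂ m) {I : Ideal (𝓞 F)}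
    (h : ψ ((absNorm I : ℕ) : ZMod m) ≠ 0) : IsCoprime I (Ideal.span {(m : 𝓞 F)}) := by
  apply isCoprime_of_isUnit
  by_contra hu
  exact h (MulChar.map_nonunit ψ hu)

/-- an ideal at which a Dirichlet character of the norm is neither `0` nor `1` is not zero -/
theorem ne_bot_of_ne {m : ℕ} (ψ : DirichletCharacter ℂ m) {I : Ideal (𝓞 F)}
    (h0 : ψ ((absNorm I : ℕ) : ZMod m) ≠ 0) (h1 : ψ ((absNorm I : ℕ) : ZMod m) ≠ 1) : I ≠ ⊥ := by
  rintro rfl
  rw [absNorm_bot, Nat.cast_zero] at h0 h1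
  by_cases hu : IsUnit (0 : ZMod m)
  · have : (0 : ZMod m) = 1 := by
      have := isUnit_zero_iff.mp hu
      exact this
    rw [this, map_one] at h1
    exact h1 rfl
  · exact h0 (MulChar.map_nonunit ψ hu)

/-- `I * J` is principal iff the class of `I` is the inverse of the class of `J` -/
theorem isPrincipal_mul_iff {I J : Ideal (𝓞 F)} (hI : I ≠ ⊥) (hJ : J ≠ ⊥) :
    (I * J).IsPrincipal ↔
      ClassGroup.mk0 ⟨I, mem_nonZeroDivisors_iff_ne_zero.mpr hI⟩ =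
        (ClassGroup.mk0 ⟨J, mem_nonZeroDivisors_iff_ne_zero.mpr hJ⟩)⁻¹ := by
  have hIJ : I * J ∈ (Ideal (𝓞 F))⁰ :=
    mem_nonZeroDivisors_iff_ne_zero.mpr (mul_ne_zero hI hJ)
  rw [← ClassGroup.mk0_eq_one_iff hIJ, eq_inv_iff_mul_eq_one, ← map_mul]
  rfl

end Fermat.Agent.S48.A.TwistL.Alg
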