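/-
PROJECT D (S48), part A, brick A6c (helper24): THE ANALYTIC CORE OF CHEBOTAREV, file 1 of 6.

A LIPSCHITZ PARTITION OF UNITY UNDER A LATTICE OF TRANSLATIONS.

* `tent c = max 0 (1 - |c|)`; it is `1`-Lipschitz, vanishes off `(-1, 1)` and
  `∑ n : ℤ, tent (c + n) = 1` (`hasSum_tent_int`);
* `tentPi c = ∏ i, tent (c i)` on `ι → ℝ`, with `∑ n : ι → ℤ, tentPi (c + n) = 1`
  (`hasSum_tentPi`), `|tentPi c - tentPi c'| ≤ ∑ i, |c i - c' i|` (`abs_tentPi_sub_le`).

Mathlib only.
-/
import Mathlib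

set_option autoImplicit false

noncomputable section

namespace Fermat.Agent.S48.A.TwistL.Tent

open Finset

/-- the tent function -/
def tent (c : ℝ) : ℝ := max 0 (1 - |c|)

theorem tent_nonneg (c : ℝ) : 0 ≤ tent c := le_max_left _ _

theorem tent_le_one (c : ℝ) : tent c ≤ 1 :=
  max_le zero_le_one (by linarith [abs_nonneg c])

theorem tent_eq_zero {c : ℝ} (hc : 1 ≤ |c|) : tent c = 0 :=
  max_eq_left (by linarith)

theorem tent_eq {c : ℝ} (hc : |c| ≤ 1) : tent c = 1 - |c| :=
  max_eq_right (by linarith)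

theorem tent_ne_zero_iff {c : ℝ} : tent c ≠ 0 ↔ |c| < 1 := by
  constructor
  · intro h
    by_contra hc
    exact h (tent_eq_zero (not_lt.mp hc))
  · intro h
    rw [tent_eq h.le]
    linarith

/-- the tent function is `1`-Lipschitz -/
theorem abs_tent_sub_le (a b : ℝ) : |tent a - tent b| ≤ |a - b| := by
  unfold tent
  rw [max_comm 0, max_comm 0]
  refine (abs_max_sub_max_le_abs (1 - |a|) (1 - |b|) 0).trans ?_
  have : (1 - |a|) - (1 - |b|) = |b| - |a| := by ring
  rw [this]
  exact (abs_abs_sub_abs_le_abs_sub b a).trans (by rw [abs_sub_comm])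

/-- **the integer translates of the tent function sum to `1`** -/
theorem hasSum_tent_int (c : ℝ) : HasSum (fun n : ℤ => tent (c + n)) 1 := by
  set n₀ : ℤ := -⌊c⌋ with hn₀
  have hfr : c + (n₀ : ℝ) = Int.fract c := by
    rw [hn₀, Int.cast_neg, Int.fract]
    ring
  have h0 : 0 ≤ Int.fract c := Int.fract_nonneg c
  have h1 : Int.fract c < 1 := Int.fract_lt_one c
  have hzero : ∀ n : ℤ, n ∉ ({n₀, n₀ - 1} : Finset ℤ) → tent (c + n) = 0 := by
    intro n hn
    rw [Finset.mem_insert, Finset.mem_singleton, not_or] at hn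
    obtain ⟨hn1, hn2⟩ := hn
    apply tent_eq_zero
    have hcn : c + (n : ℝ) = Int.fract c + ((n - n₀ : ℤ) : ℝ) := by
      rw [← hfr]
      push_cast
      ring
    rw [hcn]
    rcases lt_or_gt_of_ne (sub_ne_zero.mpr hn1) with h | h
    · have h' : n - n₀ ≤ -2 := by
        have : n - n₀ ≠ -1 := fun e => hn2 (by omega)
        omega
      have h'' : ((n - n₀ : ℤ) : ℝ) ≤ -2 := by exact_mod_cast h'
      rw [abs_of_nonpos (by linarith)]
      linarith
    · have h' : (1 : ℤ) ≤ n - n₀ := h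
      have h'' : (1 : ℝ) ≤ ((n - n₀ : ℤ) : ℝ) := by exact_mod_cast h'
      rw [abs_of_nonneg (by linarith)]
      linarith
  have hsum : HasSum (fun n : ℤ => tent (c + n)) (∑ n ∈ ({n₀, n₀ - 1} : Finset ℤ), tent (c + n)) :=
    hasSum_sum_of_ne_finset_zero hzero
  have hne : n₀ ≠ n₀ - 1 := by omega
  have hval : ∑ n ∈ ({n₀, n₀ - 1} : Finset ℤ), tent (c + n) = 1 := by
    rw [Finset.sum_pair hne]
    have e1 : tent (c + (n₀ : ℝ)) = 1 - Int.fract c := by
      rw [hfr, tent_eq (by rw [abs_of_nonneg h0]; exact h1.le), abs_of_nonneg h0]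
    have e2 : tent (c + ((n₀ - 1 : ℤ) : ℝ)) = Int.fract c := by
      have : c + ((n₀ - 1 : ℤ) : ℝ) = Int.fract c - 1 := by
        rw [← hfr]; push_cast; ring
      rw [this, tent_eq (by rw [abs_of_nonpos (by linarith)]; linarith),
        abs_of_nonpos (by linarith)]
      ring
    rw [e1, e2]
    ring
  rw [hval] at hsum
  exact hsum

variable {ι : Type*} [Fintype ι]

/-- the product tent function on `ι → ℝ` -/
def tentPi (c : ι → ℝ) : ℝ := ∏ i, tent (c i)

theorem tentPi_nonneg (c : ι → ℝ) : 0 ≤ tentPi c :=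
  Finset.prod_nonneg fun i _ => tent_nonneg (c i)

theorem tentPi_le_one (c : ι → ℝ) : tentPi c ≤ 1 :=
  Finset.prod_le_one (fun i _ => tent_nonneg (c i)) fun i _ => tent_le_one (c i)

theorem tentPi_eq_zero {c : ι → ℝ} {i : ι} (hc : 1 ≤ |c i|) : tentPi c = 0 :=
  Finset.prod_eq_zero (Finset.mem_univ i) (tent_eq_zero hc)

theorem abs_lt_one_of_tentPi_ne_zero {c : ι → ℝ} (h : tentPi c ≠ 0) (i : ι) : |c i| < 1 := by
  by_contra hc
  exact h (tentPi_eq_zero (not_lt.mp hc))

/-- the product tent function is Lipschitz for the `ℓ¹` distance -/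
theorem abs_tentPi_sub_le (c c' : ι → ℝ) : |tentPi c - tentPi c'| ≤ ∑ i, |c i - c' i| := by
  classical
  unfold tentPi
  have key : ∀ s : Finset ι,
      |∏ i ∈ s, tent (c i) - ∏ i ∈ s, tent (c' i)| ≤ ∑ i ∈ s, |c i - c' i| := by
    intro s
    induction s using Finset.induction_on with
    | empty => simp
    | insert a s ha ih =>
      rw [Finset.prod_insert ha, Finset.prod_insert ha, Finset.sum_insert ha]
      have h1 : tent (c a) * ∏ i ∈ s, tent (c i) - tent (c' a) * ∏ i ∈ s, tent (c' i) =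
          (tent (c a) - tent (c' a)) * ∏ i ∈ s, tent (c i) +
            tent (c' a) * (∏ i ∈ s, tent (c i) - ∏ i ∈ s, tent (c' i)) := by ring
      rw [h1]
      refine (abs_add_le _ _).trans (add_le_add ?_ ?_)
      · rw [abs_mul]
        have hp : |∏ i ∈ s, tent (c i)| ≤ 1 := by
          rw [abs_of_nonneg (Finset.prod_nonneg fun i _ => tent_nonneg _)]
          exact Finset.prod_le_one (fun i _ => tent_nonneg _) fun i _ => tent_le_one _
        calc |tent (c a) - tent (c' a)| * |∏ i ∈ s, tent (c i)|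
            ≤ |c a - c' a| * 1 :=
              mul_le_mul (abs_tent_sub_le _ _) hp (abs_nonneg _) (abs_nonneg _)
          _ = |c a - c' a| := mul_one _
      · rw [abs_mul, abs_of_nonneg (tent_nonneg _)]
        calc tent (c' a) * |∏ i ∈ s, tent (c i) - ∏ i ∈ s, tent (c' i)|
            ≤ 1 * ∑ i ∈ s, |c i - c' i| :=
              mul_le_mul (tent_le_one _) ih (abs_nonneg _) zero_le_one
          _ = ∑ i ∈ s, |c i - c' i| := one_mul _
  exact key Finset.univ

/-- a translate of the tent function by an integer outside `{-⌊c⌋, -⌊c⌋ - 1}` vanishes -/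
theorem tent_add_int_eq_zero (c : ℝ) (n : ℤ) (hn : n ∉ ({-⌊c⌋, -⌊c⌋ - 1} : Finset ℤ)) :
    tent (c + n) = 0 := by
  by_contra h
  have hlt : |c + (n : ℝ)| < 1 := tent_ne_zero_iff.mp h
  have hfr : c + ((-⌊c⌋ : ℤ) : ℝ) = Int.fract c := by
    rw [Int.cast_neg, Int.fract]; ring
  have h0 : 0 ≤ Int.fract c := Int.fract_nonneg _
  have h1 : Int.fract c < 1 := Int.fract_lt_one _
  have hcn : c + (n : ℝ) = Int.fract c + ((n - -⌊c⌋ : ℤ) : ℝ) := by
    rw [← hfr]; push_cast; ring
  rw [hcn, abs_lt] at hlt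
  have hk1 : (-2 : ℝ) < ((n - -⌊c⌋ : ℤ) : ℝ) := by linarith [hlt.1]
  have hk2 : ((n - -⌊c⌋ : ℤ) : ℝ) < 1 := by linarith [hlt.2]
  have hk1' : (-2 : ℤ) < n - -⌊c⌋ := by exact_mod_cast hk1
  have hk2' : n - -⌊c⌋ < (1 : ℤ) := by exact_mod_cast hk2
  apply hn
  rw [Finset.mem_insert, Finset.mem_singleton]
  omega

/-- the finite set of integer vectors off which the translate of `tentPi` vanishes -/
def tentFinset [DecidableEq ι] (c : ι → ℝ) : Finset (ι → ℤ) :=
  Fintype.piFinset fun i => ({-⌊c i⌋, -⌊c i⌋ - 1} : Finset ℤ)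

theorem tentPi_add_int_eq_zero [DecidableEq ι] (c : ι → ℝ) (n : ι → ℤ) (hn : n ∉ tentFinset c) :
    tentPi (fun i => c i + n i) = 0 := by
  rw [tentFinset, Fintype.mem_piFinset, not_forall] at hn
  obtain ⟨i, hi⟩ := hn
  exact Finset.prod_eq_zero (Finset.mem_univ i) (tent_add_int_eq_zero (c i) (n i) hi)

theorem finite_support_tentPi (c : ι → ℝ) :
    (Function.support fun n : ι → ℤ => tentPi (fun i => c i + n i)).Finite := by
  classical
  refine (tentFinset c).finite_toSet.subset fun n hn => ?_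
  by_contra h
  exact hn (tentPi_add_int_eq_zero c n h)

/-- **the `ℤ^ι`-translates of the product tent function sum to `1`** -/
theorem hasSum_tentPi (c : ι → ℝ) :
    HasSum (fun n : ι → ℤ => tentPi (fun i => c i + n i)) 1 := by
  classical
  have hsum : HasSum (fun n : ι → ℤ => tentPi (fun i => c i + n i))
      (∑ n ∈ tentFinset c, tentPi (fun i => c i + n i)) :=
    hasSum_sum_of_ne_finset_zero (tentPi_add_int_eq_zero c)
  have hval : ∑ n ∈ tentFinset c, tentPi (fun i => c i + n i) = 1 := by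
    unfold tentPi tentFinset
    rw [← Finset.prod_univ_sum (fun i => ({-⌊c i⌋, -⌊c i⌋ - 1} : Finset ℤ))
      (fun i (n : ℤ) => tent (c i + n))]
    refine Finset.prod_eq_one fun i _ => ?_
    have h1 := hasSum_tent_int (c i)
    have h2 : HasSum (fun n : ℤ => tent (c i + n))
        (∑ n ∈ ({-⌊c i⌋, -⌊c i⌋ - 1} : Finset ℤ), tent (c i + n)) :=
      hasSum_sum_of_ne_finset_zero (tent_add_int_eq_zero (c i))
    exact h2.unique h1
  rw [hval] at hsum
  exact hsum

end Fermat.Agent.S48.A.TwistL.Tent
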