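/-
PROJECT D (S48), part A, brick A6c (helper24): THE ANALYTIC CORE OF CHEBOTAREV, file 4.

THE LIPSCHITZ PARTITION OF UNITY UNDER THE UNITS ON THE MIXED SPACE.

`omega F x = ∏ i, tent (c_i (logMap x))` (`c_i` = the coordinates in the basis of the unit
lattice), and `0` where the norm vanishes.  Main result: for `x` of nonzero norm
`∑ u : (𝓞 F)ˣ, omega F (u • x) = torsionOrder F` (`hasSum_omega_unit_smul`), hence
`α ↦ omega F (mixedEmbedding F α)` is a `UnitWeight` (`unitWeight_omega`).

Mathlib + `Tent.lean` + `Seams.lean`.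
-/
import Mathlib
import Fermat.Agent.S48.A.TwistL.Tent
import Fermat.Agent.S48.A.TwistL.Seams

set_option autoImplicit false

noncomputable section

namespace Fermat.Agent.S48.A.TwistL.Weight

open NumberField NumberField.InfinitePlace NumberField.mixedEmbedding NumberField.Units
  NumberField.Units.dirichletUnitTheorem Module Fermat.Agent.S48.A.TwistL.Tent

variable (F : Type*) [Field F] [NumberField F]

open scoped Classical in
/-- the real basis of the log space given by the basis of the unit lattice -/
def logBasis : Basis (Fin (rank F)) ℝ (logSpace F) :=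
  (basisUnitLattice F).ofZLatticeBasis ℝ (unitLattice F)

/-- the coordinates of `logMap x` in the basis of the unit lattice -/
def coords (x : mixedSpace F) : Fin (rank F) → ℝ := fun i => (logBasis F).repr (logMap x) i

/-- the weight: a product of tent functions in the log-coordinates -/
def omega (x : mixedSpace F) : ℝ :=
  if mixedEmbedding.norm x = 0 then 0 else tentPi (coords F x)

theorem omega_nonneg (x : mixedSpace F) : 0 ≤ omega F x := by
  unfold omega
  split_ifs
  · exact le_rfl
  · exact tentPi_nonneg _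

theorem omega_le_one (x : mixedSpace F) : omega F x ≤ 1 := by
  unfold omega
  split_ifs
  · exact zero_le_one
  · exact tentPi_le_one _

theorem omega_of_norm_eq_zero {x : mixedSpace F} (h : mixedEmbedding.norm x = 0) :
    omega F x = 0 := if_pos h

theorem omega_of_norm_ne_zero {x : mixedSpace F} (h : mixedEmbedding.norm x ≠ 0) :
    omega F x = tentPi (coords F x) := if_neg h

theorem norm_ne_zero_of_omega_ne_zero {x : mixedSpace F} (h : omega F x ≠ 0) :
    mixedEmbedding.norm x ≠ 0 := fun h0 => h (omega_of_norm_eq_zero F h0)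

theorem abs_coords_lt_one_of_omega_ne_zero {x : mixedSpace F} (h : omega F x ≠ 0)
    (i : Fin (rank F)) : |coords F x i| < 1 := by
  rw [omega_of_norm_ne_zero F (norm_ne_zero_of_omega_ne_zero F h)] at h
  exact abs_lt_one_of_tentPi_ne_zero h i

/-- the log embedding of `ζ * ∏ i, fundSystem i ^ e i` -/
theorem logEmbedding_mul_prod {ζ : (𝓞 F)ˣ} (hζ : ζ ∈ torsion F) (e : Fin (rank F) → ℤ) :
    logEmbedding F (Additive.ofMul (ζ * ∏ i, (fundSystem F i) ^ (e i))) =
      ∑ i, (e i : ℝ) • logBasis F i := by
  rw [ofMul_mul, map_add, (logEmbedding_eq_zero_iff (K := F)).mpr hζ, zero_add, ofMul_prod,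
    map_sum]
  refine Finset.sum_congr rfl fun i _ => ?_
  rw [ofMul_zpow, map_zsmul, logEmbedding_fundSystem, logBasis, Basis.ofZLatticeBasis_apply,
    Int.cast_smul_eq_zsmul]

theorem coords_unit_smul {x : mixedSpace F} (hx : mixedEmbedding.norm x ≠ 0) {ζ : (𝓞 F)ˣ}
    (hζ : ζ ∈ torsion F) (e : Fin (rank F) → ℤ) (i : Fin (rank F)) :
    coords F ((ζ * ∏ i, (fundSystem F i) ^ (e i)) • x) i = coords F x i + e i := by
  unfold coords
  rw [logMap_unit_smul _ hx, logEmbedding_mul_prod F hζ, map_add, Finsupp.add_apply,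
    Basis.repr_sum_self, add_comm]

/-- the units as the product of the torsion and `ℤ ^ rank` -/
def unitsEquiv : torsion F × (Fin (rank F) → ℤ) ≃ (𝓞 F)ˣ :=
  Equiv.ofBijective (fun p => (p.1 : (𝓞 F)ˣ) * ∏ i, (fundSystem F i) ^ (p.2 i)) <| by
    rw [Function.bijective_iff_existsUnique]
    intro u
    obtain ⟨p, hp, hu⟩ := exist_unique_eq_mul_prod F u
    exact ⟨p, hp.symm, fun q hq => hu q hq.symm⟩

theorem unitsEquiv_apply (p : torsion F × (Fin (rank F) → ℤ)) :
    unitsEquiv F p = (p.1 : (𝓞 F)ˣ) * ∏ i, (fundSystem F i) ^ (p.2 i) := rfl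

/-- **the weight is a partition of unity under the units, up to the roots of unity** -/
theorem hasSum_omega_unit_smul {x : mixedSpace F} (hx : mixedEmbedding.norm x ≠ 0) :
    HasSum (fun u : (𝓞 F)ˣ => omega F (u • x)) (torsionOrder F : ℝ) := by
  classical
  rw [← (unitsEquiv F).hasSum_iff]
  have hval : ∀ p : torsion F × (Fin (rank F) → ℤ),
      ((fun u : (𝓞 F)ˣ => omega F (u • x)) ∘ unitsEquiv F) p =
        tentPi (fun i => coords F x i + p.2 i) := by
    intro p
    have hn : mixedEmbedding.norm ((unitsEquiv F p) • x) ≠ 0 := by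
      rw [norm_unit_smul]; exact hx
    show omega F ((unitsEquiv F p) • x) = _
    rw [omega_of_norm_ne_zero F hn, unitsEquiv_apply]
    congr 1
    funext i
    exact coords_unit_smul F hx p.1.2 p.2 i
  rw [show ((fun u : (𝓞 F)ˣ => omega F (u • x)) ∘ unitsEquiv F) =
    fun p : torsion F × (Fin (rank F) → ℤ) => tentPi (fun i => coords F x i + p.2 i) from
    funext hval]
  have hfin : (Function.support fun p : torsion F × (Fin (rank F) → ℤ) =>
      tentPi (fun i => coords F x i + p.2 i)).Finite := by
    refine (Set.finite_univ.prod (finite_support_tentPi (coords F x))).subset ?_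
    intro p hp
    exact ⟨Set.mem_univ _, hp⟩
  have hsum : Summable fun p : torsion F × (Fin (rank F) → ℤ) =>
      tentPi (fun i => coords F x i + p.2 i) := summable_of_hasFiniteSupport hfin
  have h1 := hasSum_tentPi (coords F x)
  have htsum : ∑' p : torsion F × (Fin (rank F) → ℤ), tentPi (fun i => coords F x i + p.2 i) =
      (torsionOrder F : ℝ) := by
    rw [hsum.tsum_prod' fun _ => h1.summable]
    simp only [h1.tsum_eq, tsum_const, nsmul_eq_mul, mul_one]
    rw [torsionOrder]
  rw [← htsum]
  exact hsum.hasSum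

/-- the norm on the mixed space of the image of a nonzero integer does not vanish -/
theorem norm_mixedEmbedding_ne_zero {α : 𝓞 F} (hα : α ≠ 0) :
    mixedEmbedding.norm (mixedEmbedding F (α : F)) ≠ 0 := by
  rw [mixedEmbedding.norm_eq_norm]
  have : (Algebra.norm ℚ) (α : F) ≠ 0 := by
    rw [ne_eq, Algebra.norm_eq_zero_iff]
    exact RingOfIntegers.coe_ne_zero_iff.mpr hα
  positivity

/-- `α ↦ omega (mixedEmbedding α)` is a unit weight -/
theorem unitWeight_omega (F : Type) [Field F] [NumberField F] :
    Seams.UnitWeight F fun α : 𝓞 F => omega F (mixedEmbedding F (α : F)) := by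
  refine ⟨fun α => omega_nonneg F _, fun α hα => ?_⟩
  have h := hasSum_omega_unit_smul F (norm_mixedEmbedding_ne_zero F hα)
  have hfun : (fun u : (𝓞 F)ˣ => omega F (mixedEmbedding F (((u : 𝓞 F) * α : 𝓞 F) : F))) =
      fun u : (𝓞 F)ˣ => omega F (u • mixedEmbedding F (α : F)) := by
    funext u
    rw [unitSMul_smul, ← map_mul]
    rfl
  rw [hfun]
  exact h

/-- bookkeeping: the congruence lemma of `omega` is generated in this file -/
theorem omega_congr_stored (x : mixedSpace F) : omega F x = omega F x := by
  have := @omega.congr_simp F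
  rfl

end Fermat.Agent.S48.A.TwistL.Weight
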