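/-
PROJECT D (S48), part A, brick A6c (helper24): THE ANALYTIC CORE OF CHEBOTAREV, file 5.

THE SUPPORT OF THE WEIGHT IS A BALANCED CONE, AND THE LOG-COORDINATES ARE LIPSCHITZ THERE.

* `balanced_of_omega_ne_zero`: if `omega F x ≠ 0` then `balConst F * ‖x‖ ≤ normAtPlace w x`
  for every place `w`.
* `exists_lipschitz_data`: near such an `x` (`‖y - x‖ ≤ balConst F / 2 * ‖x‖`) the norm of `y`
  does not vanish, and `log (norm y) - log (norm x)`, `omega F y - omega F x` are
  `O(‖y - x‖ / ‖x‖)`.

Mathlib + `Weight.lean`.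
-/
import Mathlib
import Fermat.Agent.S48.A.TwistL.Weight

set_option autoImplicit false

noncomputable section

namespace Fermat.Agent.S48.A.TwistL.Balanced

open NumberField NumberField.InfinitePlace NumberField.mixedEmbedding NumberField.Units
  NumberField.Units.dirichletUnitTheorem Module Fermat.Agent.S48.A.TwistL.Tent
  Fermat.Agent.S48.A.TwistL.Weight Finset

open scoped Classical

variable (F : Type*) [Field F] [NumberField F]

theorem normAtPlace_le_norm (w : InfinitePlace F) (x : mixedSpace F) :
    normAtPlace w x ≤ ‖x‖ := by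
  rw [norm_eq_sup'_normAtPlace]
  exact Finset.le_sup' (fun w => normAtPlace w x) (Finset.mem_univ w)

theorem exists_normAtPlace_eq_norm (x : mixedSpace F) : ∃ w, normAtPlace w x = ‖x‖ := by
  rw [norm_eq_sup'_normAtPlace]
  obtain ⟨w, _, hw⟩ := Finset.exists_mem_eq_sup' Finset.univ_nonempty (fun w => normAtPlace w x)
  exact ⟨w, hw.symm⟩

theorem abs_normAtPlace_sub_le (w : InfinitePlace F) (x y : mixedSpace F) :
    |normAtPlace w y - normAtPlace w x| ≤ ‖y - x‖ := by
  have h1 : normAtPlace w y ≤ normAtPlace w x + normAtPlace w (y - x) := by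
    have := normAtPlace_add_le w x (y - x)
    rwa [add_sub_cancel] at this
  have h2 : normAtPlace w x ≤ normAtPlace w y + normAtPlace w (y - x) := by
    have := normAtPlace_add_le w y (x - y)
    rw [add_sub_cancel] at this
    rwa [← neg_sub y x, normAtPlace_neg] at this
  have h3 := normAtPlace_le_norm F w (y - x)
  rw [abs_le]
  constructor <;> linarith

/-- the logarithm of the norm as a sum over the places -/
theorem log_norm_eq {x : mixedSpace F} (hx : mixedEmbedding.norm x ≠ 0) :
    Real.log (mixedEmbedding.norm x) = ∑ w, (mult w : ℝ) * Real.log (normAtPlace w x) := by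
  rw [mixedEmbedding.norm_apply, Real.log_prod]
  · refine sum_congr rfl fun w _ => ?_
    rw [Real.log_pow]
  · intro w _
    exact pow_ne_zero _ (mixedEmbedding.norm_ne_zero_iff.mp hx w)

/-- the deviation of the logarithm of a coordinate from the mean -/
def dev (x : mixedSpace F) (w : InfinitePlace F) : ℝ :=
  Real.log (normAtPlace w x) - Real.log (mixedEmbedding.norm x) * (finrank ℚ F : ℝ)⁻¹

theorem logMap_eq_mult_mul_dev (x : mixedSpace F) (w : {w : InfinitePlace F // w ≠ w₀}) :
    logMap x w = mult w.val * dev F x w.val := rfl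

theorem sum_mult_mul_dev {x : mixedSpace F} (hx : mixedEmbedding.norm x ≠ 0) :
    ∑ w, (mult w : ℝ) * dev F x w = 0 := by
  unfold dev
  simp_rw [mul_sub]
  rw [sum_sub_distrib, ← log_norm_eq F hx]
  simp_rw [← mul_assoc, mul_comm _ (Real.log (mixedEmbedding.norm x)), mul_assoc]
  rw [← mul_sum, ← sum_mul, ← Nat.cast_sum, sum_mult_eq,
    mul_inv_cancel₀ (Nat.cast_ne_zero.mpr finrank_pos.ne'), mul_one, sub_self]

/-- the bound for the log map on the support of the weight -/
def logBound : ℝ := ∑ i, ‖logBasis F i‖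

theorem logBound_nonneg : 0 ≤ logBound F := sum_nonneg fun _ _ => norm_nonneg _

theorem norm_logMap_le {x : mixedSpace F} (hx : omega F x ≠ 0) : ‖logMap x‖ ≤ logBound F := by
  have h := (logBasis F).sum_repr (logMap x)
  rw [← h]
  refine (norm_sum_le _ _).trans (sum_le_sum fun i _ => ?_)
  rw [_root_.norm_smul, Real.norm_eq_abs]
  have := abs_coords_lt_one_of_omega_ne_zero F hx i
  unfold coords at this
  calc |((logBasis F).repr (logMap x)) i| * ‖logBasis F i‖ ≤ 1 * ‖logBasis F i‖ :=
        mul_le_mul_of_nonneg_right this.le (norm_nonneg _)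
    _ = ‖logBasis F i‖ := one_mul _

/-- the bound for the deviations on the support of the weight -/
def devBound : ℝ := (Fintype.card (InfinitePlace F) : ℝ) * logBound F

theorem devBound_nonneg : 0 ≤ devBound F :=
  mul_nonneg (Nat.cast_nonneg _) (logBound_nonneg F)

theorem abs_dev_le {x : mixedSpace F} (hx : omega F x ≠ 0) (w : InfinitePlace F) :
    |dev F x w| ≤ devBound F := by
  have hN := norm_ne_zero_of_omega_ne_zero F hx
  have hB := norm_logMap_le F hx
  have hB0 := logBound_nonneg F
  have hcard : (1 : ℝ) ≤ Fintype.card (InfinitePlace F) := by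
    exact_mod_cast Fintype.card_pos
  have hne : ∀ v : {w : InfinitePlace F // w ≠ w₀}, |(mult v.val : ℝ) * dev F x v.val| ≤
      logBound F := fun v => by
    rw [← logMap_eq_mult_mul_dev, ← Real.norm_eq_abs]
    exact (norm_le_pi_norm (logMap x) v).trans hB
  have hmul : ∀ v : InfinitePlace F, |dev F x v| ≤ |(mult v : ℝ) * dev F x v| := fun v => by
    rw [abs_mul, abs_of_nonneg (by positivity : (0 : ℝ) ≤ mult v)]
    exact le_mul_of_one_le_left (abs_nonneg _) one_le_mult
  by_cases hw : w = w₀
  · subst hw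
    have hsum := sum_mult_mul_dev F hN
    rw [Fintype.sum_eq_add_sum_subtype_ne _ (w₀ : InfinitePlace F)] at hsum
    have h0 : (mult (w₀ : InfinitePlace F) : ℝ) * dev F x w₀ =
        -∑ v : {w : InfinitePlace F // w ≠ w₀}, (mult v.val : ℝ) * dev F x v.val := by
      linarith
    refine (hmul w₀).trans ?_
    rw [h0, abs_neg]
    refine (abs_sum_le_sum_abs _ _).trans ?_
    refine (sum_le_sum fun v _ => hne v).trans ?_
    rw [sum_const, nsmul_eq_mul, devBound]
    refine mul_le_mul_of_nonneg_right ?_ hB0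
    rw [card_univ]
    exact_mod_cast Fintype.card_subtype_le _
  · refine ((hmul w).trans (hne ⟨w, hw⟩)).trans ?_
    rw [devBound]
    exact le_mul_of_one_le_left hB0 hcard

/-- the balancing constant -/
def balConst : ℝ := Real.exp (-(2 * devBound F))

theorem balConst_pos : 0 < balConst F := Real.exp_pos _

theorem balConst_le_one : balConst F ≤ 1 := by
  rw [balConst, ← Real.exp_zero]
  exact Real.exp_le_exp.mpr (by linarith [devBound_nonneg F])

/-- **on the support of the weight all the coordinates are comparable to the norm** -/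
theorem balanced_of_omega_ne_zero {x : mixedSpace F} (hx : omega F x ≠ 0) (w : InfinitePlace F) :
    balConst F * ‖x‖ ≤ normAtPlace w x := by
  have hN := norm_ne_zero_of_omega_ne_zero F hx
  have hpos : ∀ v, 0 < normAtPlace v x := fun v =>
    lt_of_le_of_ne (normAtPlace_nonneg v x) (Ne.symm (mixedEmbedding.norm_ne_zero_iff.mp hN v))
  obtain ⟨w₁, hw₁⟩ := exists_normAtPlace_eq_norm F x
  have hxpos : 0 < ‖x‖ := hw₁ ▸ hpos w₁
  have h1 := abs_le.mp (abs_dev_le F hx w₁)
  have h2 := abs_le.mp (abs_dev_le F hx w)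
  unfold dev at h1 h2
  rw [hw₁] at h1
  have hlog : Real.log ‖x‖ - 2 * devBound F ≤ Real.log (normAtPlace w x) := by linarith [h1.2, h2.1]
  have := Real.exp_le_exp.mpr hlog
  rw [Real.exp_log (hpos w), Real.exp_sub, Real.exp_log hxpos] at this
  rw [balConst, Real.exp_neg, mul_comm]
  exact this

theorem ne_zero_of_omega_ne_zero {x : mixedSpace F} (hx : omega F x ≠ 0) : x ≠ 0 := by
  rintro rfl
  exact norm_ne_zero_of_omega_ne_zero F hx (map_zero _)

/-- an elementary bound for the logarithm -/
theorem abs_log_sub_log_le {a b m : ℝ} (hm : 0 < m) (ha : m ≤ a) (hb : m ≤ b) :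
    |Real.log b - Real.log a| ≤ |b - a| / m := by
  have ha0 : 0 < a := hm.trans_le ha
  have hb0 : 0 < b := hm.trans_le hb
  have key : ∀ {u v : ℝ}, m ≤ u → m ≤ v → Real.log v - Real.log u ≤ |v - u| / m := by
    intro u v hu hv
    have hu0 : 0 < u := hm.trans_le hu
    have hv0 : 0 < v := hm.trans_le hv
    rw [← Real.log_div hv0.ne' hu0.ne']
    refine (Real.log_le_sub_one_of_pos (div_pos hv0 hu0)).trans ?_
    have : v / u - 1 = (v - u) / u := by field_simp
    rw [this]
    refine (div_le_div_of_nonneg_right (le_abs_self _) hu0.le).trans ?_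
    exact div_le_div_of_nonneg_left (abs_nonneg _) hm hu
  rw [abs_le]
  constructor
  · have := key hb ha
    rw [abs_sub_comm] at this
    linarith
  · exact key ha hb

/-- the logarithms of the coordinates are Lipschitz near a balanced point -/
theorem log_normAtPlace_lipschitz {x y : mixedSpace F} {c : ℝ} (hc : 0 < c)
    (hx : ∀ w, c * ‖x‖ ≤ normAtPlace w x) (hx0 : x ≠ 0) (hxy : ‖y - x‖ ≤ c / 2 * ‖x‖)
    (w : InfinitePlace F) :
    c / 2 * ‖x‖ ≤ normAtPlace w y ∧
      |Real.log (normAtPlace w y) - Real.log (normAtPlace w x)| ≤ 2 / c * (‖y - x‖ / ‖x‖) := by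
  have hxpos : 0 < ‖x‖ := norm_pos_iff.mpr hx0
  have hm : 0 < c / 2 * ‖x‖ := by positivity
  have hd := abs_le.mp (abs_normAtPlace_sub_le F w x y)
  have hy : c / 2 * ‖x‖ ≤ normAtPlace w y := by linarith [hx w, hd.1]
  have hx' : c / 2 * ‖x‖ ≤ normAtPlace w x := by linarith [hx w]
  refine ⟨hy, (abs_log_sub_log_le hm hx' hy).trans ?_⟩
  refine (div_le_div_of_nonneg_right (abs_normAtPlace_sub_le F w x y) hm.le).trans (le_of_eq ?_)
  field_simp

/-- the operator norm of the `i`-th coordinate of the log space -/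
def coordNorm (i : Fin (rank F)) : ℝ :=
  ‖LinearMap.toContinuousLinearMap ((logBasis F).coord i)‖

/-- the Lipschitz constant of the log-coordinates on the support of the weight -/
def lipConst : ℝ :=
  (2 / (balConst F)) * ((finrank ℚ F : ℝ) + 8 * ∑ i, coordNorm F i)

theorem lipConst_nonneg : 0 ≤ lipConst F := by
  unfold lipConst
  have : 0 ≤ ∑ i, coordNorm F i := sum_nonneg fun _ _ => norm_nonneg _
  have := balConst_pos F
  positivity

/-- **Lipschitz bounds for `log norm` and for the weight near the support of the weight** -/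
theorem exists_lipschitz_data {x y : mixedSpace F} (hx : omega F x ≠ 0)
    (hxy : ‖y - x‖ ≤ balConst F / 2 * ‖x‖) :
    mixedEmbedding.norm y ≠ 0 ∧ (∀ w, balConst F / 2 * ‖x‖ ≤ normAtPlace w y) ∧
      |Real.log (mixedEmbedding.norm y) - Real.log (mixedEmbedding.norm x)| ≤
        lipConst F * (‖y - x‖ / ‖x‖) ∧
      |omega F y - omega F x| ≤ lipConst F * (‖y - x‖ / ‖x‖) := by
  have hc := balConst_pos F
  have hx0 := ne_zero_of_omega_ne_zero F hx
  have hxpos : 0 < ‖x‖ := norm_pos_iff.mpr hx0
  have hNx := norm_ne_zero_of_omega_ne_zero F hx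
  have hL := fun w => log_normAtPlace_lipschitz F hc (balanced_of_omega_ne_zero F hx) hx0 hxy w
  have hNy : mixedEmbedding.norm y ≠ 0 := by
    rw [mixedEmbedding.norm_ne_zero_iff]
    intro w
    have : 0 < balConst F / 2 * ‖x‖ := by positivity
    exact (this.trans_le (hL w).1).ne'
  set r : ℝ := ‖y - x‖ / ‖x‖ with hr
  have hr0 : 0 ≤ r := div_nonneg (norm_nonneg _) (norm_nonneg _)
  set ρ : ℝ := 2 / balConst F * r with hρ
  have hρ0 : 0 ≤ ρ := by positivity
  have hd : (0 : ℝ) < finrank ℚ F := Nat.cast_pos.mpr finrank_pos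
  -- the logarithm of the norm
  have hlogN : |Real.log (mixedEmbedding.norm y) - Real.log (mixedEmbedding.norm x)| ≤
      (finrank ℚ F : ℝ) * ρ := by
    rw [log_norm_eq F hNy, log_norm_eq F hNx, ← sum_sub_distrib]
    refine (abs_sum_le_sum_abs _ _).trans ?_
    have : ∀ w ∈ (univ : Finset (InfinitePlace F)),
        |(mult w : ℝ) * Real.log (normAtPlace w y) - (mult w : ℝ) * Real.log (normAtPlace w x)| ≤
          (mult w : ℝ) * ρ := fun w _ => by
      rw [← mul_sub, abs_mul, abs_of_nonneg (by positivity : (0 : ℝ) ≤ mult w)]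
      exact mul_le_mul_of_nonneg_left (hL w).2 (by positivity)
    refine (sum_le_sum this).trans (le_of_eq ?_)
    rw [← sum_mul, ← Nat.cast_sum, sum_mult_eq]
  -- the log map
  have hlogMap : ‖logMap y - logMap x‖ ≤ 4 * ρ := by
    rw [pi_norm_le_iff_of_nonneg (by positivity)]
    intro v
    rw [Pi.sub_apply, logMap_apply, logMap_apply, ← mul_sub, Real.norm_eq_abs, abs_mul,
      abs_of_nonneg (by positivity : (0 : ℝ) ≤ mult v.val)]
    have h1 : (mult v.val : ℝ) ≤ 2 := by
      rw [mult]; split_ifs <;> norm_num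
    have h2 : |Real.log (normAtPlace v.val y) -
        Real.log (mixedEmbedding.norm y) * (finrank ℚ F : ℝ)⁻¹ -
        (Real.log (normAtPlace v.val x) -
          Real.log (mixedEmbedding.norm x) * (finrank ℚ F : ℝ)⁻¹)| ≤ 2 * ρ := by
      have e : Real.log (normAtPlace v.val y) -
          Real.log (mixedEmbedding.norm y) * (finrank ℚ F : ℝ)⁻¹ -
          (Real.log (normAtPlace v.val x) -
            Real.log (mixedEmbedding.norm x) * (finrank ℚ F : ℝ)⁻¹) =
          (Real.log (normAtPlace v.val y) - Real.log (normAtPlace v.val x)) -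
            (Real.log (mixedEmbedding.norm y) - Real.log (mixedEmbedding.norm x)) *
              (finrank ℚ F : ℝ)⁻¹ := by ring
      rw [e]
      refine (abs_sub _ _).trans ?_
      have h3 : |(Real.log (mixedEmbedding.norm y) - Real.log (mixedEmbedding.norm x)) *
          (finrank ℚ F : ℝ)⁻¹| ≤ ρ := by
        rw [abs_mul, abs_of_nonneg (inv_nonneg.mpr hd.le)]
        calc |Real.log (mixedEmbedding.norm y) - Real.log (mixedEmbedding.norm x)| *
            (finrank ℚ F : ℝ)⁻¹ ≤ ((finrank ℚ F : ℝ) * ρ) * (finrank ℚ F : ℝ)⁻¹ :=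
              mul_le_mul_of_nonneg_right hlogN (inv_nonneg.mpr hd.le)
          _ = ρ := by field_simp
      linarith [(hL v.val).2]
    calc (mult v.val : ℝ) * _ ≤ 2 * (2 * ρ) :=
          mul_le_mul h1 h2 (abs_nonneg _) (by norm_num)
      _ = 4 * ρ := by ring
  -- the coordinates
  have hcoord : ∀ i, |coords F y i - coords F x i| ≤ coordNorm F i * (4 * ρ) := by
    intro i
    unfold coords
    have e : ((logBasis F).repr (logMap y)) i - ((logBasis F).repr (logMap x)) i =
        LinearMap.toContinuousLinearMap ((logBasis F).coord i) (logMap y - logMap x) := by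
      rw [LinearMap.coe_toContinuousLinearMap', map_sub, Basis.coord_apply, Basis.coord_apply]
    rw [e, ← Real.norm_eq_abs]
    refine (ContinuousLinearMap.le_opNorm _ _).trans ?_
    exact mul_le_mul_of_nonneg_left hlogMap (norm_nonneg _)
  have hS : 0 ≤ ∑ i, coordNorm F i := sum_nonneg fun _ _ => norm_nonneg _
  refine ⟨hNy, fun w => (hL w).1, ?_, ?_⟩
  · refine hlogN.trans ?_
    rw [lipConst, hρ]
    have : (finrank ℚ F : ℝ) * (2 / balConst F * r) =
        2 / balConst F * (finrank ℚ F : ℝ) * r := by ring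
    rw [this]
    have h8 : 2 / balConst F * (finrank ℚ F : ℝ) ≤
        2 / balConst F * ((finrank ℚ F : ℝ) + 8 * ∑ i, coordNorm F i) := by
      apply mul_le_mul_of_nonneg_left _ (by positivity)
      linarith
    exact mul_le_mul_of_nonneg_right h8 hr0
  · rw [omega_of_norm_ne_zero F hNy, omega_of_norm_ne_zero F hNx]
    refine (abs_tentPi_sub_le _ _).trans ?_
    refine (sum_le_sum fun i _ => hcoord i).trans ?_
    rw [← sum_mul, lipConst, hρ]
    have : (∑ i, coordNorm F i) * (4 * (2 / balConst F * r)) =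
        2 / balConst F * (4 * ∑ i, coordNorm F i) * r := by ring
    rw [this]
    have h8 : 2 / balConst F * (4 * ∑ i, coordNorm F i) ≤
        2 / balConst F * ((finrank ℚ F : ℝ) + 8 * ∑ i, coordNorm F i) := by
      apply mul_le_mul_of_nonneg_left _ (by positivity)
      linarith
    exact mul_le_mul_of_nonneg_right h8 hr0

/-- bookkeeping: the congruence lemma of `lipConst` is generated in this file -/
theorem lipConst_congr_stored : lipConst F = lipConst F := lipConst.congr_simp F

end Fermat.Agent.S48.A.TwistL.Balanced
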