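/-
PROJECT D (S48), part A, brick A6c (helper24): THE ANALYTIC CORE OF CHEBOTAREV, file 2.

THE CLASS `IsBL` OF FUNCTIONS `ℝ → ℂ` THAT ARE BOUNDED AND LIPSCHITZ ON `(1, 2]`.
It is closed under sums, products, finite sums; it contains `s ↦ a ^ s` (`a > 0`), and the
inverse of a real member that is `≥ 1`.  A member extends continuously to `[1, 2]`
(`IsBL.exists_continuousOn`).

Mathlib only.
-/
import Mathlib

set_option autoImplicit false

noncomputable section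

namespace Fermat.Agent.S48.A.TwistL.BL

open Set

/-- bounded and Lipschitz on `(1, 2]` -/
def IsBL (f : ℝ → ℂ) : Prop :=
  ∃ C : ℝ, ∀ s ∈ Ioc (1 : ℝ) 2, ∀ s' ∈ Ioc (1 : ℝ) 2, ‖f s‖ ≤ C ∧ ‖f s - f s'‖ ≤ C * |s - s'|

theorem isBL_iff {f : ℝ → ℂ} :
    IsBL f ↔ ∃ C : ℝ, 0 ≤ C ∧ (∀ s ∈ Ioc (1 : ℝ) 2, ‖f s‖ ≤ C) ∧
      ∀ s ∈ Ioc (1 : ℝ) 2, ∀ s' ∈ Ioc (1 : ℝ) 2, ‖f s - f s'‖ ≤ C * |s - s'| := by
  constructor
  · rintro ⟨C, hC⟩
    have h2 : (2 : ℝ) ∈ Ioc (1 : ℝ) 2 := ⟨by norm_num, le_rfl⟩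
    refine ⟨C, (norm_nonneg _).trans (hC 2 h2 2 h2).1, fun s hs => (hC s hs s hs).1,
      fun s hs s' hs' => (hC s hs s' hs').2⟩
  · rintro ⟨C, _, h1, h2⟩
    exact ⟨C, fun s hs s' hs' => ⟨h1 s hs, h2 s hs s' hs'⟩⟩

theorem IsBL.mk' {f : ℝ → ℂ} (C : ℝ) (h1 : ∀ s ∈ Ioc (1 : ℝ) 2, ‖f s‖ ≤ C)
    (h2 : ∀ s ∈ Ioc (1 : ℝ) 2, ∀ s' ∈ Ioc (1 : ℝ) 2, ‖f s - f s'‖ ≤ C * |s - s'|) : IsBL f :=
  ⟨C, fun s hs s' hs' => ⟨h1 s hs, h2 s hs s' hs'⟩⟩

theorem IsBL.mk₂ {f : ℝ → ℂ} (C₁ C₂ : ℝ) (h1 : ∀ s ∈ Ioc (1 : ℝ) 2, ‖f s‖ ≤ C₁)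
    (h2 : ∀ s ∈ Ioc (1 : ℝ) 2, ∀ s' ∈ Ioc (1 : ℝ) 2, ‖f s - f s'‖ ≤ C₂ * |s - s'|) : IsBL f := by
  refine IsBL.mk' (max C₁ C₂) (fun s hs => (h1 s hs).trans (le_max_left _ _)) ?_
  intro s hs s' hs'
  exact (h2 s hs s' hs').trans (mul_le_mul_of_nonneg_right (le_max_right _ _) (abs_nonneg _))

theorem isBL_const (c : ℂ) : IsBL fun _ => c :=
  IsBL.mk' ‖c‖ (fun _ _ => le_rfl) fun s _ s' _ => by
    rw [sub_self, norm_zero]
    exact mul_nonneg (norm_nonneg _) (abs_nonneg _)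

theorem IsBL.congr {f g : ℝ → ℂ} (hf : IsBL f) (h : ∀ s ∈ Ioc (1 : ℝ) 2, f s = g s) : IsBL g := by
  obtain ⟨C, hC⟩ := hf
  refine ⟨C, fun s hs s' hs' => ?_⟩
  rw [← h s hs, ← h s' hs']
  exact hC s hs s' hs'

theorem IsBL.add {f g : ℝ → ℂ} (hf : IsBL f) (hg : IsBL g) : IsBL fun s => f s + g s := by
  obtain ⟨A, _, hA1, hA2⟩ := isBL_iff.mp hf
  obtain ⟨B, _, hB1, hB2⟩ := isBL_iff.mp hg
  refine IsBL.mk' (A + B) (fun s hs => (norm_add_le _ _).trans (add_le_add (hA1 s hs) (hB1 s hs)))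
    fun s hs s' hs' => ?_
  have : f s + g s - (f s' + g s') = (f s - f s') + (g s - g s') := by ring
  rw [this, add_mul]
  exact (norm_add_le _ _).trans (add_le_add (hA2 s hs s' hs') (hB2 s hs s' hs'))

theorem IsBL.neg {f : ℝ → ℂ} (hf : IsBL f) : IsBL fun s => -f s := by
  obtain ⟨A, _, hA1, hA2⟩ := isBL_iff.mp hf
  refine IsBL.mk' A (fun s hs => by rw [norm_neg]; exact hA1 s hs) fun s hs s' hs' => ?_
  have : -f s - -f s' = -(f s - f s') := by ring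
  rw [this, norm_neg]
  exact hA2 s hs s' hs'

theorem IsBL.sub {f g : ℝ → ℂ} (hf : IsBL f) (hg : IsBL g) : IsBL fun s => f s - g s := by
  have := hf.add hg.neg
  exact this.congr fun s _ => by ring

theorem IsBL.mul {f g : ℝ → ℂ} (hf : IsBL f) (hg : IsBL g) : IsBL fun s => f s * g s := by
  obtain ⟨A, hA0, hA1, hA2⟩ := isBL_iff.mp hf
  obtain ⟨B, hB0, hB1, hB2⟩ := isBL_iff.mp hg
  refine IsBL.mk₂ (A * B) (A * B + A * B)
    (fun s hs => by
      rw [norm_mul]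
      exact mul_le_mul (hA1 s hs) (hB1 s hs) (norm_nonneg _) hA0)
    fun s hs s' hs' => ?_
  have : f s * g s - f s' * g s' = (f s - f s') * g s + f s' * (g s - g s') := by ring
  rw [this, add_mul]
  refine (norm_add_le _ _).trans (add_le_add ?_ ?_)
  · rw [norm_mul]
    calc ‖f s - f s'‖ * ‖g s‖ ≤ (A * |s - s'|) * B :=
          mul_le_mul (hA2 s hs s' hs') (hB1 s hs) (norm_nonneg _)
            (mul_nonneg hA0 (abs_nonneg _))
      _ = A * B * |s - s'| := by ring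
  · rw [norm_mul]
    calc ‖f s'‖ * ‖g s - g s'‖ ≤ A * (B * |s - s'|) :=
          mul_le_mul (hA1 s' hs') (hB2 s hs s' hs') (norm_nonneg _) hA0
      _ = A * B * |s - s'| := by ring

theorem IsBL.const_mul {f : ℝ → ℂ} (c : ℂ) (hf : IsBL f) : IsBL fun s => c * f s :=
  (isBL_const c).mul hf

theorem IsBL.mul_const {f : ℝ → ℂ} (hf : IsBL f) (c : ℂ) : IsBL fun s => f s * c :=
  hf.mul (isBL_const c)

theorem IsBL.sum {ι : Type*} (t : Finset ι) {f : ι → ℝ → ℂ} (hf : ∀ i ∈ t, IsBL (f i)) :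
    IsBL fun s => ∑ i ∈ t, f i s := by
  classical
  induction t using Finset.induction_on with
  | empty => simpa using isBL_const 0
  | insert a t ha ih =>
    have h1 : IsBL (f a) := hf a (Finset.mem_insert_self a t)
    have h2 := ih fun i hi => hf i (Finset.mem_insert_of_mem hi)
    exact (h1.add h2).congr fun s _ => by rw [Finset.sum_insert ha]

theorem IsBL.pow {f : ℝ → ℂ} (hf : IsBL f) (n : ℕ) : IsBL fun s => f s ^ n := by
  induction n with
  | zero => simpa using isBL_const 1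
  | succ k ih => exact (ih.mul hf).congr fun s _ => (pow_succ (f s) k).symm

/-- a real function with a bounded derivative on `[1, 2]` is in the class -/
theorem isBL_of_hasDerivAt {f f' : ℝ → ℝ} (C : ℝ)
    (hd : ∀ s ∈ Icc (1 : ℝ) 2, HasDerivAt f (f' s) s)
    (hb : ∀ s ∈ Icc (1 : ℝ) 2, |f s| ≤ C) (hb' : ∀ s ∈ Icc (1 : ℝ) 2, |f' s| ≤ C) :
    IsBL fun s => ((f s : ℝ) : ℂ) := by
  refine IsBL.mk' C (fun s hs => ?_) fun s hs s' hs' => ?_
  · rw [Complex.norm_real, Real.norm_eq_abs]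
    exact hb s ⟨hs.1.le, hs.2⟩
  · rw [← Complex.ofReal_sub, Complex.norm_real, Real.norm_eq_abs]
    have hs1 : s ∈ Icc (1 : ℝ) 2 := ⟨hs.1.le, hs.2⟩
    have hs2 : s' ∈ Icc (1 : ℝ) 2 := ⟨hs'.1.le, hs'.2⟩
    have := Convex.norm_image_sub_le_of_norm_hasDerivWithin_le (f := f) (f' := f') (C := C)
      (s := Icc (1 : ℝ) 2) (fun x hx => (hd x hx).hasDerivWithinAt)
      (fun x hx => by rw [Real.norm_eq_abs]; exact hb' x hx) (convex_Icc 1 2) hs2 hs1
    simpa [Real.norm_eq_abs] using this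

/-- `s ↦ a ^ (c * s + e)` is in the class (`a > 0`) -/
theorem isBL_rpow_affine {a : ℝ} (ha : 0 < a) (c e : ℝ) :
    IsBL fun s => (((a ^ (c * s + e) : ℝ)) : ℂ) := by
  set B : ℝ := Real.exp (|Real.log a| * (|c| * 2 + |e|)) with hB
  have hval : ∀ s ∈ Icc (1 : ℝ) 2, a ^ (c * s + e) ≤ B := by
    intro s hs
    rw [Real.rpow_def_of_pos ha, hB]
    apply Real.exp_le_exp.mpr
    have h1 : |c * s + e| ≤ |c| * 2 + |e| := by
      refine (abs_add_le _ _).trans (add_le_add ?_ le_rfl)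
      rw [abs_mul]
      exact mul_le_mul_of_nonneg_left (by rw [abs_of_nonneg (by linarith [hs.1])]; exact hs.2)
        (abs_nonneg _)
    calc Real.log a * (c * s + e) ≤ |Real.log a * (c * s + e)| := le_abs_self _
      _ = |Real.log a| * |c * s + e| := abs_mul _ _
      _ ≤ |Real.log a| * (|c| * 2 + |e|) := mul_le_mul_of_nonneg_left h1 (abs_nonneg _)
  have hB1 : 0 ≤ B := (Real.exp_pos _).le
  refine isBL_of_hasDerivAt (f := fun s => a ^ (c * s + e))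
    (f' := fun s => a ^ (c * s + e) * Real.log a * c) (B * (1 + |Real.log a| * |c|)) ?_ ?_ ?_
  · intro s _
    have h1 : HasDerivAt (fun s : ℝ => c * s + e) c s := by
      simpa using ((hasDerivAt_id s).const_mul c).add_const e
    have h2 := (Real.hasStrictDerivAt_const_rpow ha (c * s + e)).hasDerivAt
    have := h2.comp s h1
    simpa [Function.comp_def] using this
  · intro s hs
    rw [abs_of_nonneg (Real.rpow_nonneg ha.le _)]
    refine (hval s hs).trans ?_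
    have : 0 ≤ |Real.log a| * |c| := mul_nonneg (abs_nonneg _) (abs_nonneg _)
    nlinarith
  · intro s hs
    rw [abs_mul, abs_mul, abs_of_nonneg (Real.rpow_nonneg ha.le _)]
    have h3 := hval s hs
    have h4 : 0 ≤ |Real.log a| * |c| := mul_nonneg (abs_nonneg _) (abs_nonneg _)
    calc a ^ (c * s + e) * |Real.log a| * |c| = a ^ (c * s + e) * (|Real.log a| * |c|) := by ring
      _ ≤ B * (|Real.log a| * |c|) := mul_le_mul_of_nonneg_right h3 h4
      _ ≤ B * (1 + |Real.log a| * |c|) := by nlinarith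

/-- the inverse of a real member of the class that is `≥ 1` on `(1, 2]` -/
theorem IsBL.inv_of_one_le {f : ℝ → ℝ} (hf : IsBL fun s => ((f s : ℝ) : ℂ))
    (h1 : ∀ s ∈ Ioc (1 : ℝ) 2, 1 ≤ f s) : IsBL fun s => (((f s)⁻¹ : ℝ) : ℂ) := by
  obtain ⟨A, hA0, _, hA2⟩ := isBL_iff.mp hf
  refine IsBL.mk₂ 1 A (fun s hs => ?_) fun s hs s' hs' => ?_
  · rw [Complex.norm_real, Real.norm_eq_abs, abs_of_nonneg (inv_nonneg.mpr (by linarith [h1 s hs]))]
    exact inv_le_one_of_one_le₀ (h1 s hs)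
  · have hp : 0 < f s := by linarith [h1 s hs]
    have hp' : 0 < f s' := by linarith [h1 s' hs']
    rw [← Complex.ofReal_sub, Complex.norm_real, Real.norm_eq_abs]
    have e : (f s)⁻¹ - (f s')⁻¹ = (f s' - f s) / (f s * f s') := by
      field_simp
    rw [e, abs_div, abs_of_pos (mul_pos hp hp')]
    have h2 := hA2 s hs s' hs'
    rw [← Complex.ofReal_sub, Complex.norm_real, Real.norm_eq_abs] at h2
    have h3 : 1 ≤ f s * f s' := by nlinarith [h1 s hs, h1 s' hs']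
    calc |f s' - f s| / (f s * f s') ≤ |f s' - f s| / 1 :=
          div_le_div_of_nonneg_left (abs_nonneg _) one_pos h3
      _ = |f s - f s'| := by rw [div_one, abs_sub_comm]
      _ ≤ A * |s - s'| := h2

/-- a member of the class extends continuously to `[1, 2]` -/
theorem IsBL.exists_continuousOn {f : ℝ → ℂ} (hf : IsBL f) :
    ∃ F : ℝ → ℂ, ContinuousOn F (Icc 1 2) ∧ ∀ s : ℝ, 1 < s → s ≤ 2 → f s = F s := by
  obtain ⟨A, hA0, _, hA2⟩ := isBL_iff.mp hf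
  have hre : LipschitzOnWith (Real.toNNReal A) (fun s => (f s).re) (Ioc (1 : ℝ) 2) := by
    refine LipschitzOnWith.of_dist_le_mul fun s hs s' hs' => ?_
    rw [Real.dist_eq, Real.dist_eq, Real.coe_toNNReal A hA0, ← Complex.sub_re]
    exact (Complex.abs_re_le_norm _).trans (hA2 s hs s' hs')
  have him : LipschitzOnWith (Real.toNNReal A) (fun s => (f s).im) (Ioc (1 : ℝ) 2) := by
    refine LipschitzOnWith.of_dist_le_mul fun s hs s' hs' => ?_
    rw [Real.dist_eq, Real.dist_eq, Real.coe_toNNReal A hA0, ← Complex.sub_im]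
    exact (Complex.abs_im_le_norm _).trans (hA2 s hs s' hs')
  obtain ⟨g₁, hg₁, he₁⟩ := hre.extend_real
  obtain ⟨g₂, hg₂, he₂⟩ := him.extend_real
  refine ⟨fun s => (g₁ s : ℂ) + (g₂ s : ℂ) * Complex.I, ?_, fun s h1 h2 => ?_⟩
  · apply Continuous.continuousOn
    exact (Complex.continuous_ofReal.comp hg₁.continuous).add
      ((Complex.continuous_ofReal.comp hg₂.continuous).mul continuous_const)
  · have hs : s ∈ Ioc (1 : ℝ) 2 := ⟨h1, h2⟩
    have e1 : (f s).re = g₁ s := he₁ hs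
    have e2 : (f s).im = g₂ s := he₂ hs
    show f s = (g₁ s : ℂ) + (g₂ s : ℂ) * Complex.I
    rw [← e1, ← e2, Complex.re_add_im]

end Fermat.Agent.S48.A.TwistL.BL
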