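/-
PROJECT D (S48), part A, brick A6c (helper24): THE ANALYTIC CORE OF CHEBOTAREV, file 3.

THE COSET SHIFT LEMMA (abstract: a finite dimensional real normed space `E`, a discrete
subgroup `L`).

* `TameOn D p θ K g`: on the set `D`, `|g| ≤ K` and `|g y - g x| ≤ K ‖y - x‖ ‖x‖ ^ (-p)` as soon
  as `‖y - x‖ ≤ θ ‖x‖`.
* `exists_dominating`: if `rank L < p`, for two shifts `a b` there is a SUMMABLE `c : L → ℝ`,
  independent of `g`, with `|g (ℓ + a) - g (ℓ + b)| ≤ K c ℓ` for every `g` tame on a set `D`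
  containing the two cosets.
* `isBL_shift`: for a family `g s`, tame uniformly in `s ∈ [1, 2]` together with its
  `s`-derivative, the difference of the sums over two cosets is bounded and Lipschitz on `(1, 2]`.

Mathlib + `BL.lean`.
-/
import Mathlib
import Fermat.Agent.S48.A.TwistL.BL

set_option autoImplicit false
set_option linter.unusedSectionVars false

noncomputable section

namespace Fermat.Agent.S48.A.TwistL.Shift

open Set Module Fermat.Agent.S48.A.TwistL.BL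

variable {E : Type*} [NormedAddCommGroup E] [NormedSpace ℝ E]

/-- `g` is tame on `D` (exponent `p`, aperture `θ`, constant `K`) -/
structure TameOn (D : Set E) (p θ K : ℝ) (g : E → ℝ) : Prop where
  bound : ∀ x ∈ D, |g x| ≤ K
  lip : ∀ x ∈ D, ∀ y ∈ D, ‖y - x‖ ≤ θ * ‖x‖ → |g y - g x| ≤ K * ‖y - x‖ * ‖x‖ ^ (-p)

theorem TameOn.nonneg {D : Set E} {p θ K : ℝ} {g : E → ℝ} (h : TameOn D p θ K g)
    (hD : D.Nonempty) : 0 ≤ K := by
  obtain ⟨x, hx⟩ := hD
  exact (abs_nonneg _).trans (h.bound x hx)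

theorem TameOn.mono {D : Set E} {p θ K K' : ℝ} {g : E → ℝ} (h : TameOn D p θ K g)
    (hK : K ≤ K') : TameOn D p θ K' g where
  bound x hx := (h.bound x hx).trans hK
  lip x hx y hy hxy := by
    refine (h.lip x hx y hy hxy).trans ?_
    have : 0 ≤ ‖y - x‖ * ‖x‖ ^ (-p) := mul_nonneg (norm_nonneg _) (Real.rpow_nonneg (norm_nonneg _) _)
    calc K * ‖y - x‖ * ‖x‖ ^ (-p) = K * (‖y - x‖ * ‖x‖ ^ (-p)) := by ring
      _ ≤ K' * (‖y - x‖ * ‖x‖ ^ (-p)) := mul_le_mul_of_nonneg_right hK this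
      _ = K' * ‖y - x‖ * ‖x‖ ^ (-p) := by ring

variable [FiniteDimensional ℝ E] (L : Submodule ℤ E) [DiscreteTopology L]

/-- finitely many points of a coset of a discrete subgroup in a ball -/
theorem finite_norm_add_lt (b : E) (R : ℝ) : {ℓ : L | ‖(ℓ : E) + b‖ < R}.Finite := by
  have H : IsClosed (X := E) L := @AddSubgroup.isClosed_of_discrete _ _ _ _ _
    L.toAddSubgroup (inferInstanceAs (DiscreteTopology L))
  refine ((Metric.finite_isBounded_inter_isClosed DiscreteTopology.isDiscrete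
    (Metric.isBounded_closedBall (x := (0 : E)) (r := R + ‖b‖)) H).preimage_embedding
    (.subtype _)).subset ?_
  intro ℓ hℓ
  simp only [mem_ofPred_eq] at hℓ
  simp only [Function.Embedding.coe_subtype, mem_preimage, mem_inter_iff, Metric.mem_closedBall,
    dist_zero_right, SetLike.mem_coe, SetLike.coe_mem, and_true]
  have := norm_sub_norm_le ((ℓ : E) + b) b
  have h2 : ‖(ℓ : E)‖ ≤ ‖(ℓ : E) + b‖ + ‖b‖ := by
    calc ‖(ℓ : E)‖ = ‖((ℓ : E) + b) - b‖ := by rw [add_sub_cancel_right]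
      _ ≤ ‖(ℓ : E) + b‖ + ‖b‖ := norm_sub_le _ _
  linarith

/-- the dominating sequence of the shift lemma -/
def dom (p θ : ℝ) (a b : E) (ℓ : L) : ℝ :=
  ‖a - b‖ * ‖(ℓ : E) + b‖ ^ (-p) + 2 * (if θ * ‖(ℓ : E) + b‖ < ‖a - b‖ then 1 else 0)

theorem dom_nonneg (p θ : ℝ) (a b : E) (ℓ : L) : 0 ≤ dom L p θ a b ℓ := by
  unfold dom
  have h1 : 0 ≤ ‖a - b‖ * ‖(ℓ : E) + b‖ ^ (-p) :=
    mul_nonneg (norm_nonneg _) (Real.rpow_nonneg (norm_nonneg _) _)
  split_ifs <;> linarith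

theorem summable_dom {p θ : ℝ} (hp : (finrank ℤ L : ℝ) < p) (hθ : 0 < θ) (a b : E) :
    Summable (dom L p θ a b) := by
  unfold dom
  refine Summable.add ?_ ?_
  · have := ZLattice.summable_norm_sub_rpow L (-p) (by linarith) (-b)
    simp only [sub_neg_eq_add] at this
    exact this.mul_left _
  · refine (summable_of_hasFiniteSupport ?_).mul_left _
    refine (finite_norm_add_lt L b (‖a - b‖ / θ)).subset ?_
    intro ℓ hℓ
    simp only [Function.mem_support, ne_eq, ite_eq_right_iff, one_ne_zero, imp_false,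
      not_not] at hℓ
    simp only [mem_ofPred_eq]
    rw [lt_div_iff₀ hθ, mul_comm]
    exact hℓ

/-- **the coset shift lemma, termwise** -/
theorem abs_sub_le_dom {D : Set E} {p θ K : ℝ} {g : E → ℝ} (h : TameOn D p θ K g) (a b : E)
    (ℓ : L) (ha : (ℓ : E) + a ∈ D) (hb : (ℓ : E) + b ∈ D) :
    |g ((ℓ : E) + a) - g ((ℓ : E) + b)| ≤ K * dom L p θ a b ℓ := by
  have hK : 0 ≤ K := h.nonneg ⟨_, ha⟩
  have h1 : 0 ≤ ‖a - b‖ * ‖(ℓ : E) + b‖ ^ (-p) :=
    mul_nonneg (norm_nonneg _) (Real.rpow_nonneg (norm_nonneg _) _)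
  have hsub : ((ℓ : E) + a) - ((ℓ : E) + b) = a - b := by abel
  unfold dom
  by_cases hc : θ * ‖(ℓ : E) + b‖ < ‖a - b‖
  · rw [if_pos hc]
    have := (abs_sub _ _).trans (add_le_add (h.bound _ ha) (h.bound _ hb))
    nlinarith
  · rw [if_neg hc, mul_zero, add_zero]
    have := h.lip _ hb _ ha (by rw [hsub]; exact not_lt.mp hc)
    rw [hsub] at this
    calc |g ((ℓ : E) + a) - g ((ℓ : E) + b)| ≤ K * ‖a - b‖ * ‖(ℓ : E) + b‖ ^ (-p) := this
      _ = K * (‖a - b‖ * ‖(ℓ : E) + b‖ ^ (-p)) := by ring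

/-- summability of the termwise differences -/
theorem summable_sub {D : Set E} {p θ K : ℝ} {g : E → ℝ} (h : TameOn D p θ K g)
    (hp : (finrank ℤ L : ℝ) < p) (hθ : 0 < θ) (a b : E)
    (hD : ∀ ℓ : L, (ℓ : E) + a ∈ D ∧ (ℓ : E) + b ∈ D) :
    Summable fun ℓ : L => g ((ℓ : E) + a) - g ((ℓ : E) + b) := by
  refine Summable.of_norm_bounded ((summable_dom L hp hθ a b).mul_left K) fun ℓ => ?_
  rw [Real.norm_eq_abs]
  exact abs_sub_le_dom L h a b ℓ (hD ℓ).1 (hD ℓ).2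

/-- **the coset shift lemma**: for a family tame uniformly in `s ∈ [1, 2]` together with its
`s`-derivative, the difference of the sums over two cosets is bounded and Lipschitz. -/
theorem isBL_shift {D : Set E} {p θ K : ℝ} (hp : (finrank ℤ L : ℝ) < p) (hθ : 0 < θ)
    (g g1 : ℝ → E → ℝ)
    (h0 : ∀ s ∈ Icc (1 : ℝ) 2, TameOn D p θ K (g s))
    (h1 : ∀ s ∈ Icc (1 : ℝ) 2, TameOn D p θ K (g1 s))
    (hd : ∀ s ∈ Icc (1 : ℝ) 2, ∀ x ∈ D, HasDerivAt (fun t => g t x) (g1 s x) s)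
    (a b : E) (hD : ∀ ℓ : L, (ℓ : E) + a ∈ D ∧ (ℓ : E) + b ∈ D) :
    IsBL fun s => (((∑' ℓ : L, (g s ((ℓ : E) + a) - g s ((ℓ : E) + b)) : ℝ)) : ℂ) := by
  have hsum := summable_dom L hp hθ a b
  set T : ℝ := ∑' ℓ : L, dom L p θ a b ℓ with hT
  have hT0 : 0 ≤ T := tsum_nonneg (dom_nonneg L p θ a b)
  have hK : 0 ≤ K := (h0 1 ⟨le_rfl, by norm_num⟩).nonneg ⟨_, (hD 0).1⟩
  have hIcc : ∀ s ∈ Ioc (1 : ℝ) 2, s ∈ Icc (1 : ℝ) 2 := fun s hs => ⟨hs.1.le, hs.2⟩
  refine IsBL.mk' (K * T) (fun s hs => ?_) fun s hs s' hs' => ?_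
  · rw [Complex.norm_real]
    refine (norm_tsum_le_tsum_norm (summable_sub L (h0 s (hIcc s hs)) hp hθ a b hD).norm).trans ?_
    rw [hT, ← tsum_mul_left]
    refine (summable_sub L (h0 s (hIcc s hs)) hp hθ a b hD).norm.tsum_le_tsum (fun ℓ => ?_)
      (hsum.mul_left K)
    rw [Real.norm_eq_abs]
    exact abs_sub_le_dom L (h0 s (hIcc s hs)) a b ℓ (hD ℓ).1 (hD ℓ).2
  · rw [← Complex.ofReal_sub, Complex.norm_real,
      ← (summable_sub L (h0 s (hIcc s hs)) hp hθ a b hD).tsum_sub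
        (summable_sub L (h0 s' (hIcc s' hs')) hp hθ a b hD)]
    have hterm : ∀ ℓ : L,
        ‖(g s ((ℓ : E) + a) - g s ((ℓ : E) + b)) - (g s' ((ℓ : E) + a) - g s' ((ℓ : E) + b))‖ ≤
          K * dom L p θ a b ℓ * |s - s'| := by
      intro ℓ
      have hder : ∀ t ∈ Icc (1 : ℝ) 2,
          HasDerivWithinAt (fun t => g t ((ℓ : E) + a) - g t ((ℓ : E) + b))
            (g1 t ((ℓ : E) + a) - g1 t ((ℓ : E) + b)) (Icc (1 : ℝ) 2) t := fun t ht =>
        ((hd t ht _ (hD ℓ).1).sub (hd t ht _ (hD ℓ).2)).hasDerivWithinAt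
      have := Convex.norm_image_sub_le_of_norm_hasDerivWithin_le
        (f := fun t => g t ((ℓ : E) + a) - g t ((ℓ : E) + b))
        (f' := fun t => g1 t ((ℓ : E) + a) - g1 t ((ℓ : E) + b)) (C := K * dom L p θ a b ℓ)
        (s := Icc (1 : ℝ) 2) hder
        (fun t ht => by
          rw [Real.norm_eq_abs]
          exact abs_sub_le_dom L (h1 t ht) a b ℓ (hD ℓ).1 (hD ℓ).2)
        (convex_Icc 1 2) (hIcc s' hs') (hIcc s hs)
      simpa [Real.norm_eq_abs] using this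
    have hsm : Summable fun ℓ : L => K * dom L p θ a b ℓ * |s - s'| :=
      (hsum.mul_left K).mul_right _
    have hsd : Summable fun ℓ : L =>
        (g s ((ℓ : E) + a) - g s ((ℓ : E) + b)) - (g s' ((ℓ : E) + a) - g s' ((ℓ : E) + b)) :=
      (summable_sub L (h0 s (hIcc s hs)) hp hθ a b hD).sub
        (summable_sub L (h0 s' (hIcc s' hs')) hp hθ a b hD)
    refine (norm_tsum_le_tsum_norm hsd.norm).trans ?_
    refine (hsd.norm.tsum_le_tsum hterm hsm).trans (le_of_eq ?_)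
    rw [tsum_mul_right, tsum_mul_left]

end Fermat.Agent.S48.A.TwistL.Shift
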