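/-
PROJECT D (S48), part A, brick A6c (helper24): THE ANALYTIC CORE OF CHEBOTAREV, file 6.

THE FUNCTIONS `G_s = ε · ω · N ^ (-s)` AND THEIR `s`-DERIVATIVES ARE TAME, UNIFORMLY IN `s ∈ [1, 2]`.

* `dom1 F`: the origin and the points of norm `≥ 1` of the mixed space (contains the image of `𝓞 F`).
* `wfun F ε h x = ε x * omega F x * h (log (norm x))`; `tameOn_wfun`: it is tame on `dom1 F`
  (exponent `expo F = d + 1/2 > d`) if `h` decays like `exp (-κ σ)`, `κ = 1 - 1/(2d)`, together
  with its derivative, and `ε` is bounded by `1` and locally constant near the support of `ω`.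
* `gfun F ε s`, `gfun1 F ε s`: the cases `h σ = exp (-s σ)` and `h σ = -σ exp (-s σ)`;
  `exists_tame`: they are tame with constants independent of `s ∈ [1, 2]` and of `ε`.

Mathlib + `Balanced.lean` + `Shift.lean`.
-/
import Mathlib
import Fermat.Agent.S48.A.TwistL.Balanced
import Fermat.Agent.S48.A.TwistL.Shift

set_option autoImplicit false

noncomputable section

namespace Fermat.Agent.S48.A.TwistL.Lip

open NumberField NumberField.InfinitePlace NumberField.mixedEmbedding Module Finset
  Fermat.Agent.S48.A.TwistL.Weight Fermat.Agent.S48.A.TwistL.Balanced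
  Fermat.Agent.S48.A.TwistL.Shift

open scoped Classical

variable (F : Type*) [Field F] [NumberField F]

/-- the origin and the points of norm at least `1` -/
def dom1 : Set (mixedSpace F) := {x | x = 0 ∨ 1 ≤ mixedEmbedding.norm x}

/-- the decay rate `κ = 1 - 1/(2d)` -/
def kap : ℝ := 1 - (2 * (finrank ℚ F : ℝ))⁻¹

/-- the exponent `p = d κ + 1 = d + 1/2` -/
def expo : ℝ := kap F * (finrank ℚ F : ℝ) + 1

theorem finrank_pos' : (0 : ℝ) < finrank ℚ F := Nat.cast_pos.mpr finrank_pos

theorem one_le_finrank : (1 : ℝ) ≤ finrank ℚ F := by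
  exact_mod_cast (finrank_pos : 0 < finrank ℚ F)

theorem kap_pos : 0 < kap F := by
  unfold kap
  have h := one_le_finrank F
  have : (2 * (finrank ℚ F : ℝ))⁻¹ ≤ 2⁻¹ := by
    apply inv_anti₀ (by norm_num)
    linarith
  linarith

theorem kap_le_one : kap F ≤ 1 := by
  unfold kap
  have := finrank_pos' F
  have : 0 ≤ (2 * (finrank ℚ F : ℝ))⁻¹ := by positivity
  linarith

theorem expo_eq : expo F = (finrank ℚ F : ℝ) + 1 / 2 := by
  unfold expo kap
  have := (finrank_pos' F).ne'
  field_simp
  ring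

theorem finrank_lt_expo : (finrank ℚ F : ℝ) < expo F := by
  rw [expo_eq]; linarith

theorem expo_pos : 0 < expo F := (finrank_pos' F).trans (finrank_lt_expo F)

/-- a bounded function, locally constant near the support of the weight (a sign) -/
structure SignLike (ε : mixedSpace F → ℝ) : Prop where
  abs_le : ∀ x, |ε x| ≤ 1
  loc : ∀ x y, omega F x ≠ 0 → ‖y - x‖ ≤ balConst F / 2 * ‖x‖ → ε y = ε x

theorem signLike_one : SignLike F fun _ => 1 where
  abs_le _ := by rw [abs_one]
  loc _ _ _ _ := rfl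

/-- `h` and its increments decay like `exp (-κ σ)` on `σ ≥ 0` -/
structure Decay (K₀ : ℝ) (h : ℝ → ℝ) : Prop where
  bound : ∀ σ, 0 ≤ σ → |h σ| ≤ K₀ * Real.exp (-(kap F * σ))
  lip : ∀ σ σ', 0 ≤ σ → 0 ≤ σ' →
    |h σ' - h σ| ≤ K₀ * |σ' - σ| * Real.exp (-(kap F * min σ σ'))

/-- decay from a bound on the derivative -/
theorem decay_of_deriv {K₀ : ℝ} {h h' : ℝ → ℝ}
    (hb : ∀ σ, 0 ≤ σ → |h σ| ≤ K₀ * Real.exp (-(kap F * σ)))
    (hd : ∀ ξ, HasDerivAt h (h' ξ) ξ)
    (hb' : ∀ ξ, 0 ≤ ξ → |h' ξ| ≤ K₀ * Real.exp (-(kap F * ξ))) : Decay F K₀ h where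
  bound := hb
  lip σ σ' hσ hσ' := by
    have hK : 0 ≤ K₀ := by
      have := (abs_nonneg _).trans (hb 0 le_rfl)
      rw [mul_zero, neg_zero, Real.exp_zero, mul_one] at this
      exact this
    have hmin : 0 ≤ min σ σ' := le_min hσ hσ'
    have hmem : ∀ ξ ∈ Set.Icc (min σ σ') (max σ σ'), ‖h' ξ‖ ≤
        K₀ * Real.exp (-(kap F * min σ σ')) := by
      intro ξ hξ
      rw [Real.norm_eq_abs]
      refine (hb' ξ (hmin.trans hξ.1)).trans (mul_le_mul_of_nonneg_left ?_ hK)
      apply Real.exp_le_exp.mpr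
      have := mul_le_mul_of_nonneg_left hξ.1 (kap_pos F).le
      linarith
    have h1 : σ ∈ Set.Icc (min σ σ') (max σ σ') := ⟨min_le_left _ _, le_max_left _ _⟩
    have h2 : σ' ∈ Set.Icc (min σ σ') (max σ σ') := ⟨min_le_right _ _, le_max_right _ _⟩
    have := Convex.norm_image_sub_le_of_norm_hasDerivWithin_le (f := h) (f' := h')
      (s := Set.Icc (min σ σ') (max σ σ')) (fun ξ _ => (hd ξ).hasDerivWithinAt) hmem
      (convex_Icc _ _) h1 h2
    rw [Real.norm_eq_abs, Real.norm_eq_abs] at this
    calc |h σ' - h σ| ≤ K₀ * Real.exp (-(kap F * min σ σ')) * |σ' - σ| := this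
      _ = K₀ * |σ' - σ| * Real.exp (-(kap F * min σ σ')) := by ring

/-- the weighted function -/
def wfun (ε : mixedSpace F → ℝ) (h : ℝ → ℝ) (x : mixedSpace F) : ℝ :=
  ε x * omega F x * h (Real.log (mixedEmbedding.norm x))

theorem wfun_of_omega_eq_zero (ε : mixedSpace F → ℝ) (h : ℝ → ℝ) {x : mixedSpace F}
    (hx : omega F x = 0) : wfun F ε h x = 0 := by
  unfold wfun
  rw [hx, mul_zero, zero_mul]

theorem omega_zero : omega F (0 : mixedSpace F) = 0 :=
  omega_of_norm_eq_zero F (map_zero _)

/-- the norm is at least `(c ‖x‖) ^ d` at a balanced point -/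
theorem pow_le_norm {x : mixedSpace F} {c : ℝ} (hc : 0 ≤ c) (hx : ∀ w, c * ‖x‖ ≤ normAtPlace w x) :
    (c * ‖x‖) ^ (finrank ℚ F) ≤ mixedEmbedding.norm x := by
  rw [mixedEmbedding.norm_apply, ← sum_mult_eq, ← Finset.prod_pow_eq_pow_sum]
  exact Finset.prod_le_prod (fun w _ => pow_nonneg (mul_nonneg hc (norm_nonneg _)) _)
    fun w _ => pow_le_pow_left₀ (mul_nonneg hc (norm_nonneg _)) (hx w) _

/-- at a point of `dom1` other than the origin, the sup norm is at least `1` -/
theorem one_le_norm_of_mem {x : mixedSpace F} (hx : 1 ≤ mixedEmbedding.norm x) : 1 ≤ ‖x‖ := by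
  by_contra hlt
  rw [not_le] at hlt
  have h1 : mixedEmbedding.norm x ≤ ‖x‖ ^ (finrank ℚ F) := by
    rw [mixedEmbedding.norm_apply, ← sum_mult_eq, ← Finset.prod_pow_eq_pow_sum]
    exact Finset.prod_le_prod (fun w _ => pow_nonneg (normAtPlace_nonneg w x) _)
      fun w _ => pow_le_pow_left₀ (normAtPlace_nonneg w x) (normAtPlace_le_norm F w x) _
  have h2 : ‖x‖ ^ (finrank ℚ F) < 1 := pow_lt_one₀ (norm_nonneg _) hlt finrank_pos.ne'
  linarith

/-- the aperture of the one-sided estimate -/
def apert : ℝ := min (balConst F / 2) (1 / (lipConst F + 1))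

theorem apert_pos : 0 < apert F := by
  have := balConst_pos F
  have := lipConst_nonneg F
  exact lt_min (by positivity) (by positivity)

theorem apert_le_half : apert F ≤ 1 / 2 :=
  (min_le_left _ _).trans (by linarith [balConst_le_one F])

/-- the constant of the one-sided estimate -/
def oneConst : ℝ :=
  2 * lipConst F * Real.exp 1 * (balConst F) ^ (-(kap F * (finrank ℚ F : ℝ)))

theorem oneConst_nonneg : 0 ≤ oneConst F := by
  unfold oneConst
  have := lipConst_nonneg F
  have := Real.rpow_nonneg (balConst_pos F).le (-(kap F * (finrank ℚ F : ℝ)))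
  positivity

/-- **the one-sided Lipschitz estimate at a point of the support of the weight** -/
theorem abs_wfun_sub_le {ε : mixedSpace F → ℝ} (hε : SignLike F ε) {K₀ : ℝ} {h : ℝ → ℝ}
    (hh : Decay F K₀ h) (hK : 0 ≤ K₀) {x y : mixedSpace F} (hx : omega F x ≠ 0)
    (hx1 : 1 ≤ mixedEmbedding.norm x) (hy : y ∈ dom1 F) (hxy : ‖y - x‖ ≤ apert F * ‖x‖) :
    |wfun F ε h y - wfun F ε h x| ≤ oneConst F * K₀ * ‖y - x‖ * ‖x‖ ^ (-(expo F)) := by
  have hc := balConst_pos F
  have hA := lipConst_nonneg F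
  have hx0 := ne_zero_of_omega_ne_zero F hx
  have hxpos : 0 < ‖x‖ := norm_pos_iff.mpr hx0
  have hxy' : ‖y - x‖ ≤ balConst F / 2 * ‖x‖ :=
    hxy.trans (mul_le_mul_of_nonneg_right (min_le_left _ _) hxpos.le)
  obtain ⟨hNy, -, hlogN, hom⟩ := exists_lipschitz_data F hx hxy'
  set r : ℝ := ‖y - x‖ / ‖x‖ with hr
  have hr0 : 0 ≤ r := div_nonneg (norm_nonneg _) (norm_nonneg _)
  have hr1 : r ≤ 1 / (lipConst F + 1) := by
    rw [hr, div_le_iff₀ hxpos]
    exact hxy.trans (mul_le_mul_of_nonneg_right (min_le_right _ _) hxpos.le)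
  have hAr : lipConst F * r ≤ 1 := by
    calc lipConst F * r ≤ lipConst F * (1 / (lipConst F + 1)) :=
          mul_le_mul_of_nonneg_left hr1 hA
      _ = lipConst F / (lipConst F + 1) := by ring
      _ ≤ 1 := div_le_one_of_le₀ (le_add_of_nonneg_right zero_le_one)
          (add_nonneg hA zero_le_one)
  -- `y` is not the origin, hence of norm at least one
  have hy1 : 1 ≤ mixedEmbedding.norm y := by
    rcases hy with rfl | hy
    · exact absurd (map_zero _) hNy
    · exact hy
  set σx : ℝ := Real.log (mixedEmbedding.norm x) with hσx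
  set σy : ℝ := Real.log (mixedEmbedding.norm y) with hσy
  have hσx0 : 0 ≤ σx := Real.log_nonneg hx1
  have hσy0 : 0 ≤ σy := Real.log_nonneg hy1
  have hσ : |σy - σx| ≤ lipConst F * r := hlogN
  have hmin : σx - 1 ≤ min σx σy := by
    have := abs_le.mp (hσ.trans hAr)
    exact le_min (by linarith) (by linarith [this.1])
  have hκ := kap_pos F
  have hκ1 := kap_le_one F
  -- the exponential factor
  have hexp : Real.exp (-(kap F * min σx σy)) ≤ Real.exp 1 * Real.exp (-(kap F * σx)) := by
    rw [← Real.exp_add]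
    apply Real.exp_le_exp.mpr
    have := mul_le_mul_of_nonneg_left hmin hκ.le
    nlinarith
  have hexpy : Real.exp (-(kap F * σy)) ≤ Real.exp (-(kap F * min σx σy)) := by
    apply Real.exp_le_exp.mpr
    have := mul_le_mul_of_nonneg_left (min_le_right σx σy) hκ.le
    linarith
  -- the decay in `‖x‖`
  have hbal := balanced_of_omega_ne_zero F hx
  have hNx := pow_le_norm F hc.le hbal
  have hcx : 0 < balConst F * ‖x‖ := by positivity
  have hσx' : (finrank ℚ F : ℝ) * Real.log (balConst F * ‖x‖) ≤ σx := by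
    rw [← Real.log_pow]
    exact Real.log_le_log (pow_pos hcx _) hNx
  have hdecay : Real.exp (-(kap F * σx)) ≤
      (balConst F) ^ (-(kap F * (finrank ℚ F : ℝ))) * ‖x‖ ^ (-(kap F * (finrank ℚ F : ℝ))) := by
    rw [← Real.mul_rpow hc.le hxpos.le, Real.rpow_def_of_pos hcx]
    apply Real.exp_le_exp.mpr
    have := mul_le_mul_of_nonneg_left hσx' hκ.le
    nlinarith
  -- the main estimate
  have hεy : ε y = ε x := hε.loc x y hx hxy'
  have hεx := hε.abs_le x
  have hω := omega_nonneg F x
  have hω1 := omega_le_one F x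
  have e : wfun F ε h y - wfun F ε h x =
      ε x * ((omega F y - omega F x) * h σy + omega F x * (h σy - h σx)) := by
    unfold wfun
    rw [hεy]
    ring
  have hb1 : |(omega F y - omega F x) * h σy| ≤
      lipConst F * r * (K₀ * Real.exp (-(kap F * min σx σy))) := by
    rw [abs_mul]
    refine mul_le_mul hom ((hh.bound σy hσy0).trans ?_) (abs_nonneg _) (by positivity)
    exact mul_le_mul_of_nonneg_left hexpy hK
  have hb2 : |omega F x * (h σy - h σx)| ≤
      lipConst F * r * (K₀ * Real.exp (-(kap F * min σx σy))) := by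
    rw [abs_mul, abs_of_nonneg hω]
    have h3 := hh.lip σx σy hσx0 hσy0
    have h4 : K₀ * |σy - σx| * Real.exp (-(kap F * min σx σy)) ≤
        K₀ * (lipConst F * r) * Real.exp (-(kap F * min σx σy)) :=
      mul_le_mul_of_nonneg_right (mul_le_mul_of_nonneg_left hσ hK) (Real.exp_pos _).le
    calc omega F x * |h σy - h σx| ≤ 1 * |h σy - h σx| :=
          mul_le_mul_of_nonneg_right hω1 (abs_nonneg _)
      _ ≤ K₀ * (lipConst F * r) * Real.exp (-(kap F * min σx σy)) := by
          rw [one_mul]; exact h3.trans h4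
      _ = lipConst F * r * (K₀ * Real.exp (-(kap F * min σx σy))) := by ring
  have hmain : |wfun F ε h y - wfun F ε h x| ≤
      2 * (lipConst F * r * (K₀ * Real.exp (-(kap F * min σx σy)))) := by
    rw [e, abs_mul]
    have h5 : |(omega F y - omega F x) * h σy + omega F x * (h σy - h σx)| ≤
        2 * (lipConst F * r * (K₀ * Real.exp (-(kap F * min σx σy)))) := by
      refine (abs_add_le _ _).trans ?_
      linarith
    calc |ε x| * _ ≤ 1 * _ := mul_le_mul_of_nonneg_right hεx (abs_nonneg _)
      _ ≤ _ := by rw [one_mul]; exact h5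
  refine hmain.trans ?_
  have hrp : ‖x‖ ^ (-(expo F)) = ‖x‖ ^ (-(kap F * (finrank ℚ F : ℝ))) * ‖x‖⁻¹ := by
    rw [expo, neg_add, Real.rpow_add hxpos, Real.rpow_neg_one]
  have hfin : Real.exp (-(kap F * min σx σy)) ≤ Real.exp 1 *
      ((balConst F) ^ (-(kap F * (finrank ℚ F : ℝ))) *
        ‖x‖ ^ (-(kap F * (finrank ℚ F : ℝ)))) :=
    hexp.trans (mul_le_mul_of_nonneg_left hdecay (Real.exp_pos _).le)
  have hrK : 0 ≤ lipConst F * r * K₀ := by positivity
  calc 2 * (lipConst F * r * (K₀ * Real.exp (-(kap F * min σx σy))))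
      = 2 * (lipConst F * r * K₀) * Real.exp (-(kap F * min σx σy)) := by ring
    _ ≤ 2 * (lipConst F * r * K₀) * (Real.exp 1 *
          ((balConst F) ^ (-(kap F * (finrank ℚ F : ℝ))) *
            ‖x‖ ^ (-(kap F * (finrank ℚ F : ℝ))))) :=
        mul_le_mul_of_nonneg_left hfin (by positivity)
    _ = oneConst F * K₀ * ‖y - x‖ * ‖x‖ ^ (-(expo F)) := by
        rw [hrp, hr, oneConst]
        field_simp

/-- the constant of the tameness theorem -/
def tameConst : ℝ := 1 + (2 : ℝ) ^ (expo F) * oneConst F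

theorem tameConst_nonneg : 0 ≤ tameConst F := by
  unfold tameConst
  have := oneConst_nonneg F
  have := Real.rpow_nonneg (by norm_num : (0 : ℝ) ≤ 2) (expo F)
  positivity

/-- **the weighted functions are tame** -/
theorem tameOn_wfun {ε : mixedSpace F → ℝ} (hε : SignLike F ε) {K₀ : ℝ} {h : ℝ → ℝ}
    (hh : Decay F K₀ h) (hK : 0 ≤ K₀) :
    TameOn (dom1 F) (expo F) (apert F / 2) (tameConst F * K₀) (wfun F ε h) where
  bound x hx := by
    have h1 : K₀ ≤ tameConst F * K₀ := by
      have : 0 ≤ (2 : ℝ) ^ (expo F) * oneConst F :=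
        mul_nonneg (Real.rpow_nonneg (by norm_num) _) (oneConst_nonneg F)
      unfold tameConst
      nlinarith
    rcases hx with rfl | hx
    · rw [wfun_of_omega_eq_zero F ε h (omega_zero F), abs_zero]
      exact hK.trans h1
    · unfold wfun
      rw [abs_mul, abs_mul, abs_of_nonneg (omega_nonneg F x)]
      have hσ : 0 ≤ Real.log (mixedEmbedding.norm x) := Real.log_nonneg hx
      have h2 := hh.bound _ hσ
      have h3 : Real.exp (-(kap F * Real.log (mixedEmbedding.norm x))) ≤ 1 := by
        rw [← Real.exp_zero]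
        apply Real.exp_le_exp.mpr
        have := mul_nonneg (kap_pos F).le hσ
        linarith
      have h4 : |h (Real.log (mixedEmbedding.norm x))| ≤ K₀ :=
        h2.trans (by nlinarith)
      calc |ε x| * omega F x * |h (Real.log (mixedEmbedding.norm x))| ≤ 1 * 1 * K₀ :=
            mul_le_mul (mul_le_mul (hε.abs_le x) (omega_le_one F x) (omega_nonneg F x) zero_le_one)
              h4 (abs_nonneg _) (by norm_num)
        _ = K₀ := by ring
        _ ≤ tameConst F * K₀ := h1
  lip x hx y hy hxy := by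
    have hθ := apert_pos F
    have hθ2 := apert_le_half F
    have hone := oneConst_nonneg F
    have h2p : (1 : ℝ) ≤ (2 : ℝ) ^ (expo F) :=
      Real.one_le_rpow (by norm_num) (expo_pos F).le
    by_cases hωx : omega F x = 0
    · by_cases hωy : omega F y = 0
      · rw [wfun_of_omega_eq_zero F ε h hωx, wfun_of_omega_eq_zero F ε h hωy, sub_zero, abs_zero]
        exact mul_nonneg (mul_nonneg (mul_nonneg (tameConst_nonneg F) hK) (norm_nonneg _))
          (Real.rpow_nonneg (norm_nonneg _) _)
      · -- exchange the roles of `x` and `y`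
        have hy0 := ne_zero_of_omega_ne_zero F hωy
        have hy1 : 1 ≤ mixedEmbedding.norm y := by
          rcases hy with rfl | hy
          · exact absurd rfl hy0
          · exact hy
        have hypos : 0 < ‖y‖ := norm_pos_iff.mpr hy0
        have hxle : ‖x‖ ≤ 2 * ‖y‖ := by
          have h1 : ‖x‖ ≤ ‖y‖ + ‖y - x‖ := by
            have := norm_sub_le y (y - x)
            rwa [sub_sub_cancel] at this
          have h2 : ‖y - x‖ ≤ 1 / 4 * ‖x‖ :=
            hxy.trans (mul_le_mul_of_nonneg_right (by linarith) (norm_nonneg _))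
          linarith
        have hxy2 : ‖x - y‖ ≤ apert F * ‖y‖ := by
          rw [norm_sub_rev]
          refine hxy.trans ?_
          calc apert F / 2 * ‖x‖ ≤ apert F / 2 * (2 * ‖y‖) :=
                mul_le_mul_of_nonneg_left hxle (by positivity)
            _ = apert F * ‖y‖ := by ring
        have hmain := abs_wfun_sub_le F hε hh hK hωy hy1 hx hxy2
        rw [abs_sub_comm, norm_sub_rev] at hmain
        refine hmain.trans ?_
        have hxpos : 0 < ‖x‖ := by
          rcases hx with rfl | hx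
          · -- then `y = x = 0`, impossible
            rw [norm_zero, mul_zero] at hxy
            have : y - 0 = 0 := norm_le_zero_iff.mp hxy
            rw [sub_zero] at this
            exact absurd this hy0
          · exact lt_of_lt_of_le one_pos (one_le_norm_of_mem F hx)
        have hpow : ‖y‖ ^ (-(expo F)) ≤ (2 : ℝ) ^ (expo F) * ‖x‖ ^ (-(expo F)) := by
          have h1 : ‖x‖ / 2 ≤ ‖y‖ := by linarith
          have h2 : ‖y‖ ^ (-(expo F)) ≤ (‖x‖ / 2) ^ (-(expo F)) :=
            Real.rpow_le_rpow_of_nonpos (by positivity) h1 (by linarith [expo_pos F])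
          refine h2.trans (le_of_eq ?_)
          rw [Real.div_rpow hxpos.le (by norm_num), Real.rpow_neg (by norm_num : (0 : ℝ) ≤ 2),
            div_eq_mul_inv, inv_inv, mul_comm]
        have hKy : 0 ≤ oneConst F * K₀ * ‖y - x‖ := by positivity
        calc oneConst F * K₀ * ‖y - x‖ * ‖y‖ ^ (-(expo F))
            ≤ oneConst F * K₀ * ‖y - x‖ * ((2 : ℝ) ^ (expo F) * ‖x‖ ^ (-(expo F))) :=
              mul_le_mul_of_nonneg_left hpow hKy
          _ = ((2 : ℝ) ^ (expo F) * oneConst F) * K₀ * ‖y - x‖ * ‖x‖ ^ (-(expo F)) := by ring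
          _ ≤ tameConst F * K₀ * ‖y - x‖ * ‖x‖ ^ (-(expo F)) := by
              have : (2 : ℝ) ^ (expo F) * oneConst F ≤ tameConst F := by
                unfold tameConst; linarith
              have hrest : 0 ≤ K₀ * ‖y - x‖ * ‖x‖ ^ (-(expo F)) :=
                mul_nonneg (mul_nonneg hK (norm_nonneg _)) (Real.rpow_nonneg (norm_nonneg _) _)
              nlinarith
    · have hx1 : 1 ≤ mixedEmbedding.norm x := by
        rcases hx with rfl | hx
        · exact absurd (omega_zero F) hωx
        · exact hx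
      have hxy1 : ‖y - x‖ ≤ apert F * ‖x‖ :=
        hxy.trans (mul_le_mul_of_nonneg_right (by linarith) (norm_nonneg _))
      refine (abs_wfun_sub_le F hε hh hK hωx hx1 hy hxy1).trans ?_
      have : oneConst F ≤ tameConst F := by
        unfold tameConst
        nlinarith
      have hrest : 0 ≤ K₀ * ‖y - x‖ * ‖x‖ ^ (-(expo F)) :=
        mul_nonneg (mul_nonneg hK (norm_nonneg _)) (Real.rpow_nonneg (norm_nonneg _) _)
      nlinarith

/-- bookkeeping: the equation lemma of `kap` is generated in this file -/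
theorem kap_eq_stored : kap F = 1 - (2 * (finrank ℚ F : ℝ))⁻¹ := kap.eq_1 F

end Fermat.Agent.S48.A.TwistL.Lip
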