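/-
PROJECT D (S48), part A, brick A6c (helper24): THE ANALYTIC CORE OF CHEBOTAREV, file 7.

THE FAMILY `G_s = ε · ω · N ^ (-s)`, `s ∈ [1, 2]`, AND ITS `s`-DERIVATIVE
`G¹_s = - ε · ω · log N · N ^ (-s)`: both are tame with constants independent of `s` and `ε`
(`tameOn_gfun`, `tameOn_gfun1`), and `∂_s G_s = G¹_s` (`hasDerivAt_gfun`).

Mathlib + `Lip.lean`.
-/
import Mathlib
import Fermat.Agent.S48.A.TwistL.Lip

set_option autoImplicit false

noncomputable section

namespace Fermat.Agent.S48.A.TwistL.Family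

open NumberField NumberField.InfinitePlace NumberField.mixedEmbedding Module Finset
  Fermat.Agent.S48.A.TwistL.Weight Fermat.Agent.S48.A.TwistL.Balanced
  Fermat.Agent.S48.A.TwistL.Shift Fermat.Agent.S48.A.TwistL.Lip

open scoped Classical

variable (F : Type*) [Field F] [NumberField F]

/-- `h_s σ = exp (-s σ)` -/
def hs (s σ : ℝ) : ℝ := Real.exp (-(s * σ))

/-- `h¹_s σ = -σ exp (-s σ)`, the `s`-derivative of `h_s σ` -/
def hs1 (s σ : ℝ) : ℝ := -σ * Real.exp (-(s * σ))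

/-- the common decay constant of the two families -/
def famConst : ℝ := 1 + 4 * (finrank ℚ F : ℝ)

theorem famConst_pos : 0 < famConst F := by
  unfold famConst
  have := finrank_pos' F
  linarith

theorem two_le_famConst : 2 ≤ famConst F := by
  unfold famConst
  have := one_le_finrank F
  linarith

/-- `exp (-s σ) ≤ exp (-κ σ)` for `σ ≥ 0`, `s ≥ 1` -/
theorem exp_neg_le {s σ : ℝ} (hs : 1 ≤ s) (hσ : 0 ≤ σ) :
    Real.exp (-(s * σ)) ≤ Real.exp (-(kap F * σ)) := by
  apply Real.exp_le_exp.mpr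
  have h1 : kap F * σ ≤ s * σ := mul_le_mul_of_nonneg_right ((kap_le_one F).trans hs) hσ
  linarith

/-- `σ exp (-σ) ≤ 2d exp (-κ σ)` for `σ ≥ 0` -/
theorem mul_exp_neg_le {σ : ℝ} (hσ : 0 ≤ σ) :
    σ * Real.exp (-σ) ≤ 2 * (finrank ℚ F : ℝ) * Real.exp (-(kap F * σ)) := by
  have hd := finrank_pos' F
  set t : ℝ := σ / (2 * (finrank ℚ F : ℝ)) with ht
  have ht0 : 0 ≤ t := by positivity
  have h1 : t ≤ Real.exp t := by linarith [Real.add_one_le_exp t]
  have hsplit : -σ = -t + -(kap F * σ) := by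
    rw [ht, kap]
    field_simp
    ring
  rw [hsplit, Real.exp_add, Real.exp_neg t]
  have hσt : σ = 2 * (finrank ℚ F : ℝ) * t := by
    rw [ht]; field_simp
  have h2 : t * (Real.exp t)⁻¹ ≤ 1 := by
    rw [← div_eq_mul_inv, div_le_one (Real.exp_pos t)]
    exact h1
  have h3 : 0 ≤ Real.exp (-(kap F * σ)) := (Real.exp_pos _).le
  calc σ * ((Real.exp t)⁻¹ * Real.exp (-(kap F * σ)))
      = 2 * (finrank ℚ F : ℝ) * (t * (Real.exp t)⁻¹) * Real.exp (-(kap F * σ)) := by
        rw [hσt]; ring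
    _ ≤ 2 * (finrank ℚ F : ℝ) * 1 * Real.exp (-(kap F * σ)) := by
        apply mul_le_mul_of_nonneg_right _ h3
        exact mul_le_mul_of_nonneg_left h2 (by positivity)
    _ = 2 * (finrank ℚ F : ℝ) * Real.exp (-(kap F * σ)) := by ring

theorem hasDerivAt_neg_mul (s ξ : ℝ) : HasDerivAt (fun ξ : ℝ => -(s * ξ)) (-s) ξ := by
  have := ((hasDerivAt_id ξ).const_mul s).fun_neg
  simpa using this

theorem hasDerivAt_neg_mul' (σ s : ℝ) : HasDerivAt (fun t : ℝ => -(t * σ)) (-σ) s := by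
  have := ((hasDerivAt_id s).mul_const σ).fun_neg
  simpa using this

theorem hasDerivAt_hs (s ξ : ℝ) : HasDerivAt (hs s) (-s * Real.exp (-(s * ξ))) ξ :=
  (hasDerivAt_neg_mul s ξ).exp.congr_deriv (by ring)

theorem hasDerivAt_hs1 (s ξ : ℝ) :
    HasDerivAt (hs1 s) ((s * ξ - 1) * Real.exp (-(s * ξ))) ξ := by
  have h2 : HasDerivAt (fun ξ : ℝ => -ξ) (-1) ξ := (hasDerivAt_id ξ).fun_neg
  exact (h2.fun_mul (hasDerivAt_neg_mul s ξ).exp).congr_deriv (by ring)

theorem decay_hs {s : ℝ} (hs1' : 1 ≤ s) (hs2 : s ≤ 2) : Decay F (famConst F) (hs s) := by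
  have hK := two_le_famConst F
  refine decay_of_deriv F (h' := fun ξ => -s * Real.exp (-(s * ξ))) ?_ (hasDerivAt_hs s) ?_
  · intro σ hσ
    unfold hs
    rw [abs_of_pos (Real.exp_pos _)]
    have h1 := exp_neg_le F hs1' hσ
    have h2 : 0 ≤ Real.exp (-(kap F * σ)) := (Real.exp_pos _).le
    nlinarith
  · intro ξ hξ
    rw [abs_mul, abs_neg, abs_of_nonneg (by linarith : (0 : ℝ) ≤ s), abs_of_pos (Real.exp_pos _)]
    have h1 := exp_neg_le F hs1' hξ
    have h2 : 0 ≤ Real.exp (-(kap F * ξ)) := (Real.exp_pos _).le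
    have h3 : 0 < Real.exp (-(s * ξ)) := Real.exp_pos _
    nlinarith

theorem exp_neg_mul_le {s ξ : ℝ} (hs1' : 1 ≤ s) (hξ : 0 ≤ ξ) :
    Real.exp (-(s * ξ)) ≤ Real.exp (-ξ) := by
  apply Real.exp_le_exp.mpr
  have : ξ ≤ s * ξ := le_mul_of_one_le_left hξ hs1'
  linarith

theorem decay_hs1 {s : ℝ} (hs1' : 1 ≤ s) (hs2 : s ≤ 2) : Decay F (famConst F) (hs1 s) := by
  have hd := finrank_pos' F
  refine decay_of_deriv F (h' := fun ξ => (s * ξ - 1) * Real.exp (-(s * ξ))) ?_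
    (hasDerivAt_hs1 s) ?_
  · intro σ hσ
    unfold hs1
    rw [abs_mul, abs_neg, abs_of_nonneg hσ, abs_of_pos (Real.exp_pos _)]
    have h1 := exp_neg_mul_le hs1' hσ
    have h2 := mul_exp_neg_le F hσ
    have h3 : 0 ≤ Real.exp (-(kap F * σ)) := (Real.exp_pos _).le
    calc σ * Real.exp (-(s * σ)) ≤ σ * Real.exp (-σ) := mul_le_mul_of_nonneg_left h1 hσ
      _ ≤ 2 * (finrank ℚ F : ℝ) * Real.exp (-(kap F * σ)) := h2
      _ ≤ famConst F * Real.exp (-(kap F * σ)) := by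
          apply mul_le_mul_of_nonneg_right _ h3
          unfold famConst; linarith
  · intro ξ hξ
    rw [abs_mul, abs_of_pos (Real.exp_pos _)]
    have h0 : |s * ξ - 1| ≤ 1 + 2 * ξ := by
      rw [abs_le]
      constructor
      · nlinarith
      · nlinarith
    have h1 := exp_neg_mul_le hs1' hξ
    have h2 := mul_exp_neg_le F hξ
    have h3 : 0 ≤ Real.exp (-(kap F * ξ)) := (Real.exp_pos _).le
    have h4 : Real.exp (-ξ) ≤ Real.exp (-(kap F * ξ)) := by
      apply Real.exp_le_exp.mpr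
      have : kap F * ξ ≤ 1 * ξ := mul_le_mul_of_nonneg_right (kap_le_one F) hξ
      linarith
    have h5 : 0 ≤ Real.exp (-(s * ξ)) := (Real.exp_pos _).le
    calc |s * ξ - 1| * Real.exp (-(s * ξ)) ≤ (1 + 2 * ξ) * Real.exp (-(s * ξ)) :=
          mul_le_mul_of_nonneg_right h0 h5
      _ ≤ (1 + 2 * ξ) * Real.exp (-ξ) := mul_le_mul_of_nonneg_left h1 (by linarith)
      _ = Real.exp (-ξ) + 2 * (ξ * Real.exp (-ξ)) := by ring
      _ ≤ Real.exp (-(kap F * ξ)) + 2 * (2 * (finrank ℚ F : ℝ) * Real.exp (-(kap F * ξ))) := by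
          linarith
      _ = famConst F * Real.exp (-(kap F * ξ)) := by unfold famConst; ring

/-- the family `G_s = ε · ω · N ^ (-s)` -/
def gfun (ε : mixedSpace F → ℝ) (s : ℝ) : mixedSpace F → ℝ := wfun F ε (hs s)

/-- the family `G¹_s = - ε · ω · log N · N ^ (-s)` -/
def gfun1 (ε : mixedSpace F → ℝ) (s : ℝ) : mixedSpace F → ℝ := wfun F ε (hs1 s)

/-- the uniform constant of the two families -/
def unifConst : ℝ := tameConst F * famConst F

theorem tameOn_gfun {ε : mixedSpace F → ℝ} (hε : SignLike F ε) {s : ℝ}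
    (hs : s ∈ Set.Icc (1 : ℝ) 2) :
    TameOn (dom1 F) (expo F) (apert F / 2) (unifConst F) (gfun F ε s) :=
  tameOn_wfun F hε (decay_hs F hs.1 hs.2) (famConst_pos F).le

theorem tameOn_gfun1 {ε : mixedSpace F → ℝ} (hε : SignLike F ε) {s : ℝ}
    (hs : s ∈ Set.Icc (1 : ℝ) 2) :
    TameOn (dom1 F) (expo F) (apert F / 2) (unifConst F) (gfun1 F ε s) :=
  tameOn_wfun F hε (decay_hs1 F hs.1 hs.2) (famConst_pos F).le

theorem hasDerivAt_gfun (ε : mixedSpace F → ℝ) (s : ℝ) (x : mixedSpace F) :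
    HasDerivAt (fun t => gfun F ε t x) (gfun1 F ε s x) s := by
  unfold gfun gfun1 wfun hs hs1
  exact ((hasDerivAt_neg_mul' (Real.log (mixedEmbedding.norm x)) s).exp.const_mul
    (ε x * omega F x)).congr_deriv (by ring)

/-- the value of `G_s` at a point of positive norm -/
theorem gfun_eq (ε : mixedSpace F → ℝ) (s : ℝ) {x : mixedSpace F}
    (hx : 0 < mixedEmbedding.norm x) :
    gfun F ε s x = ε x * omega F x * (mixedEmbedding.norm x) ^ (-s) := by
  unfold gfun wfun hs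
  rw [Real.rpow_def_of_pos hx]
  congr 2
  ring

theorem gfun_zero (ε : mixedSpace F → ℝ) (s : ℝ) : gfun F ε s 0 = 0 :=
  wfun_of_omega_eq_zero F ε _ (omega_zero F)

/-- a crude decay bound giving the summability of `G_s` over a lattice for `s > 1` -/
theorem abs_gfun_le {ε : mixedSpace F → ℝ} (hε : SignLike F ε) {s : ℝ} (hs : 0 ≤ s)
    (x : mixedSpace F) :
    |gfun F ε s x| ≤ (balConst F) ^ (-(s * (finrank ℚ F : ℝ))) *
      ‖x‖ ^ (-(s * (finrank ℚ F : ℝ))) := by
  have hc := balConst_pos F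
  by_cases hω : omega F x = 0
  · rw [gfun, wfun_of_omega_eq_zero F ε _ hω, abs_zero]
    exact mul_nonneg (Real.rpow_nonneg hc.le _) (Real.rpow_nonneg (norm_nonneg _) _)
  · have hx0 := ne_zero_of_omega_ne_zero F hω
    have hxpos : 0 < ‖x‖ := norm_pos_iff.mpr hx0
    have hNpos : 0 < mixedEmbedding.norm x :=
      lt_of_le_of_ne (mixedEmbedding.norm_nonneg x) (Ne.symm (norm_ne_zero_of_omega_ne_zero F hω))
    rw [gfun_eq F ε s hNpos, abs_mul, abs_mul, abs_of_nonneg (omega_nonneg F x),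
      abs_of_nonneg (Real.rpow_nonneg hNpos.le _)]
    have h1 : |ε x| * omega F x ≤ 1 := by
      calc |ε x| * omega F x ≤ 1 * 1 :=
            mul_le_mul (hε.abs_le x) (omega_le_one F x) (omega_nonneg F x) zero_le_one
        _ = 1 := one_mul 1
    have hcx : 0 < balConst F * ‖x‖ := by positivity
    have h2 := pow_le_norm F hc.le (balanced_of_omega_ne_zero F hω)
    have h3 : (mixedEmbedding.norm x) ^ (-s) ≤ ((balConst F * ‖x‖) ^ (finrank ℚ F)) ^ (-s) :=
      Real.rpow_le_rpow_of_nonpos (pow_pos hcx _) h2 (by linarith)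
    have h4 : ((balConst F * ‖x‖) ^ (finrank ℚ F)) ^ (-s) =
        (balConst F) ^ (-(s * (finrank ℚ F : ℝ))) * ‖x‖ ^ (-(s * (finrank ℚ F : ℝ))) := by
      rw [← Real.rpow_natCast, ← Real.rpow_mul hcx.le, Real.mul_rpow hc.le hxpos.le]
      congr 2 <;> ring
    calc |ε x| * omega F x * (mixedEmbedding.norm x) ^ (-s)
        ≤ 1 * (mixedEmbedding.norm x) ^ (-s) :=
          mul_le_mul_of_nonneg_right h1 (Real.rpow_nonneg hNpos.le _)
      _ = (mixedEmbedding.norm x) ^ (-s) := one_mul _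
      _ ≤ _ := h3.trans (le_of_eq h4)

/-- bookkeeping: the congruence lemma of `gfun` is generated in this file -/
theorem gfun_congr_stored (ε : mixedSpace F → ℝ) (s : ℝ) : gfun F ε s = gfun F ε s := by
  have := @gfun.congr_simp F
  rfl

end Fermat.Agent.S48.A.TwistL.Family
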