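/-
PROJECT D (S48), part A, brick A6c (helper24): THE ANALYTIC CORE OF CHEBOTAREV, file 8.

THE COSET SHIFT LEMMA FOR THE IDEALS OF A NUMBER FIELD.

`wsum F ε c s = ∑ α : 𝓞 F, c α * G_s (α)` (`G_s = gfun F ε s` on the image of `α` in the mixed
space).  For a nonzero ideal `𝔟` and a `𝔟`-periodic weight `c`
(`isBL_coset`):  `wsum c s - (∑ q : 𝓞 / 𝔟, c q) * wsum 1_𝔟 s`  is bounded and Lipschitz on `(1, 2]`.

Mathlib + `Family.lean`.
-/
import Mathlib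
import Fermat.Agent.S48.A.TwistL.Family

set_option autoImplicit false
set_option linter.unusedSectionVars false

noncomputable section

namespace Fermat.Agent.S48.A.TwistL.Cosets

open NumberField NumberField.InfinitePlace NumberField.mixedEmbedding Module
  Fermat.Agent.S48.A.TwistL.Weight Fermat.Agent.S48.A.TwistL.Balanced
  Fermat.Agent.S48.A.TwistL.Shift Fermat.Agent.S48.A.TwistL.Lip
  Fermat.Agent.S48.A.TwistL.Family Fermat.Agent.S48.A.TwistL.BL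

open scoped Classical

variable (F : Type*) [Field F] [NumberField F]

/-- the embedding of the integers in the mixed space, as a `ℤ`-linear map -/
def embLin : 𝓞 F →ₗ[ℤ] mixedSpace F :=
  ((mixedEmbedding F).comp (algebraMap (𝓞 F) F)).toIntAlgHom.toLinearMap

/-- the embedding of the integers in the mixed space -/
def emb (α : 𝓞 F) : mixedSpace F := mixedEmbedding F (α : F)

theorem embLin_apply (α : 𝓞 F) : embLin F α = emb F α := rfl

theorem emb_add (α β : 𝓞 F) : emb F (α + β) = emb F α + emb F β := by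
  rw [← embLin_apply, map_add]; rfl

theorem emb_zero : emb F 0 = 0 := by
  rw [← embLin_apply, map_zero]

theorem emb_injective : Function.Injective (emb F) := fun _ _ h =>
  RingOfIntegers.ext (mixedEmbedding_injective F h)

theorem emb_mem_dom1 (α : 𝓞 F) : emb F α ∈ dom1 F := by
  by_cases hα : α = 0
  · left; rw [hα, emb_zero]
  · right
    unfold emb
    rw [mixedEmbedding.norm_eq_norm, ← Algebra.coe_norm_int, ← Int.cast_abs]
    have h1 : (Algebra.norm ℤ α) ≠ 0 := by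
      rw [ne_eq, Algebra.norm_eq_zero_iff]; exact hα
    have h2 : (1 : ℤ) ≤ |Algebra.norm ℤ α| := Int.one_le_abs h1
    exact_mod_cast h2

/-- the lattice of an ideal in the mixed space -/
def latt (𝔟 : Ideal (𝓞 F)) : Submodule ℤ (mixedSpace F) :=
  Submodule.map (embLin F) (𝔟.restrictScalars ℤ)

theorem latt_le (𝔟 : Ideal (𝓞 F)) : latt F 𝔟 ≤ mixedEmbedding.integerLattice F := by
  rintro x ⟨β, -, rfl⟩
  exact ⟨β, rfl⟩

instance (𝔟 : Ideal (𝓞 F)) : DiscreteTopology (latt F 𝔟) :=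
  DiscreteTopology.of_subset (s := (mixedEmbedding.integerLattice F : Set (mixedSpace F)))
    (inferInstanceAs (DiscreteTopology (mixedEmbedding.integerLattice F))) (latt_le F 𝔟)

theorem finrank_latt_le (𝔟 : Ideal (𝓞 F)) :
    (finrank ℤ (latt F 𝔟) : ℝ) ≤ finrank ℚ F := by
  have h1 : finrank ℤ (latt F 𝔟) ≤ finrank ℤ (mixedEmbedding.integerLattice F) :=
    Submodule.finrank_mono (latt_le F 𝔟)
  have h2 : finrank ℤ (mixedEmbedding.integerLattice F) = finrank ℚ F := by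
    rw [ZLattice.rank ℝ, mixedEmbedding.finrank]
  exact_mod_cast h2 ▸ h1

theorem finrank_latt_lt (𝔟 : Ideal (𝓞 F)) : (finrank ℤ (latt F 𝔟) : ℝ) < expo F :=
  (finrank_latt_le F 𝔟).trans_lt (finrank_lt_expo F)

/-- the ideal as a set of lattice points -/
def lattEquiv (𝔟 : Ideal (𝓞 F)) : 𝔟 ≃ latt F 𝔟 where
  toFun β := ⟨emb F β, ⟨β, β.2, rfl⟩⟩
  invFun ℓ := ⟨ℓ.2.choose, ℓ.2.choose_spec.1⟩
  left_inv β := by
    apply Subtype.ext
    exact emb_injective F ((⟨emb F β, ⟨β, β.2, rfl⟩⟩ : latt F 𝔟).2.choose_spec.2)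
  right_inv ℓ := by
    apply Subtype.ext
    exact ℓ.2.choose_spec.2

theorem lattEquiv_apply (𝔟 : Ideal (𝓞 F)) (β : 𝔟) : ((lattEquiv F 𝔟 β : latt F 𝔟) : mixedSpace F) =
    emb F β := rfl

/-- the decomposition of the integers into the cosets of an ideal -/
def decomp (𝔟 : Ideal (𝓞 F)) : 𝓞 F ≃ (𝓞 F ⧸ 𝔟) × 𝔟 where
  toFun α := (Ideal.Quotient.mk 𝔟 α, ⟨α - Quotient.out (Ideal.Quotient.mk 𝔟 α), by
    rw [← Ideal.Quotient.eq, Ideal.Quotient.mk_out]⟩)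
  invFun p := Quotient.out p.1 + p.2
  left_inv α := by simp
  right_inv p := by
    obtain ⟨q, β⟩ := p
    have h1 : Ideal.Quotient.mk 𝔟 (Quotient.out q + (β : 𝓞 F)) = q := by
      rw [map_add, Ideal.Quotient.mk_out, Ideal.Quotient.eq_zero_iff_mem.mpr β.2, add_zero]
    ext
    · exact h1
    · simp only [h1, add_sub_cancel_left]

theorem decomp_symm_apply (𝔟 : Ideal (𝓞 F)) (q : 𝓞 F ⧸ 𝔟) (β : 𝔟) :
    (decomp F 𝔟).symm (q, β) = Quotient.out q + (β : 𝓞 F) := rfl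

/-- the weighted sum of `G_s` over the integers -/
def wsum (ε : mixedSpace F → ℝ) (c : 𝓞 F → ℂ) (s : ℝ) : ℂ :=
  ∑' α : 𝓞 F, c α * ((gfun F ε s (emb F α) : ℝ) : ℂ)

/-- the sum of `G_s` over a coset of the lattice of an ideal -/
def csum (ε : mixedSpace F → ℝ) (𝔟 : Ideal (𝓞 F)) (v : mixedSpace F) (s : ℝ) : ℝ :=
  ∑' ℓ : latt F 𝔟, gfun F ε s ((ℓ : mixedSpace F) + v)

/-- summability of `G_s` over a coset of a lattice, `s > 1` -/
theorem summable_coset {ε : mixedSpace F → ℝ} (hε : SignLike F ε) (𝔟 : Ideal (𝓞 F))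
    (v : mixedSpace F) {s : ℝ} (hs : 1 < s) :
    Summable fun ℓ : latt F 𝔟 => gfun F ε s ((ℓ : mixedSpace F) + v) := by
  have hd := finrank_pos' F
  have hlt : -(s * (finrank ℚ F : ℝ)) < -(finrank ℤ (latt F 𝔟) : ℝ) := by
    have := finrank_latt_le F 𝔟
    nlinarith
  have h1 := ZLattice.summable_norm_sub_rpow (latt F 𝔟) (-(s * (finrank ℚ F : ℝ))) hlt (-v)
  simp only [sub_neg_eq_add] at h1
  refine Summable.of_norm_bounded (h1.mul_left ((balConst F) ^ (-(s * (finrank ℚ F : ℝ)))))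
    fun ℓ => ?_
  rw [Real.norm_eq_abs]
  exact abs_gfun_le F hε (by linarith) _

/-- summability of the weighted sum, `s > 1`, bounded weight -/
theorem summable_wsum {ε : mixedSpace F → ℝ} (hε : SignLike F ε) (c : 𝓞 F → ℂ) {B : ℝ}
    (hc : ∀ α, ‖c α‖ ≤ B) {s : ℝ} (hs : 1 < s) :
    Summable fun α : 𝓞 F => c α * ((gfun F ε s (emb F α) : ℝ) : ℂ) := by
  have h1 := summable_coset F hε ⊤ 0 hs
  have h2 : Summable fun β : (⊤ : Ideal (𝓞 F)) => gfun F ε s (emb F β) := by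
    rw [← (lattEquiv F ⊤).symm.summable_iff]
    refine h1.congr fun ℓ => ?_
    rw [Function.comp_apply, add_zero, ← lattEquiv_apply, Equiv.apply_symm_apply]
  have h3 : Summable fun α : 𝓞 F => gfun F ε s (emb F α) := by
    let e : (⊤ : Ideal (𝓞 F)) ≃ 𝓞 F :=
      { toFun := fun β => (β : 𝓞 F)
        invFun := fun α => ⟨α, Submodule.mem_top⟩
        left_inv := fun _ => rfl
        right_inv := fun _ => rfl }
    rw [← e.summable_iff]
    exact h2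
  refine Summable.of_norm_bounded (h3.norm.mul_left B) fun α => ?_
  rw [norm_mul, Complex.norm_real]
  exact mul_le_mul_of_nonneg_right (hc α) (norm_nonneg _)

/-- a point of a coset of the lattice of an ideal is in the domain `dom1` -/
theorem add_emb_mem_dom1 (𝔟 : Ideal (𝓞 F)) (ℓ : latt F 𝔟) (a : 𝓞 F) :
    (ℓ : mixedSpace F) + emb F a ∈ dom1 F := by
  obtain ⟨β, -, hβ⟩ := ℓ.2
  rw [← hβ, embLin_apply, ← emb_add]
  exact emb_mem_dom1 F _

/-- the sum over an ideal as a sum over its lattice -/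
theorem tsum_ideal_eq_csum (ε : mixedSpace F → ℝ) (𝔟 : Ideal (𝓞 F)) (v : mixedSpace F) (s : ℝ) :
    ∑' β : 𝔟, gfun F ε s (emb F β + v) = csum F ε 𝔟 v s := by
  unfold csum
  rw [← (lattEquiv F 𝔟).tsum_eq]
  rfl

/-- a periodic weight is bounded -/
theorem exists_bound_of_periodic {𝔟 : Ideal (𝓞 F)} (h𝔟 : 𝔟 ≠ ⊥) (c : 𝓞 F → ℂ)
    (hper : ∀ α β, β ∈ 𝔟 → c (α + β) = c α) : ∃ B : ℝ, ∀ α, ‖c α‖ ≤ B := by
  have : Finite (𝓞 F ⧸ 𝔟) := Ideal.finiteQuotientOfFreeOfNeBot 𝔟 h𝔟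
  have : Fintype (𝓞 F ⧸ 𝔟) := Fintype.ofFinite _
  refine ⟨∑ q : 𝓞 F ⧸ 𝔟, ‖c (Quotient.out q)‖, fun α => ?_⟩
  have h1 : c α = c (Quotient.out (Ideal.Quotient.mk 𝔟 α)) := by
    have hmem : α - Quotient.out (Ideal.Quotient.mk 𝔟 α) ∈ 𝔟 := by
      rw [← Ideal.Quotient.eq, Ideal.Quotient.mk_out]
    have := hper (Quotient.out (Ideal.Quotient.mk 𝔟 α)) _ hmem
    rw [add_sub_cancel] at this
    exact this
  rw [h1]
  exact Finset.single_le_sum (f := fun q : 𝓞 F ⧸ 𝔟 => ‖c (Quotient.out q)‖)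
    (fun _ _ => norm_nonneg _) (Finset.mem_univ _)

/-- the weighted sum as a finite sum of coset sums -/
theorem wsum_eq_finsum {ε : mixedSpace F → ℝ} (hε : SignLike F ε) {𝔟 : Ideal (𝓞 F)}
    (h𝔟 : 𝔟 ≠ ⊥) (c : 𝓞 F → ℂ) (hper : ∀ α β, β ∈ 𝔟 → c (α + β) = c α) {s : ℝ} (hs : 1 < s) :
    wsum F ε c s = ∑ᶠ q : 𝓞 F ⧸ 𝔟,
      c (Quotient.out q) * ((csum F ε 𝔟 (emb F (Quotient.out q)) s : ℝ) : ℂ) := by
  have : Finite (𝓞 F ⧸ 𝔟) := Ideal.finiteQuotientOfFreeOfNeBot 𝔟 h𝔟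
  have : Fintype (𝓞 F ⧸ 𝔟) := Fintype.ofFinite _
  obtain ⟨B, hB⟩ := exists_bound_of_periodic F h𝔟 c hper
  have hsum := summable_wsum F hε c hB hs
  have hsum' : Summable fun p : (𝓞 F ⧸ 𝔟) × 𝔟 =>
      c ((decomp F 𝔟).symm p) * ((gfun F ε s (emb F ((decomp F 𝔟).symm p)) : ℝ) : ℂ) :=
    ((decomp F 𝔟).symm.summable_iff
      (f := fun α : 𝓞 F => c α * ((gfun F ε s (emb F α) : ℝ) : ℂ))).mpr hsum
  have hterm : ∀ (q : 𝓞 F ⧸ 𝔟) (β : 𝔟),
      c ((decomp F 𝔟).symm (q, β)) * ((gfun F ε s (emb F ((decomp F 𝔟).symm (q, β))) : ℝ) : ℂ) =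
        c (Quotient.out q) * ((gfun F ε s (emb F β + emb F (Quotient.out q)) : ℝ) : ℂ) := by
    intro q β
    rw [decomp_symm_apply, hper _ _ β.2, emb_add, add_comm (emb F (Quotient.out q))]
  have hfib : ∀ q : 𝓞 F ⧸ 𝔟, Summable fun β : 𝔟 =>
      c ((decomp F 𝔟).symm (q, β)) * ((gfun F ε s (emb F ((decomp F 𝔟).symm (q, β))) : ℝ) : ℂ) :=
    fun q => hsum'.prod_factor q
  have step1 : wsum F ε c s = ∑' p : (𝓞 F ⧸ 𝔟) × 𝔟,
      c ((decomp F 𝔟).symm p) * ((gfun F ε s (emb F ((decomp F 𝔟).symm p)) : ℝ) : ℂ) :=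
    ((decomp F 𝔟).symm.tsum_eq
      (fun α : 𝓞 F => c α * ((gfun F ε s (emb F α) : ℝ) : ℂ))).symm
  have step2 := hsum'.tsum_prod' hfib
  have step3 : ∀ q : 𝓞 F ⧸ 𝔟, (∑' β : 𝔟,
      c ((decomp F 𝔟).symm (q, β)) * ((gfun F ε s (emb F ((decomp F 𝔟).symm (q, β))) : ℝ) : ℂ)) =
        c (Quotient.out q) * ((csum F ε 𝔟 (emb F (Quotient.out q)) s : ℝ) : ℂ) := by
    intro q
    rw [tsum_congr (hterm q), tsum_mul_left, ← Complex.ofReal_tsum, tsum_ideal_eq_csum]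
  rw [step1, step2, tsum_fintype, finsum_eq_sum_of_fintype]
  exact Finset.sum_congr rfl fun q _ => step3 q

/-- the sum weighted by the indicator of an ideal -/
theorem wsum_indicator (ε : mixedSpace F → ℝ) (𝔟 : Ideal (𝓞 F)) (s : ℝ) :
    wsum F ε (fun α => if α ∈ 𝔟 then 1 else 0) s = ((csum F ε 𝔟 0 s : ℝ) : ℂ) := by
  unfold wsum
  rw [← tsum_ideal_eq_csum, Complex.ofReal_tsum]
  have := tsum_subtype (𝔟 : Set (𝓞 F)) (fun α : 𝓞 F => ((gfun F ε s (emb F α) : ℝ) : ℂ))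
  simp only [add_zero]
  rw [show (∑' β : 𝔟, ((gfun F ε s (emb F β) : ℝ) : ℂ)) =
    ∑' β : ((𝔟 : Set (𝓞 F)) : Type _), ((gfun F ε s (emb F β) : ℝ) : ℂ) from rfl, this]
  refine tsum_congr fun α => ?_
  by_cases hα : α ∈ 𝔟
  · rw [if_pos hα, one_mul, Set.indicator_of_mem (show α ∈ (𝔟 : Set (𝓞 F)) from hα)]
  · rw [if_neg hα, zero_mul, Set.indicator_of_notMem (show α ∉ (𝔟 : Set (𝓞 F)) from hα)]

/-- **the coset shift lemma for ideals** -/
theorem isBL_coset {ε : mixedSpace F → ℝ} (hε : SignLike F ε) {𝔟 : Ideal (𝓞 F)} (h𝔟 : 𝔟 ≠ ⊥)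
    (c : 𝓞 F → ℂ) (hper : ∀ α β, β ∈ 𝔟 → c (α + β) = c α) :
    IsBL fun s => wsum F ε c s -
      (∑ᶠ q : 𝓞 F ⧸ 𝔟, c (Quotient.out q)) * wsum F ε (fun α => if α ∈ 𝔟 then 1 else 0) s := by
  have : Finite (𝓞 F ⧸ 𝔟) := Ideal.finiteQuotientOfFreeOfNeBot 𝔟 h𝔟
  have : Fintype (𝓞 F ⧸ 𝔟) := Fintype.ofFinite _
  -- the difference of two coset sums is in the class
  have hshift : ∀ q : 𝓞 F ⧸ 𝔟, IsBL fun s =>
      (((∑' ℓ : latt F 𝔟, (gfun F ε s ((ℓ : mixedSpace F) + emb F (Quotient.out q)) -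
        gfun F ε s ((ℓ : mixedSpace F) + 0)) : ℝ)) : ℂ) := by
    intro q
    refine isBL_shift (latt F 𝔟) (D := dom1 F) (finrank_latt_lt F 𝔟)
      (half_pos (apert_pos F)) (gfun F ε) (gfun1 F ε) (fun s hs => tameOn_gfun F hε hs)
      (fun s hs => tameOn_gfun1 F hε hs) (fun s _ x _ => hasDerivAt_gfun F ε s x)
      (emb F (Quotient.out q)) 0 fun ℓ => ⟨add_emb_mem_dom1 F 𝔟 ℓ _, ?_⟩
    rw [← emb_zero F]
    exact add_emb_mem_dom1 F 𝔟 ℓ 0
  have hmain : IsBL fun s => ∑ q : 𝓞 F ⧸ 𝔟, c (Quotient.out q) *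
      (((∑' ℓ : latt F 𝔟, (gfun F ε s ((ℓ : mixedSpace F) + emb F (Quotient.out q)) -
        gfun F ε s ((ℓ : mixedSpace F) + 0)) : ℝ)) : ℂ) :=
    IsBL.sum _ fun q _ => (hshift q).const_mul _
  refine hmain.congr fun s hs => ?_
  rw [wsum_eq_finsum F hε h𝔟 c hper hs.1, wsum_indicator, finsum_eq_sum_of_fintype,
    finsum_eq_sum_of_fintype, Finset.sum_mul, ← Finset.sum_sub_distrib]
  refine Finset.sum_congr rfl fun q _ => ?_
  rw [← mul_sub, ← Complex.ofReal_sub]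
  congr 2
  unfold csum
  rw [(summable_coset F hε 𝔟 _ hs.1).tsum_sub (summable_coset F hε 𝔟 0 hs.1)]

/-- bookkeeping: the congruence lemma of `wsum` is generated in this file -/
theorem wsum_congr_stored (ε : mixedSpace F → ℝ) (c : 𝓞 F → ℂ) (s : ℝ) :
    wsum F ε c s = wsum F ε c s := by
  have := @wsum.congr_simp F
  rfl

end Fermat.Agent.S48.A.TwistL.Cosets
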