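/-
PROJECT D (S48), part A, A6 (Chebotarev), brick (U) of helper24's `TwistL` (helper10):
THE UNFOLDING `Seams.Unfold`.

The nonzero elements `α` of `J` are parametrised by the pairs (`I` a nonzero ideal with `I * J`
principal, `u` a unit): `α = u * (a chosen generator of I * J)`.  Summing a unit-weighted function of
the ideal `(α) / J` over `J ∖ 0` therefore gives `torsionOrder` times the sum over the ideals.
-/
import Mathlib
import Fermat.Agent.S48.A.TwistL.Seams

set_option autoImplicit false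

noncomputable section

namespace Fermat.Agent.S48.A.TwistL.Unfold

open NumberField NumberField.Units Fermat.Agent.S48.A.TwistL.Seams

variable {F : Type} [Field F] [NumberField F]

/-- the index set on the ideal side -/
abbrev IdealIdx (J : Ideal (𝓞 F)) : Type := {I : Ideal (𝓞 F) // I ≠ ⊥ ∧ (I * J).IsPrincipal}

/-- the index set on the element side -/
abbrev ElemIdx (J : Ideal (𝓞 F)) : Type := {α : 𝓞 F // α ∈ J ∧ α ≠ 0}

/-- a chosen generator of `I * J` -/
def gen (J : Ideal (𝓞 F)) (I : IdealIdx J) : 𝓞 F :=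
  haveI := I.2.2
  Submodule.IsPrincipal.generator (I.1 * J)

omit [NumberField F] in
theorem span_gen (J : Ideal (𝓞 F)) (I : IdealIdx J) : Ideal.span {gen J I} = I.1 * J := by
  have := I.2.2
  exact Ideal.span_singleton_generator (I.1 * J)

omit [NumberField F] in
theorem gen_mem (J : Ideal (𝓞 F)) (I : IdealIdx J) : gen J I ∈ J := by
  have h1 : gen J I ∈ Ideal.span {gen J I} := Ideal.mem_span_singleton_self _
  rw [span_gen] at h1
  exact (Ideal.mul_le_right : I.1 * J ≤ J) h1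

omit [NumberField F] in
theorem gen_ne_zero {J : Ideal (𝓞 F)} (hJ : J ≠ ⊥) (I : IdealIdx J) : gen J I ≠ 0 := by
  intro h0
  have h1 := span_gen J I
  rw [h0, Ideal.span_singleton_zero] at h1
  rcases mul_eq_zero.mp h1.symm with h2 | h2
  · exact I.2.1 h2
  · exact hJ h2

/-- the parametrisation `(I, u) ↦ u * gen I` of `J ∖ 0` -/
def param {J : Ideal (𝓞 F)} (hJ : J ≠ ⊥) (p : IdealIdx J × (𝓞 F)ˣ) : ElemIdx J :=
  ⟨(p.2 : 𝓞 F) * gen J p.1, J.mul_mem_left _ (gen_mem J p.1),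
    mul_ne_zero (Units.ne_zero _) (gen_ne_zero hJ p.1)⟩

omit [NumberField F] in
theorem span_param {J : Ideal (𝓞 F)} (hJ : J ≠ ⊥) (p : IdealIdx J × (𝓞 F)ˣ) :
    Ideal.span {((param hJ p : ElemIdx J) : 𝓞 F)} = p.1.1 * J := by
  rw [← span_gen J p.1]
  show Ideal.span {(p.2 : 𝓞 F) * gen J p.1} = _
  rw [Ideal.span_singleton_eq_span_singleton]
  exact ⟨p.2⁻¹, by rw [mul_comm, ← mul_assoc, Units.inv_mul, one_mul]⟩

theorem param_bijective {J : Ideal (𝓞 F)} (hJ : J ≠ ⊥) : Function.Bijective (param hJ) := by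
  constructor
  · rintro ⟨I, u⟩ ⟨I', u'⟩ h
    have h1 : I.1 * J = I'.1 * J := by rw [← span_param hJ (I, u), ← span_param hJ (I', u'), h]
    have h2 : I = I' := Subtype.ext (mul_right_cancel₀ hJ h1)
    subst h2
    have h3 : (u : 𝓞 F) * gen J I = (u' : 𝓞 F) * gen J I := congrArg Subtype.val h
    have h4 : (u : 𝓞 F) = u' := mul_right_cancel₀ (gen_ne_zero hJ I) h3
    rw [Units.ext h4]
  · rintro ⟨α, hαJ, hα0⟩
    obtain ⟨I, hI⟩ := Ideal.dvd_span_singleton.mpr hαJ
    have hI' : I * J = Ideal.span {α} := by rw [hI, mul_comm]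
    have hI0 : I ≠ ⊥ := by
      intro h0
      rw [h0, Ideal.bot_mul] at hI'
      exact hα0 (Ideal.span_singleton_eq_bot.mp hI'.symm)
    have hIp : (I * J).IsPrincipal := ⟨⟨α, hI'⟩⟩
    let I0 : IdealIdx J := ⟨I, hI0, hIp⟩
    have h1 : Ideal.span {gen J I0} = Ideal.span {α} := by rw [span_gen]; exact hI'
    obtain ⟨u, hu⟩ := Ideal.span_singleton_eq_span_singleton.mp h1
    refine ⟨(I0, u), Subtype.ext ?_⟩
    show (u : 𝓞 F) * gen J I0 = α
    rw [mul_comm]; exact hu

/-- **(U)**: `Seams.Unfold` is a theorem. -/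
theorem unfold : Unfold := by
  classical
  intro F _ _ wt hwt J hJ f hf g hg
  obtain ⟨hwt0, hwtsum⟩ := hwt
  set w : ℝ := (torsionOrder F : ℝ) with hw
  -- the function on the product
  let G : IdealIdx J × (𝓞 F)ˣ → ℂ := fun p =>
    ((wt ((p.2 : 𝓞 F) * gen J p.1) : ℝ) : ℂ) * f p.1.1
  -- inner sums
  have hinner : ∀ I : IdealIdx J, HasSum (fun u : (𝓞 F)ˣ => G (I, u)) ((w : ℂ) * f I.1) := by
    intro I
    have h1 := hwtsum (gen J I) (gen_ne_zero hJ I)
    have h2 : HasSum (fun u : (𝓞 F)ˣ => ((wt ((u : 𝓞 F) * gen J I) : ℝ) : ℂ)) ((w : ℝ) : ℂ) :=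
      Complex.hasSum_ofReal.mpr h1  -- coe
    exact h2.mul_right (f I.1)
  -- summability of the norms on the product
  have hnorm : Summable fun p : IdealIdx J × (𝓞 F)ˣ => ‖G p‖ := by
    rw [summable_prod_of_nonneg (fun p => norm_nonneg _)]
    constructor
    · intro I
      exact (hinner I).summable.norm
    · have h3 : ∀ I : IdealIdx J, ∑' u : (𝓞 F)ˣ, ‖G (I, u)‖ = w * ‖f I.1‖ := by
        intro I
        have h1 := hwtsum (gen J I) (gen_ne_zero hJ I)
        have h4 : ∀ u : (𝓞 F)ˣ, ‖G (I, u)‖ = wt ((u : 𝓞 F) * gen J I) * ‖f I.1‖ := by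
          intro u
          show ‖((wt ((u : 𝓞 F) * gen J I) : ℝ) : ℂ) * f I.1‖ = _
          rw [norm_mul, Complex.norm_real, Real.norm_of_nonneg (hwt0 _)]
        simp_rw [h4]
        exact (h1.mul_right _).tsum_eq
      simp_rw [h3]
      exact (hf.subtype _).mul_left w
  have hG : Summable G := hnorm.of_norm
  have hGsum : HasSum (fun I : IdealIdx J => (w : ℂ) * f I.1) (∑' p, G p) :=
    hG.hasSum.prod_fiberwise hinner
  have htotal : ∑' p, G p =
      (w : ℂ) * ∑' I : Ideal (𝓞 F), if I ≠ ⊥ ∧ (I * J).IsPrincipal then f I else 0 := by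
    rw [← hGsum.tsum_eq, tsum_mul_left]
    congr 1
    have h5 : ∑' I : IdealIdx J, f I.1 =
        ∑' I : Ideal (𝓞 F), Set.indicator {I : Ideal (𝓞 F) | I ≠ ⊥ ∧ (I * J).IsPrincipal} f I :=
      tsum_subtype {I : Ideal (𝓞 F) | I ≠ ⊥ ∧ (I * J).IsPrincipal} f
    rw [h5]
    refine tsum_congr fun I => ?_
    simp [Set.indicator_apply]
  -- transport along the parametrisation
  let e : IdealIdx J × (𝓞 F)ˣ ≃ ElemIdx J := Equiv.ofBijective (param hJ) (param_bijective hJ)
  have hcomp : G = (fun a : ElemIdx J => ((wt (a : 𝓞 F) : ℝ) : ℂ) * g a) ∘ e := by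
    funext p
    show _ = ((wt ((param hJ p : ElemIdx J) : 𝓞 F) : ℝ) : ℂ) * g (param hJ p : ElemIdx J)
    rw [hg _ p.1.1 (param hJ p).2.2 (span_param hJ p).symm]
    rfl
  have hE : HasSum (fun a : ElemIdx J => ((wt (a : 𝓞 F) : ℝ) : ℂ) * g a) (∑' p, G p) := by
    rw [← e.hasSum_iff, ← hcomp]
    exact hG.hasSum
  have hind := (hasSum_subtype_iff_indicator (s := {α : 𝓞 F | α ∈ J ∧ α ≠ 0})
    (f := fun α : 𝓞 F => ((wt α : ℝ) : ℂ) * g α)).mp hE
  have hwc : ((w : ℝ) : ℂ) = (torsionOrder F : ℂ) := by rw [hw]; push_cast; rfl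
  rw [htotal, hwc] at hind
  convert hind using 1
  funext α
  simp [Set.indicator_apply]

end Fermat.Agent.S48.A.TwistL.Unfold

end
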