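/-
PROJECT D (S48), part A, brick A6c (helper24): THE ANALYTIC CORE OF CHEBOTAREV, file 10.

THE PARTIAL `L`-FUNCTIONS AND THEIR UNFOLDING.

* `lterm`, `lfun`: the twisted Dedekind series (the literal of `helper4`'s `Cheb/Seams.lean`);
  `lpart F ψ J`: its part over the nonzero ideals `I` with `I * J` principal.
* `Compat F ψ ε`: `ε` is a sign on the mixed space with `ψ(|N α|) = ε(α) ψ(N α)`.
* `unfold_lpart`: `w * lpart F ψ J s = ψ(N J)⁻¹ * N J ^ s * wsum F ε (1_J ψ(N ·)) s`.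

Mathlib + main's `S30/Density/ZetaEuler` + `Cosets`, `Unfold` (helper10), `Alg`.
-/
import Mathlib
import Fermat.Agent.S30.Density.ZetaEuler
import Fermat.Agent.S48.A.TwistL.Cosets
import Fermat.Agent.S48.A.TwistL.Unfold
import Fermat.Agent.S48.A.TwistL.Alg

set_option autoImplicit false
set_option linter.unusedSectionVars false

noncomputable section

namespace Fermat.Agent.S48.A.TwistL.Parts

open NumberField NumberField.Units NumberField.mixedEmbedding Ideal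
  Fermat.Agent.S48.A.TwistL.Seams Fermat.Agent.S48.A.TwistL.Weight
  Fermat.Agent.S48.A.TwistL.Lip Fermat.Agent.S48.A.TwistL.Family
  Fermat.Agent.S48.A.TwistL.Cosets Fermat.Agent.S48.A.TwistL.BL

open scoped Classical

variable (F : Type) [Field F] [NumberField F]

/-- the term of the twisted Dedekind series -/
def lterm {m : ℕ} (ψ : DirichletCharacter ℂ m) (s : ℝ) (I : Ideal (𝓞 F)) : ℂ :=
  ψ ((Ideal.absNorm I : ℕ) : ZMod m) * (((Ideal.absNorm I : ℝ) ^ (-s) : ℝ) : ℂ)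

/-- the twisted Dedekind series -/
def lfun {m : ℕ} (ψ : DirichletCharacter ℂ m) (s : ℝ) : ℂ :=
  ∑' I : Ideal (𝓞 F), lterm F ψ s I

/-- the part of the twisted Dedekind series over the class inverse to the class of `J` -/
def lpart {m : ℕ} (ψ : DirichletCharacter ℂ m) (J : Ideal (𝓞 F)) (s : ℝ) : ℂ :=
  ∑' I : Ideal (𝓞 F), if I ≠ ⊥ ∧ (I * J).IsPrincipal then lterm F ψ s I else 0

theorem norm_lterm_le {m : ℕ} (ψ : DirichletCharacter ℂ m) (s : ℝ) (I : Ideal (𝓞 F)) :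
    ‖lterm F ψ s I‖ ≤ Fermat.Agent.S30.Density.ZetaEuler.zterm F s I := by
  unfold lterm Fermat.Agent.S30.Density.ZetaEuler.zterm
  rw [norm_mul, Complex.norm_real, Real.norm_eq_abs,
    abs_of_nonneg (Real.rpow_nonneg (Nat.cast_nonneg _) _)]
  exact mul_le_of_le_one_left (Real.rpow_nonneg (Nat.cast_nonneg _) _)
    (DirichletCharacter.norm_le_one ψ _)

theorem summable_norm_lterm {m : ℕ} (ψ : DirichletCharacter ℂ m) {s : ℝ} (hs : 1 < s) :
    Summable fun I : Ideal (𝓞 F) => ‖lterm F ψ s I‖ :=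
  Summable.of_nonneg_of_le (fun _ => norm_nonneg _) (norm_lterm_le F ψ s)
    (Fermat.Agent.S30.Density.ZetaEuler.summable_zterm F hs)

theorem summable_lterm {m : ℕ} (ψ : DirichletCharacter ℂ m) {s : ℝ} (hs : 1 < s) :
    Summable (lterm F ψ s) := (summable_norm_lterm F ψ hs).of_norm

/-- `ε` is a sign on the mixed space with `ψ(|N α|) = ε(α) ψ(N α)` -/
structure Compat {m : ℕ} (ψ : DirichletCharacter ℂ m) (ε : mixedSpace F → ℝ) : Prop where
  sign : SignLike F ε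
  compat : ∀ α : 𝓞 F, α ≠ 0 → ψ ((Ideal.absNorm (Ideal.span {α}) : ℕ) : ZMod m) =
    ((ε (emb F α) : ℝ) : ℂ) * psiN F ψ α

/-- the norm on the mixed space of the image of an integer -/
theorem norm_emb (α : 𝓞 F) :
    mixedEmbedding.norm (emb F α) = (Ideal.absNorm (Ideal.span {α}) : ℝ) := by
  unfold emb
  rw [mixedEmbedding.norm_eq_norm, ← Algebra.coe_norm_int, Ideal.absNorm_span_singleton,
    Nat.cast_natAbs, Int.cast_abs]
  push_cast
  rfl

theorem absNorm_span_pos {α : 𝓞 F} (hα : α ≠ 0) : (0 : ℝ) < Ideal.absNorm (Ideal.span {α}) := by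
  rw [Nat.cast_pos, Nat.pos_iff_ne_zero, ne_eq, Ideal.absNorm_eq_zero_iff,
    Ideal.span_singleton_eq_bot]
  exact hα

/-- the value of `G_s` at the image of a nonzero integer -/
theorem gfun_emb (ε : mixedSpace F → ℝ) (s : ℝ) {α : 𝓞 F} (hα : α ≠ 0) :
    gfun F ε s (emb F α) =
      ε (emb F α) * omega F (emb F α) * (Ideal.absNorm (Ideal.span {α}) : ℝ) ^ (-s) := by
  rw [gfun_eq F ε s (by rw [norm_emb]; exact absNorm_span_pos F hα), norm_emb]

theorem gfun_emb_zero (ε : mixedSpace F → ℝ) (s : ℝ) : gfun F ε s (emb F 0) = 0 := by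
  rw [emb_zero]; exact gfun_zero F ε s

/-- **the unfolding of a partial `L`-function** -/
theorem unfold_lpart {m : ℕ} {ψ : DirichletCharacter ℂ m} {ε : mixedSpace F → ℝ}
    (hc : Compat F ψ ε) {J : Ideal (𝓞 F)} (hJ : J ≠ ⊥)
    (hJm : IsUnit ((Ideal.absNorm J : ℕ) : ZMod m)) {s : ℝ} (hs : 1 < s) :
    (torsionOrder F : ℂ) * lpart F ψ J s =
      (ψ ((Ideal.absNorm J : ℕ) : ZMod m))⁻¹ * (((Ideal.absNorm J : ℝ) ^ s : ℝ) : ℂ) *
        wsum F ε (fun α => if α ∈ J then psiN F ψ α else 0) s := by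
  have hNJ : (0 : ℝ) < Ideal.absNorm J := by
    rw [Nat.cast_pos, Nat.pos_iff_ne_zero, ne_eq, Ideal.absNorm_eq_zero_iff]
    exact hJ
  have hψJ : ψ ((Ideal.absNorm J : ℕ) : ZMod m) ≠ 0 := (IsUnit.map ψ hJm).ne_zero
  set g : 𝓞 F → ℂ := fun α => (ψ ((Ideal.absNorm J : ℕ) : ZMod m))⁻¹ *
    ψ ((Ideal.absNorm (Ideal.span {α}) : ℕ) : ZMod m) *
    ((((Ideal.absNorm (Ideal.span {α}) : ℝ) ^ (-s) * (Ideal.absNorm J : ℝ) ^ s : ℝ)) : ℂ) with hg
  have hfg : ∀ (α : 𝓞 F) (I : Ideal (𝓞 F)), α ≠ 0 → I * J = Ideal.span {α} →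
      g α = lterm F ψ s I := by
    intro α I _ hIJ
    have hn : Ideal.absNorm (Ideal.span {α}) = Ideal.absNorm I * Ideal.absNorm J := by
      rw [← hIJ, map_mul]
    have hNI : (0 : ℝ) ≤ Ideal.absNorm I := Nat.cast_nonneg _
    rw [hg]
    simp only
    rw [hn, Nat.cast_mul, map_mul, lterm]
    have e1 : (ψ ((Ideal.absNorm J : ℕ) : ZMod m))⁻¹ *
        (ψ ((Ideal.absNorm I : ℕ) : ZMod m) * ψ ((Ideal.absNorm J : ℕ) : ZMod m)) =
        ψ ((Ideal.absNorm I : ℕ) : ZMod m) := by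
      field_simp
    have e2 : (((Ideal.absNorm I * Ideal.absNorm J : ℕ) : ℝ)) ^ (-s) *
        (Ideal.absNorm J : ℝ) ^ s = (Ideal.absNorm I : ℝ) ^ (-s) := by
      rw [Nat.cast_mul, Real.mul_rpow hNI hNJ.le, Real.rpow_neg hNJ.le, mul_assoc,
        inv_mul_cancel₀ (Real.rpow_pos_of_pos hNJ s).ne', mul_one]
    rw [e1, e2]
  have hU := Unfold.unfold F (fun α : 𝓞 F => omega F (mixedEmbedding F (α : F)))
    (unitWeight_omega F) J hJ (lterm F ψ s) (summable_norm_lterm F ψ hs) g hfg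
  have hterm : ∀ α : 𝓞 F,
      (if α ∈ J ∧ α ≠ 0 then ((omega F (mixedEmbedding F (α : F)) : ℝ) : ℂ) * g α else 0) =
        (ψ ((Ideal.absNorm J : ℕ) : ZMod m))⁻¹ * (((Ideal.absNorm J : ℝ) ^ s : ℝ) : ℂ) *
          ((if α ∈ J then psiN F ψ α else 0) * ((gfun F ε s (emb F α) : ℝ) : ℂ)) := by
    intro α
    by_cases hα0 : α = 0
    · rw [if_neg (fun h => h.2 hα0), hα0, gfun_emb_zero, Complex.ofReal_zero, mul_zero, mul_zero]
    · by_cases hαJ : α ∈ J
      · rw [if_pos ⟨hαJ, hα0⟩, if_pos hαJ, gfun_emb F ε s hα0, hg]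
        simp only
        rw [hc.compat α hα0]
        show ((omega F (emb F α) : ℝ) : ℂ) * _ = _
        push_cast
        ring
      · rw [if_neg (fun h => hαJ h.1), if_neg hαJ, zero_mul, mul_zero]
  have h1 := hU.tsum_eq
  rw [tsum_congr hterm, tsum_mul_left] at h1
  rw [lpart, ← h1]
  rfl

/-- bookkeeping: the congruence lemma of `lpart` is generated in this file -/
theorem lpart_congr_stored {m : ℕ} (ψ : DirichletCharacter ℂ m) (J : Ideal (𝓞 F)) (s : ℝ) :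
    lpart F ψ J s = lpart F ψ J s := by
  have := @lpart.congr_simp F
  rfl

end Fermat.Agent.S48.A.TwistL.Parts
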