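/-
PROJECT D (S48), part A, brick A6c (helper24): THE ANALYTIC CORE OF CHEBOTAREV, file 11.

THE ZETA SIDE: `W F J s = ∑_{α ∈ J} ω(α) |N α| ^ (-s)`.

* `isBL_W_top_sub`: `W ⊤ - N J • W J` is bounded and Lipschitz on `(1, 2]` (the ideals are
  equidistributed among the classes, in smooth form);
* `W_principal`: `W K = N K ^ (-s) W ⊤` for a principal `K`;
* `isBL_pole`: `(N J ^ (s - 1) - 1) W ⊤` is bounded and Lipschitz on `(1, 2]` (the pole of the
  zeta function at `1` is simple, WITHOUT any integral: a power of `J` is principal).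

Mathlib + `Parts.lean`.
-/
import Mathlib
import Fermat.Agent.S48.A.TwistL.Parts

set_option autoImplicit false
set_option linter.unusedSectionVars false

noncomputable section

namespace Fermat.Agent.S48.A.TwistL.Zeta

open NumberField NumberField.Units NumberField.mixedEmbedding Ideal nonZeroDivisors
  Fermat.Agent.S48.A.TwistL.Seams Fermat.Agent.S48.A.TwistL.Weight
  Fermat.Agent.S48.A.TwistL.Lip Fermat.Agent.S48.A.TwistL.Family
  Fermat.Agent.S48.A.TwistL.Cosets Fermat.Agent.S48.A.TwistL.BL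
  Fermat.Agent.S48.A.TwistL.Parts Fermat.Agent.S48.A.TwistL.Alg

open scoped Classical

variable (F : Type) [Field F] [NumberField F]

/-- the trivial character modulo `1` -/
def triv : DirichletCharacter ℂ 1 := 1

theorem triv_apply (x : ZMod 1) : triv x = 1 :=
  MulChar.one_apply (isUnit_of_subsingleton x)

theorem psiN_triv (α : 𝓞 F) : psiN F triv α = 1 := triv_apply _

theorem compat_triv : Compat F triv (fun _ => 1) where
  sign := signLike_one F
  compat α _ := by rw [triv_apply, psiN_triv, Complex.ofReal_one, one_mul]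

/-- the zeta sum over an ideal -/
def W (J : Ideal (𝓞 F)) (s : ℝ) : ℂ :=
  wsum F (fun _ => 1) (fun α => if α ∈ J then 1 else 0) s

theorem absNorm_pos' {J : Ideal (𝓞 F)} (hJ : J ≠ ⊥) : (0 : ℝ) < Ideal.absNorm J := by
  rw [Nat.cast_pos, Nat.pos_iff_ne_zero, ne_eq, Ideal.absNorm_eq_zero_iff]
  exact hJ

theorem one_le_absNorm {J : Ideal (𝓞 F)} (hJ : J ≠ ⊥) : (1 : ℝ) ≤ Ideal.absNorm J := by
  have : 0 < Ideal.absNorm J := by
    rw [Nat.pos_iff_ne_zero, ne_eq, Ideal.absNorm_eq_zero_iff]; exact hJ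
  exact_mod_cast this

/-- the unfolding of the zeta sum -/
theorem unfold_W {J : Ideal (𝓞 F)} (hJ : J ≠ ⊥) {s : ℝ} (hs : 1 < s) :
    (torsionOrder F : ℂ) * lpart F triv J s =
      (((Ideal.absNorm J : ℝ) ^ s : ℝ) : ℂ) * W F J s := by
  have h := unfold_lpart F (compat_triv F) hJ (isUnit_of_subsingleton _) hs
  rw [h, triv_apply, inv_one, one_mul]
  congr 2
  funext α
  rw [psiN_triv]

/-- the partial `L`-function depends on the class of `J` only -/
theorem lpart_congr {m : ℕ} (ψ : DirichletCharacter ℂ m) {J J' : Ideal (𝓞 F)} (hJ : J ≠ ⊥)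
    (hJ' : J' ≠ ⊥)
    (h : ClassGroup.mk0 ⟨J, mem_nonZeroDivisors_iff_ne_zero.mpr hJ⟩ =
      ClassGroup.mk0 ⟨J', mem_nonZeroDivisors_iff_ne_zero.mpr hJ'⟩) (s : ℝ) :
    lpart F ψ J s = lpart F ψ J' s := by
  unfold lpart
  refine tsum_congr fun I => ?_
  by_cases hI : I = ⊥
  · rw [if_neg (fun h => h.1 hI), if_neg (fun h => h.1 hI)]
  · have : (I * J).IsPrincipal ↔ (I * J').IsPrincipal := by
      rw [isPrincipal_mul_iff F hI hJ, isPrincipal_mul_iff F hI hJ', h]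
    by_cases hp : (I * J).IsPrincipal
    · rw [if_pos ⟨hI, hp⟩, if_pos ⟨hI, this.mp hp⟩]
    · rw [if_neg (fun h => hp h.2), if_neg (fun h => hp (this.mpr h.2))]

/-- the zeta sum over a principal ideal -/
theorem W_principal {K : Ideal (𝓞 F)} (hK : K ≠ ⊥) (hKp : K.IsPrincipal) {s : ℝ} (hs : 1 < s) :
    (((Ideal.absNorm K : ℝ) ^ s : ℝ) : ℂ) * W F K s = W F ⊤ s := by
  have htop : (⊤ : Ideal (𝓞 F)) ≠ ⊥ := top_ne_bot
  have hcl : ClassGroup.mk0 ⟨K, mem_nonZeroDivisors_iff_ne_zero.mpr hK⟩ =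
      ClassGroup.mk0 ⟨⊤, mem_nonZeroDivisors_iff_ne_zero.mpr htop⟩ := by
    rw [(ClassGroup.mk0_eq_one_iff _).mpr hKp, (ClassGroup.mk0_eq_one_iff _).mpr ⟨1, by simp⟩]
  have h1 := unfold_W F hK hs
  have h2 := unfold_W F htop hs
  rw [lpart_congr F triv hK htop hcl s, h2, Ideal.absNorm_top, Nat.cast_one, Real.one_rpow,
    Complex.ofReal_one, one_mul] at h1
  exact h1.symm

/-- the number of residues modulo an ideal, as a `finsum` -/
theorem finsum_one_eq {J : Ideal (𝓞 F)} (hJ : J ≠ ⊥) :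
    (∑ᶠ _q : 𝓞 F ⧸ J, (1 : ℂ)) = (Ideal.absNorm J : ℂ) := by
  have : Finite (𝓞 F ⧸ J) := Ideal.finiteQuotientOfFreeOfNeBot J hJ
  have : Fintype (𝓞 F ⧸ J) := Fintype.ofFinite _
  rw [finsum_eq_sum_of_fintype, Finset.sum_const, Finset.card_univ, nsmul_eq_mul, mul_one,
    Ideal.absNorm_apply, Submodule.cardQuot_apply, Nat.card_eq_fintype_card]

/-- **the ideals are equidistributed among the cosets of an ideal, in smooth form** -/
theorem isBL_W_top_sub {J : Ideal (𝓞 F)} (hJ : J ≠ ⊥) :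
    IsBL fun s => W F ⊤ s - (Ideal.absNorm J : ℂ) * W F J s := by
  have h := isBL_coset F (signLike_one F) hJ (fun _ => (1 : ℂ)) (fun _ _ _ => rfl)
  refine h.congr fun s _ => ?_
  rw [finsum_one_eq F hJ]
  congr 2
  funext α
  rw [if_pos Submodule.mem_top]

/-- **the pole at `1` is simple** -/
theorem isBL_pole {J : Ideal (𝓞 F)} (hJ : J ≠ ⊥) :
    IsBL fun s => ((((Ideal.absNorm J : ℝ) ^ (s - 1) - 1 : ℝ)) : ℂ) * W F ⊤ s := by
  set n : ℝ := ((Ideal.absNorm J : ℕ) : ℝ) with hn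
  have hn1 : 1 ≤ n := one_le_absNorm F hJ
  have hn0 : 0 < n := lt_of_lt_of_le one_pos hn1
  set h : ℕ := Fintype.card (ClassGroup (𝓞 F)) with hh
  have hpos : 0 < h := Fintype.card_pos
  set K : Ideal (𝓞 F) := J ^ h with hK
  have hK0 : K ≠ ⊥ := pow_ne_zero h hJ
  have hKp : K.IsPrincipal := by
    rw [← ClassGroup.mk0_eq_one_iff (mem_nonZeroDivisors_iff_ne_zero.mpr hK0)]
    have : (⟨K, mem_nonZeroDivisors_iff_ne_zero.mpr hK0⟩ : (Ideal (𝓞 F))⁰) =
        (⟨J, mem_nonZeroDivisors_iff_ne_zero.mpr hJ⟩ : (Ideal (𝓞 F))⁰) ^ h := by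
      apply Subtype.ext
      rw [SubmonoidClass.coe_pow]
    rw [this, map_pow, hh]
    exact pow_card_eq_one
  set N : ℝ := n ^ h with hN
  have hN0 : 0 < N := pow_pos hn0 h
  have hNK : (Ideal.absNorm K : ℝ) = N := by
    rw [hK, map_pow, Nat.cast_pow]
  -- the function `y s = n ^ (s - 1) ≥ 1`
  set y : ℝ → ℝ := fun s => n ^ (s - 1) with hy
  have hyBL : IsBL fun s => ((y s : ℝ) : ℂ) := by
    have := isBL_rpow_affine hn0 1 (-1)
    refine this.congr fun s _ => ?_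
    rw [hy]
    congr 2
    ring
  have hy1 : ∀ s ∈ Set.Ioc (1 : ℝ) 2, 1 ≤ y s := fun s hs =>
    Real.one_le_rpow hn1 (sub_pos.mpr hs.1).le
  have hyN : ∀ s : ℝ, y s ^ h = N ^ (s - 1) := by
    intro s
    rw [hy, hN]
    simp only
    rw [← Real.rpow_natCast, ← Real.rpow_mul hn0.le, ← Real.rpow_natCast, ← Real.rpow_mul hn0.le,
      mul_comm]
  -- `(1 - N ^ (1 - s)) W ⊤` is in the class
  have h1 : IsBL fun s => W F ⊤ s - ((N : ℂ) * (((N ^ (-s) : ℝ)) : ℂ)) * W F ⊤ s := by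
    have := isBL_W_top_sub F hK0
    refine this.congr fun s hs => ?_
    have hW := W_principal F hK0 hKp hs.1
    rw [hNK] at hW
    have hpw : (0 : ℝ) < N ^ s := Real.rpow_pos_of_pos hN0 s
    have hWK : W F K s = (((N ^ (-s) : ℝ)) : ℂ) * W F ⊤ s := by
      rw [← hW, ← mul_assoc, ← Complex.ofReal_mul, Real.rpow_neg hN0.le,
        inv_mul_cancel₀ hpw.ne', Complex.ofReal_one, one_mul]
    rw [hWK, ← mul_assoc]
    congr 3
    rw [← Complex.ofReal_natCast, hNK]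
  -- `(y ^ h - 1) W ⊤` is in the class
  have h2 : IsBL fun s => (((y s ^ h - 1 : ℝ)) : ℂ) * W F ⊤ s := by
    have hNs : IsBL fun s => (((N ^ (1 * s + -1) : ℝ)) : ℂ) := isBL_rpow_affine hN0 1 (-1)
    refine (hNs.mul h1).congr fun s _ => ?_
    have e1 : (1 : ℝ) * s + -1 = s - 1 := by ring
    have e2 : N ^ (s - 1) * (N * N ^ (-s)) = 1 := by
      calc N ^ (s - 1) * (N * N ^ (-s)) = N ^ (s - 1) * (N ^ (1 : ℝ) * N ^ (-s)) := by
            rw [Real.rpow_one]
        _ = N ^ ((s - 1) + (1 + -s)) := by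
            rw [← Real.rpow_add hN0, ← Real.rpow_add hN0]
        _ = 1 := by
            rw [show (s - 1) + (1 + -s) = 0 by ring, Real.rpow_zero]
    rw [e1, hyN s]
    have e3 : (((N ^ (s - 1) : ℝ)) : ℂ) * ((N : ℂ) * (((N ^ (-s) : ℝ)) : ℂ)) = 1 := by
      rw [← Complex.ofReal_mul, ← Complex.ofReal_mul, e2, Complex.ofReal_one]
    calc (((N ^ (s - 1) : ℝ)) : ℂ) * (W F ⊤ s - ((N : ℂ) * (((N ^ (-s) : ℝ)) : ℂ)) * W F ⊤ s)
        = (((N ^ (s - 1) : ℝ)) : ℂ) * W F ⊤ s -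
            ((((N ^ (s - 1) : ℝ)) : ℂ) * ((N : ℂ) * (((N ^ (-s) : ℝ)) : ℂ))) * W F ⊤ s := by ring
      _ = (((N ^ (s - 1) - 1 : ℝ)) : ℂ) * W F ⊤ s := by
          rw [e3]; push_cast; ring
  -- the geometric sum
  set G : ℝ → ℝ := fun s => ∑ j ∈ Finset.range h, y s ^ j with hG
  have hGBL : IsBL fun s => ((G s : ℝ) : ℂ) := by
    have : IsBL fun s => ∑ j ∈ Finset.range h, ((y s : ℝ) : ℂ) ^ j :=
      IsBL.sum _ fun j _ => hyBL.pow j
    refine this.congr fun s _ => ?_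
    rw [hG]
    push_cast
    rfl
  have hG1 : ∀ s ∈ Set.Ioc (1 : ℝ) 2, 1 ≤ G s := by
    intro s hs
    rw [hG]
    simp only
    have h0 : (1 : ℝ) = ∑ j ∈ Finset.range 1, y s ^ j := by simp
    rw [h0]
    refine Finset.sum_le_sum_of_subset_of_nonneg ?_ fun j _ _ => ?_
    · intro j hj
      rw [Finset.mem_range] at hj ⊢
      omega
    · exact pow_nonneg (le_trans zero_le_one (hy1 s hs)) j
  have hGinv := hGBL.inv_of_one_le hG1
  refine (hGinv.mul h2).congr fun s hs => ?_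
  have hGpos : 0 < G s := lt_of_lt_of_le one_pos (hG1 s hs)
  have hgeom : G s * (y s - 1) = y s ^ h - 1 := by
    rw [hG]; exact geom_sum_mul (y s) h
  rw [← mul_assoc, ← Complex.ofReal_mul, ← hgeom, ← mul_assoc, inv_mul_cancel₀ hGpos.ne', one_mul]

end Fermat.Agent.S48.A.TwistL.Zeta
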