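/-
PROJECT D (S48), part A, brick A6c (helper24): THE ANALYTIC CORE OF CHEBOTAREV, file 12.

THE ASSEMBLY, for a character `ψ` with `ψ(|N α|) = ψ(N α)` (`Compat F ψ 1`: an even character,
or a totally complex field): `L_F(s, ψ ∘ N)` is bounded and Lipschitz on `(1, 2]` as soon as
`ψ ∘ N` takes a value other than `0, 1` on the ideals (`isBL_lfun_of_compat`).

Mathlib + `Zeta.lean` + `Residue` (helper27) + `Cheb/ClassRep` (helper7).
-/
import Mathlib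
import Fermat.Agent.S48.A.TwistL.Zeta
import Fermat.Agent.S48.A.TwistL.Residue
import Fermat.Agent.S48.A.Cheb.ClassRep

set_option autoImplicit false
set_option linter.unusedSectionVars false

noncomputable section

namespace Fermat.Agent.S48.A.TwistL.Main

open NumberField NumberField.Units NumberField.mixedEmbedding Ideal nonZeroDivisors
  Fermat.Agent.S48.A.TwistL.Seams Fermat.Agent.S48.A.TwistL.Weight
  Fermat.Agent.S48.A.TwistL.Lip Fermat.Agent.S48.A.TwistL.Family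
  Fermat.Agent.S48.A.TwistL.Cosets Fermat.Agent.S48.A.TwistL.BL
  Fermat.Agent.S48.A.TwistL.Parts Fermat.Agent.S48.A.TwistL.Alg
  Fermat.Agent.S48.A.TwistL.Zeta

open scoped Classical

variable (F : Type) [Field F] [NumberField F]

/-- the full residue sum `∑_{x mod m} ψ(N x)` -/
def resSum {m : ℕ} (ψ : DirichletCharacter ℂ m) : ℂ :=
  ∑ᶠ q : 𝓞 F ⧸ Ideal.span {(m : 𝓞 F)}, psiN F ψ (Quotient.out q)

/-- the weight `1_J ψ(N ·)` -/
def cJ {m : ℕ} (ψ : DirichletCharacter ℂ m) (J : Ideal (𝓞 F)) (α : 𝓞 F) : ℂ :=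
  if α ∈ J then psiN F ψ α else 0

theorem cJ_periodic {m : ℕ} (ψ : DirichletCharacter ℂ m) (J : Ideal (𝓞 F)) (α β : 𝓞 F)
    (hβ : β ∈ Ideal.span {(m : 𝓞 F)} * J) : cJ F ψ J (α + β) = cJ F ψ J α := by
  have hβJ : β ∈ J :=
    (Ideal.mul_le_right : Ideal.span {(m : 𝓞 F)} * J ≤ J) hβ
  have hβm : β ∈ Ideal.span {(m : 𝓞 F)} :=
    (Ideal.mul_le_left : Ideal.span {(m : 𝓞 F)} * J ≤ Ideal.span {(m : 𝓞 F)}) hβ
  unfold cJ
  have h1 : α + β ∈ J ↔ α ∈ J := J.add_mem_iff_left hβJ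
  have h2 : psiN F ψ (α + β) = psiN F ψ α :=
    Residue.psiN_eq_of_sub_mem ψ (by rw [add_sub_cancel_left]; exact hβm)
  by_cases hα : α ∈ J
  · rw [if_pos hα, if_pos (h1.mpr hα), h2]
  · rw [if_neg hα, if_neg (fun h => hα (h1.mp h))]

theorem span_natCast_ne_bot {m : ℕ} [NeZero m] : Ideal.span {(m : 𝓞 F)} ≠ ⊥ := by
  rw [ne_eq, Ideal.span_singleton_eq_bot]
  exact_mod_cast NeZero.ne m

/-- **the twist**: the sum twisted by `ψ(N ·)` over `J` against the zeta sum over `mJ` -/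
theorem isBL_twist {m : ℕ} [NeZero m] (ψ : DirichletCharacter ℂ m) {ε : mixedSpace F → ℝ}
    (hε : SignLike F ε) {J : Ideal (𝓞 F)} (hJ : J ≠ ⊥)
    (hJm : IsCoprime J (Ideal.span {(m : 𝓞 F)})) :
    IsBL fun s => wsum F ε (cJ F ψ J) s - resSum F ψ *
      wsum F ε (fun α => if α ∈ Ideal.span {(m : 𝓞 F)} * J then 1 else 0) s := by
  have hb : Ideal.span {(m : 𝓞 F)} * J ≠ ⊥ := mul_ne_zero (span_natCast_ne_bot F) hJ
  have h := isBL_coset F hε hb (cJ F ψ J) (cJ_periodic F ψ J)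
  have hT : (∑ᶠ q : 𝓞 F ⧸ (Ideal.span {(m : 𝓞 F)} * J), cJ F ψ J (Quotient.out q)) =
      resSum F ψ := Residue.finsum_coprime ψ J hJm
  rw [hT] at h
  exact h

/-- **a partial `L`-function is a multiple of the zeta sum, up to the class `IsBL`** -/
theorem isBL_lpart_sub {m : ℕ} [NeZero m] {ψ : DirichletCharacter ℂ m}
    (hc : Compat F ψ (fun _ => 1)) {J : Ideal (𝓞 F)} (hJ : J ≠ ⊥)
    (hJm : IsCoprime J (Ideal.span {(m : 𝓞 F)})) :
    IsBL fun s => lpart F ψ J s -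
      (ψ ((Ideal.absNorm J : ℕ) : ZMod m))⁻¹ *
        (resSum F ψ / ((torsionOrder F : ℂ) * (Ideal.absNorm (Ideal.span {(m : 𝓞 F)}) : ℂ))) *
        W F ⊤ s := by
  set a : ℂ := (ψ ((Ideal.absNorm J : ℕ) : ZMod m))⁻¹ with ha
  set w : ℂ := (torsionOrder F : ℂ) with hw
  have hw0 : w ≠ 0 := Nat.cast_ne_zero.mpr (torsionOrder_ne_zero F)
  set n : ℝ := ((Ideal.absNorm J : ℕ) : ℝ) with hn
  have hn0 : 0 < n := absNorm_pos' F hJ
  set Nm : ℝ := ((Ideal.absNorm (Ideal.span {(m : 𝓞 F)}) : ℕ) : ℝ) with hNm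
  have hNm0 : 0 < Nm := absNorm_pos' F (span_natCast_ne_bot F)
  set T : ℂ := resSum F ψ with hT
  have hb : Ideal.span {(m : 𝓞 F)} * J ≠ ⊥ := mul_ne_zero (span_natCast_ne_bot F) hJ
  have hNb : ((Ideal.absNorm (Ideal.span {(m : 𝓞 F)} * J) : ℕ) : ℂ) = (Nm : ℂ) * (n : ℂ) := by
    rw [map_mul, Nat.cast_mul, hNm, hn]
    push_cast
    rfl
  -- the three members of the class
  have f1 := isBL_twist F ψ hc.sign hJ hJm
  have f2 := isBL_W_top_sub F hb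
  have f3 := isBL_pole F hJ
  have hns : IsBL fun s => (((n ^ (1 * s + 0) : ℝ)) : ℂ) := isBL_rpow_affine hn0 1 0
  have hcomb := (((hns.mul f1).const_mul (a / w)).sub
    ((hns.mul f2).const_mul (a / w * (T / ((Nm : ℂ) * (n : ℂ)))))).add
    (f3.const_mul (a / w * (T / (Nm : ℂ))))
  refine hcomb.congr fun s hs => ?_
  have hA := unfold_lpart F hc hJ (isUnit_absNorm F hJ hJm) hs.1
  have hlp : lpart F ψ J s = a / w * ((((n ^ s : ℝ)) : ℂ) * wsum F (fun _ => 1) (cJ F ψ J) s) := by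
    have : lpart F ψ J s = (w * lpart F ψ J s) / w := by field_simp
    rw [this, hw, hA]
    unfold cJ
    ring
  have hpow : (((n ^ (1 * s + 0) : ℝ)) : ℂ) = (((n ^ s : ℝ)) : ℂ) := by
    congr 2; ring
  have hns' : (((n ^ s : ℝ)) : ℂ) = (n : ℂ) * (((n ^ (s - 1) : ℝ)) : ℂ) := by
    rw [← Complex.ofReal_mul, ← Real.rpow_one_add' hn0.le (by linarith [hs.1] : (1 : ℝ) + (s - 1) ≠ 0)]
    congr 2; ring
  have hnC : (n : ℂ) ≠ 0 := Complex.ofReal_ne_zero.mpr hn0.ne'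
  have hNmC : (Nm : ℂ) ≠ 0 := Complex.ofReal_ne_zero.mpr hNm0.ne'
  have hNmC' : ((Ideal.absNorm (Ideal.span {(m : 𝓞 F)}) : ℕ) : ℂ) = (Nm : ℂ) := by
    rw [hNm]; push_cast; rfl
  rw [hlp, hNb, hpow, hNmC']
  show a / w * ((((n ^ s : ℝ)) : ℂ) * (wsum F (fun _ => 1) (cJ F ψ J) s - T *
      wsum F (fun _ => 1) (fun α => if α ∈ Ideal.span {(m : 𝓞 F)} * J then 1 else 0) s)) -
    a / w * (T / ((Nm : ℂ) * (n : ℂ))) * ((((n ^ s : ℝ)) : ℂ) * (W F ⊤ s - (Nm : ℂ) * (n : ℂ) *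
      W F (Ideal.span {(m : 𝓞 F)} * J) s)) +
    a / w * (T / (Nm : ℂ)) * ((((n ^ (s - 1) - 1 : ℝ)) : ℂ) * W F ⊤ s) = _
  unfold W
  rw [hns']
  push_cast
  field_simp
  ring

/-- the term at the zero ideal vanishes -/
theorem lterm_bot {m : ℕ} (ψ : DirichletCharacter ℂ m) {s : ℝ} (hs : 0 < s) :
    lterm F ψ s ⊥ = 0 := by
  unfold lterm
  have h0 : (((Ideal.absNorm (⊥ : Ideal (𝓞 F)) : ℕ) : ℝ) ^ (-s) : ℝ) = 0 := by
    rw [Ideal.absNorm_bot, Nat.cast_zero, Real.zero_rpow (by linarith)]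
  rw [h0, Complex.ofReal_zero, mul_zero]

/-- a system of representatives of the inverse classes, prime to `m` -/
structure RepSystem (m : ℕ) (J : ClassGroup (𝓞 F) → Ideal (𝓞 F)) : Prop where
  ne_bot : ∀ C, J C ≠ ⊥
  cls : ∀ C, ClassGroup.mk0 ⟨J C, mem_nonZeroDivisors_iff_ne_zero.mpr (ne_bot C)⟩ = C⁻¹
  coprime : ∀ C, IsCoprime (J C) (Ideal.span {(m : 𝓞 F)})

theorem exists_repSystem (m : ℕ) [NeZero m] :
    ∃ J : ClassGroup (𝓞 F) → Ideal (𝓞 F), RepSystem F m J := by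
  have h := fun C : ClassGroup (𝓞 F) =>
    Fermat.Agent.S48.A.Cheb.ClassRep.exists_mk0_eq_isCoprime_span_natCast F C⁻¹ m (NeZero.ne m)
  choose J hJ1 hJ2 using h
  refine ⟨fun C => (J C : Ideal (𝓞 F)), fun C => nonZeroDivisors.coe_ne_zero (J C), fun C => ?_,
    hJ2⟩
  exact hJ1 C

/-- **the series is the sum of its parts over the ideal classes** -/
theorem lfun_eq_sum {m : ℕ} (ψ : DirichletCharacter ℂ m) {J : ClassGroup (𝓞 F) → Ideal (𝓞 F)}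
    (hJ : RepSystem F m J) {s : ℝ} (hs : 1 < s) :
    lfun F ψ s = ∑ C : ClassGroup (𝓞 F), lpart F ψ (J C) s := by
  unfold lfun lpart
  have hsum : ∀ C ∈ (Finset.univ : Finset (ClassGroup (𝓞 F))), Summable fun I : Ideal (𝓞 F) =>
      if I ≠ ⊥ ∧ (I * J C).IsPrincipal then lterm F ψ s I else 0 := by
    intro C _
    refine Summable.of_norm_bounded (summable_norm_lterm F ψ hs) fun I => ?_
    split_ifs
    · exact le_rfl
    · rw [norm_zero]; exact norm_nonneg _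
  rw [← Summable.tsum_finsetSum hsum]
  refine tsum_congr fun I => ?_
  by_cases hI : I = ⊥
  · rw [hI, lterm_bot F ψ (by linarith)]
    exact (Finset.sum_eq_zero fun C _ => if_neg fun h => h.1 rfl).symm
  · set C₀ : ClassGroup (𝓞 F) := ClassGroup.mk0 ⟨I, mem_nonZeroDivisors_iff_ne_zero.mpr hI⟩
      with hC₀
    have hiff : ∀ C, (I * J C).IsPrincipal ↔ C₀ = C := by
      intro C
      rw [isPrincipal_mul_iff F hI (hJ.ne_bot C), hJ.cls C, inv_inv]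
    rw [Finset.sum_eq_single C₀]
    · rw [if_pos ⟨hI, (hiff C₀).mpr rfl⟩]
    · intro C _ hC
      exact if_neg fun h => hC ((hiff C).mp h.2).symm
    · intro h
      exact absurd (Finset.mem_univ _) h

/-- ideals prime to `m` in the same class have the same `ψ ∘ N`, when `ψ ∘ N` is trivial on
the integers prime to `m` -/
theorem psi_absNorm_eq_of_class_eq {m : ℕ} [NeZero m] {ψ : DirichletCharacter ℂ m}
    (hc : Compat F ψ (fun _ => 1))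
    (hone : ∀ β : 𝓞 F, IsCoprime (Ideal.span {β}) (Ideal.span {(m : 𝓞 F)}) → psiN F ψ β = 1)
    {I I' : Ideal (𝓞 F)} (hI : I ≠ ⊥) (hI' : I' ≠ ⊥)
    (hIm : IsCoprime I (Ideal.span {(m : 𝓞 F)})) (hIm' : IsCoprime I' (Ideal.span {(m : 𝓞 F)}))
    (hcl : ClassGroup.mk0 ⟨I, mem_nonZeroDivisors_iff_ne_zero.mpr hI⟩ =
      ClassGroup.mk0 ⟨I', mem_nonZeroDivisors_iff_ne_zero.mpr hI'⟩) :
    ψ ((Ideal.absNorm I : ℕ) : ZMod m) = ψ ((Ideal.absNorm I' : ℕ) : ZMod m) := by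
  obtain ⟨K, hK1, hK2⟩ :=
    Fermat.Agent.S48.A.Cheb.ClassRep.exists_mk0_eq_isCoprime_span_natCast F
      (ClassGroup.mk0 ⟨I, mem_nonZeroDivisors_iff_ne_zero.mpr hI⟩)⁻¹ m (NeZero.ne m)
  have hK0 : (K : Ideal (𝓞 F)) ≠ ⊥ := nonZeroDivisors.coe_ne_zero K
  have hψK : ψ ((Ideal.absNorm (K : Ideal (𝓞 F)) : ℕ) : ZMod m) ≠ 0 :=
    (IsUnit.map ψ (isUnit_absNorm F hK0 hK2)).ne_zero
  -- the key: for `I₁` prime to `m` with `I₁ * K` principal, `ψ(N I₁) ψ(N K) = 1`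
  have key : ∀ I₁ : Ideal (𝓞 F), I₁ ≠ ⊥ → IsCoprime I₁ (Ideal.span {(m : 𝓞 F)}) →
      (I₁ * K).IsPrincipal →
      ψ ((Ideal.absNorm I₁ : ℕ) : ZMod m) * ψ ((Ideal.absNorm (K : Ideal (𝓞 F)) : ℕ) : ZMod m) =
        1 := by
    intro I₁ hI₁ hI₁m hp
    obtain ⟨α, hα⟩ := hp.principal
    have hα' : I₁ * (K : Ideal (𝓞 F)) = Ideal.span {α} := hα
    have hα0 : α ≠ 0 := by
      rintro rfl
      rw [Set.singleton_zero, Ideal.span_zero] at hα'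
      exact mul_ne_zero hI₁ hK0 hα'
    have hcop : IsCoprime (Ideal.span {α}) (Ideal.span {(m : 𝓞 F)}) := by
      rw [← hα']
      exact IsCoprime.mul_left hI₁m hK2
    have h1 := hc.compat α hα0
    rw [hone α hcop, Complex.ofReal_one, one_mul, ← hα', map_mul, Nat.cast_mul, map_mul] at h1
    exact h1
  have hp : (I * (K : Ideal (𝓞 F))).IsPrincipal := by
    rw [isPrincipal_mul_iff F hI hK0]
    rw [show (⟨(K : Ideal (𝓞 F)), mem_nonZeroDivisors_iff_ne_zero.mpr hK0⟩ : (Ideal (𝓞 F))⁰) = K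
      from Subtype.ext rfl, hK1, inv_inv]
  have hp' : (I' * (K : Ideal (𝓞 F))).IsPrincipal := by
    rw [isPrincipal_mul_iff F hI' hK0]
    rw [show (⟨(K : Ideal (𝓞 F)), mem_nonZeroDivisors_iff_ne_zero.mpr hK0⟩ : (Ideal (𝓞 F))⁰) = K
      from Subtype.ext rfl, hK1, inv_inv, hcl]
  have e1 := key I hI hIm hp
  have e2 := key I' hI' hIm' hp'
  exact mul_right_cancel₀ hψK (e1.trans e2.symm)

/-- **the character sum vanishes** -/
theorem resSum_mul_sum_eq_zero {m : ℕ} [NeZero m] {ψ : DirichletCharacter ℂ m}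
    (hc : Compat F ψ (fun _ => 1))
    (hnt : ∃ I : Ideal (𝓞 F), ψ ((Ideal.absNorm I : ℕ) : ZMod m) ≠ 0 ∧
      ψ ((Ideal.absNorm I : ℕ) : ZMod m) ≠ 1)
    {J : ClassGroup (𝓞 F) → Ideal (𝓞 F)} (hJ : RepSystem F m J) :
    resSum F ψ * ∑ C : ClassGroup (𝓞 F), (ψ ((Ideal.absNorm (J C) : ℕ) : ZMod m))⁻¹ = 0 := by
  by_cases hT : resSum F ψ = 0
  · rw [hT, zero_mul]
  have hone : ∀ β : 𝓞 F, IsCoprime (Ideal.span {β}) (Ideal.span {(m : 𝓞 F)}) → psiN F ψ β = 1 :=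
    fun β hβ => Residue.psiN_eq_one_of_finsum_ne_zero ψ hT β hβ
  obtain ⟨I₀, h0, h1⟩ := hnt
  have hI₀ : I₀ ≠ ⊥ := ne_bot_of_ne F ψ h0 h1
  have hI₀m : IsCoprime I₀ (Ideal.span {(m : 𝓞 F)}) := isCoprime_of_ne_zero F ψ h0
  set ξ : ℂ := ψ ((Ideal.absNorm I₀ : ℕ) : ZMod m) with hξ
  set c₀ : ClassGroup (𝓞 F) := ClassGroup.mk0 ⟨I₀, mem_nonZeroDivisors_iff_ne_zero.mpr hI₀⟩
    with hc₀
  set S : ℂ := ∑ C : ClassGroup (𝓞 F), (ψ ((Ideal.absNorm (J C) : ℕ) : ZMod m))⁻¹ with hS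
  -- the shift by the class of `I₀`
  have hshift : ∀ C : ClassGroup (𝓞 F),
      ψ ((Ideal.absNorm (J (C * c₀⁻¹)) : ℕ) : ZMod m) =
        ψ ((Ideal.absNorm (J C) : ℕ) : ZMod m) * ξ := by
    intro C
    have hprod0 : J C * I₀ ≠ ⊥ := mul_ne_zero (hJ.ne_bot C) hI₀
    have hprodm : IsCoprime (J C * I₀) (Ideal.span {(m : 𝓞 F)}) :=
      IsCoprime.mul_left (hJ.coprime C) hI₀m
    have hcl : ClassGroup.mk0 ⟨J (C * c₀⁻¹),
        mem_nonZeroDivisors_iff_ne_zero.mpr (hJ.ne_bot (C * c₀⁻¹))⟩ =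
        ClassGroup.mk0 ⟨J C * I₀, mem_nonZeroDivisors_iff_ne_zero.mpr hprod0⟩ := by
      rw [hJ.cls (C * c₀⁻¹)]
      have : (⟨J C * I₀, mem_nonZeroDivisors_iff_ne_zero.mpr hprod0⟩ : (Ideal (𝓞 F))⁰) =
          ⟨J C, mem_nonZeroDivisors_iff_ne_zero.mpr (hJ.ne_bot C)⟩ *
            ⟨I₀, mem_nonZeroDivisors_iff_ne_zero.mpr hI₀⟩ := Subtype.ext rfl
      rw [this, map_mul, hJ.cls C, mul_inv_rev, inv_inv, mul_comm]
    have := psi_absNorm_eq_of_class_eq F hc hone (hJ.ne_bot (C * c₀⁻¹)) hprod0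
      (hJ.coprime (C * c₀⁻¹)) hprodm hcl
    rw [this, map_mul, Nat.cast_mul, map_mul]
  have hre : S = ∑ C : ClassGroup (𝓞 F),
      (ψ ((Ideal.absNorm (J (C * c₀⁻¹)) : ℕ) : ZMod m))⁻¹ := by
    rw [hS]
    exact (Equiv.sum_comp (Equiv.mulRight c₀⁻¹)
      (fun C => (ψ ((Ideal.absNorm (J C) : ℕ) : ZMod m))⁻¹)).symm
  have hS' : S = ξ⁻¹ * S := by
    conv_lhs => rw [hre]
    rw [hS, Finset.mul_sum]
    refine Finset.sum_congr rfl fun C _ => ?_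
    rw [hshift C, mul_inv, mul_comm]
  have hξ1 : ξ⁻¹ ≠ 1 := fun h => h1 (inv_eq_one.mp h)
  have : (1 - ξ⁻¹) * S = 0 := by
    rw [sub_mul, one_mul, ← hS', sub_self]
  rcases mul_eq_zero.mp this with h | h
  · exact absurd (sub_eq_zero.mp h).symm hξ1
  · rw [h, mul_zero]

/-- **THE MAIN THEOREM, for a character with `ψ(|N α|) = ψ(N α)`** -/
theorem isBL_lfun_of_compat {m : ℕ} [NeZero m] {ψ : DirichletCharacter ℂ m}
    (hc : Compat F ψ (fun _ => 1))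
    (hnt : ∃ I : Ideal (𝓞 F), ψ ((Ideal.absNorm I : ℕ) : ZMod m) ≠ 0 ∧
      ψ ((Ideal.absNorm I : ℕ) : ZMod m) ≠ 1) : IsBL (lfun F ψ) := by
  obtain ⟨J, hJ⟩ := exists_repSystem F m
  set κ : ℂ := resSum F ψ /
    ((torsionOrder F : ℂ) * (Ideal.absNorm (Ideal.span {(m : 𝓞 F)}) : ℂ)) with hκ
  have h1 : IsBL fun s => ∑ C : ClassGroup (𝓞 F), (lpart F ψ (J C) s -
      (ψ ((Ideal.absNorm (J C) : ℕ) : ZMod m))⁻¹ * κ * W F ⊤ s) :=
    IsBL.sum _ fun C _ => isBL_lpart_sub F hc (hJ.ne_bot C) (hJ.coprime C)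
  refine h1.congr fun s hs => ?_
  rw [lfun_eq_sum F ψ hJ hs.1, Finset.sum_sub_distrib, sub_eq_self]
  have h0 := resSum_mul_sum_eq_zero F hc hnt hJ
  have : ∑ C : ClassGroup (𝓞 F), (ψ ((Ideal.absNorm (J C) : ℕ) : ZMod m))⁻¹ * κ * W F ⊤ s =
      (resSum F ψ * ∑ C : ClassGroup (𝓞 F), (ψ ((Ideal.absNorm (J C) : ℕ) : ZMod m))⁻¹) *
        (W F ⊤ s / ((torsionOrder F : ℂ) * (Ideal.absNorm (Ideal.span {(m : 𝓞 F)}) : ℂ))) := by
    rw [Finset.mul_sum, Finset.sum_mul]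
    refine Finset.sum_congr rfl fun C _ => ?_
    rw [hκ]
    ring
  rw [this, h0, zero_mul]

end Fermat.Agent.S48.A.TwistL.Main
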