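/-
PROJECT D (S48), part A, brick A6c (`TwistL`, owner helper24), file `Sign` (helper10):
THE SIGN OF THE NORM ON THE MIXED SPACE.

* `sgn F x` : the product of the signs of the real coordinates of `x`.
* `signLike_sgn` : it is bounded by `1` and locally constant near the support of the weight `ω`.
* `sgn_mixedEmbedding` : on a nonzero integer `a` it is the sign of `N(a) ∈ ℤ`.
* `exists_norm_neg` : if `F` has a real place there is an integer of negative norm.

Mathlib + `Lip.lean`.
-/
import Mathlib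
import Fermat.Agent.S48.A.TwistL.Lip

set_option autoImplicit false

noncomputable section

namespace Fermat.Agent.S48.A.TwistL.Sign

open NumberField NumberField.InfinitePlace NumberField.mixedEmbedding Module Finset
  Fermat.Agent.S48.A.TwistL.Weight Fermat.Agent.S48.A.TwistL.Balanced
  Fermat.Agent.S48.A.TwistL.Lip

open scoped Classical

variable (F : Type*) [Field F] [NumberField F]

/-- the sign of a real number, as a real number -/
def sg (r : ℝ) : ℝ := ((SignType.sign r : SignType) : ℝ)

theorem sg_of_pos {r : ℝ} (h : 0 < r) : sg r = 1 := by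
  rw [sg, sign_pos h]; rfl

theorem sg_of_neg {r : ℝ} (h : r < 0) : sg r = -1 := by
  rw [sg, sign_neg h]; rfl

theorem sg_zero : sg 0 = 0 := by
  rw [sg, sign_zero]; rfl

theorem abs_sg_le (r : ℝ) : |sg r| ≤ 1 := by
  rcases lt_trichotomy r 0 with h | h | h
  · rw [sg_of_neg h]; simp
  · rw [h, sg_zero]; simp
  · rw [sg_of_pos h]; simp

theorem sg_mul (a b : ℝ) : sg (a * b) = sg a * sg b := by
  unfold sg
  rw [sign_mul, SignType.coe_mul]

theorem sg_prod {ι : Type*} (s : Finset ι) (f : ι → ℝ) : sg (∏ i ∈ s, f i) = ∏ i ∈ s, sg (f i) := by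
  classical
  induction s using Finset.induction_on with
  | empty => simp [sg_of_pos]
  | insert i s hi ih => rw [Finset.prod_insert hi, Finset.prod_insert hi, sg_mul, ih]

/-- a perturbation smaller than `|a|` does not change the sign -/
theorem sg_eq_of_abs_sub_lt {a b : ℝ} (h : |b - a| < |a|) : sg b = sg a := by
  rcases lt_trichotomy a 0 with ha | ha | ha
  · have hb : b < 0 := by
      rw [abs_of_neg ha] at h
      have := (abs_lt.mp h).2
      linarith
    rw [sg_of_neg ha, sg_of_neg hb]
  · rw [ha, abs_zero] at h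
    exact absurd h (not_lt.mpr (abs_nonneg _))
  · have hb : 0 < b := by
      rw [abs_of_pos ha] at h
      have := (abs_lt.mp h).1
      linarith
    rw [sg_of_pos ha, sg_of_pos hb]

/-- **the product of the signs of the real coordinates** -/
def sgn (x : mixedSpace F) : ℝ :=
  ∏ w : {w : InfinitePlace F // w.IsReal}, ((SignType.sign (x.1 w) : SignType) : ℝ)

theorem sgn_eq (x : mixedSpace F) :
    sgn F x = ∏ w : {w : InfinitePlace F // w.IsReal}, sg (x.1 w) := rfl

/-- **`sgn` is a sign in the sense of `Lip.lean`** -/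
theorem signLike_sgn : SignLike F (sgn F) where
  abs_le x := by
    rw [sgn_eq, Finset.abs_prod]
    exact Finset.prod_le_one (fun _ _ => abs_nonneg _) (fun w _ => abs_sg_le _)
  loc x y hx hxy := by
    rw [sgn_eq, sgn_eq]
    refine Finset.prod_congr rfl fun w _ => ?_
    apply sg_eq_of_abs_sub_lt
    have hx0 := ne_zero_of_omega_ne_zero F hx
    have hxpos : 0 < ‖x‖ := norm_pos_iff.mpr hx0
    have hc := balConst_pos F
    have h1 : balConst F * ‖x‖ ≤ |x.1 w| := by
      have := balanced_of_omega_ne_zero F hx w.1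
      rwa [normAtPlace_apply_of_isReal w.2, Real.norm_eq_abs] at this
    have h2 : |y.1 w - x.1 w| ≤ ‖y - x‖ := by
      have h3 : ‖(y - x).1 w‖ ≤ ‖(y - x).1‖ := norm_le_pi_norm _ w
      have h4 : ‖(y - x).1‖ ≤ ‖y - x‖ := norm_fst_le _
      have h5 : (y - x).1 w = y.1 w - x.1 w := rfl
      rw [h5, Real.norm_eq_abs] at h3
      exact h3.trans h4
    have h6 : balConst F / 2 * ‖x‖ < balConst F * ‖x‖ := by nlinarith
    linarith

/-! ### the norm as a product over the infinite places, with signs -/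

omit [NumberField F] in
theorem mk_eq_iff_embedding (w : InfinitePlace F) (φ : F →+* ℂ) :
    InfinitePlace.mk φ = w ↔ φ = embedding w ∨ φ = ComplexEmbedding.conjugate (embedding w) := by
  conv_lhs => rw [← mk_embedding w, mk_eq_iff]
  constructor
  · rintro (h | h)
    · exact Or.inl h
    · right
      rw [← h, ComplexEmbedding.conjugate, star_star]
  · rintro (h | h)
    · exact Or.inl h
    · right
      rw [h, ComplexEmbedding.conjugate, star_star]

/-- the product of the conjugates of `x` over the fibre of a place -/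
theorem prod_fibre (x : F) (w : InfinitePlace F) :
    (∏ φ ∈ Finset.univ.filter (fun φ : F →+* ℂ => InfinitePlace.mk φ = w), φ x : ℂ) =
      if hw : w.IsReal then ((embedding_of_isReal hw x : ℝ) : ℂ) else (((w x) ^ 2 : ℝ) : ℂ) := by
  split_ifs with hw
  · have hconj : ComplexEmbedding.conjugate (embedding w) = embedding w :=
      ComplexEmbedding.isReal_iff.mp (isReal_iff.mp hw)
    have hS : Finset.univ.filter (fun φ : F →+* ℂ => InfinitePlace.mk φ = w) = {embedding w} := by
      ext φ
      rw [Finset.mem_filter, Finset.mem_singleton, mk_eq_iff_embedding, hconj]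
      simp
    rw [hS, Finset.prod_singleton, embedding_of_isReal_apply]
  · have hne : embedding w ≠ ComplexEmbedding.conjugate (embedding w) := by
      intro h
      exact hw (isReal_iff.mpr (ComplexEmbedding.isReal_iff.mpr h.symm))
    have hS : Finset.univ.filter (fun φ : F →+* ℂ => InfinitePlace.mk φ = w) =
        {embedding w, ComplexEmbedding.conjugate (embedding w)} := by
      ext φ
      rw [Finset.mem_filter, Finset.mem_insert, Finset.mem_singleton, mk_eq_iff_embedding]
      simp
    rw [hS, Finset.prod_pair hne, ComplexEmbedding.conjugate_coe_eq, Complex.mul_conj,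
      Complex.normSq_eq_norm_sq, norm_embedding_eq]

/-- **the norm is the product of the real coordinates times the squares of the absolute values at
the complex places** -/
theorem norm_eq_prod_real_mul (x : F) :
    ((Algebra.norm ℚ x : ℚ) : ℝ) =
      (∏ w : {w : InfinitePlace F // w.IsReal}, embedding_of_isReal w.2 x) *
        ∏ w : {w : InfinitePlace F // ¬ w.IsReal}, (w.1 x) ^ 2 := by
  have h := Algebra.norm_eq_prod_embeddings ℚ ℂ x
  rw [eq_ratCast] at h
  have h1 : (∏ σ : F →ₐ[ℚ] ℂ, σ x) = ∏ φ : F →+* ℂ, φ x :=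
    (Fintype.prod_equiv (RingHom.equivRatAlgHom F ℂ) (fun φ : F →+* ℂ => φ x)
      (fun σ : F →ₐ[ℚ] ℂ => σ x) (fun _ => rfl)).symm
  rw [h1, ← Finset.prod_fiberwise Finset.univ InfinitePlace.mk (fun φ : F →+* ℂ => φ x)] at h
  simp_rw [prod_fibre] at h
  rw [← Fintype.prod_subtype_mul_prod_subtype (fun w : InfinitePlace F => w.IsReal)] at h
  apply Complex.ofReal_injective
  rw [Complex.ofReal_ratCast, h, Complex.ofReal_mul, Complex.ofReal_prod, Complex.ofReal_prod]
  congr 1
  · exact Finset.prod_congr rfl fun w _ => dif_pos w.2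
  · exact Finset.prod_congr rfl fun w _ => dif_neg w.2

theorem sg_intCast (n : ℤ) : sg (n : ℝ) = ((SignType.sign n : SignType) : ℝ) := by
  rcases lt_trichotomy n 0 with h | h | h
  · rw [sg_of_neg (Int.cast_lt_zero.mpr h), sign_neg h]; rfl
  · rw [h, Int.cast_zero, sg_zero, sign_zero]; rfl
  · rw [sg_of_pos (Int.cast_pos.mpr h), sign_pos h]; rfl

/-- the sign of the norm of a nonzero element is the product of the signs of its real conjugates -/
theorem sg_norm_eq_prod {x : F} (hx : x ≠ 0) :
    sg ((Algebra.norm ℚ x : ℚ) : ℝ) =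
      ∏ w : {w : InfinitePlace F // w.IsReal}, sg (embedding_of_isReal w.2 x) := by
  have hcx : 0 < ∏ w : {w : InfinitePlace F // ¬ w.IsReal}, (w.1 x) ^ 2 :=
    Finset.prod_pos fun w _ => pow_pos (InfinitePlace.pos_iff.mpr hx) 2
  rw [norm_eq_prod_real_mul, sg_mul, sg_of_pos hcx, mul_one, sg_prod]

/-- **on a nonzero integer `sgn` is the sign of the norm** -/
theorem sgn_mixedEmbedding (a : 𝓞 F) (ha : a ≠ 0) :
    sgn F (mixedEmbedding F a) = ((SignType.sign (Algebra.norm ℤ a) : SignType) : ℝ) := by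
  have hx : (a : F) ≠ 0 := RingOfIntegers.coe_ne_zero_iff.mpr ha
  have h1 : ((Algebra.norm ℤ a : ℤ) : ℝ) = ((Algebra.norm ℚ (a : F) : ℚ) : ℝ) := by
    rw [← Algebra.coe_norm_int]; push_cast; rfl
  rw [← sg_intCast, h1, sg_norm_eq_prod F hx, sgn_eq]
  refine Finset.prod_congr rfl fun w _ => ?_
  rw [mixedEmbedding_apply_isReal]

/-! ### an integer of negative norm -/

/-- a primitive element which is an algebraic integer: an integer `θ` at which two real places
that agree are equal -/
theorem exists_separating_integer :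
    ∃ θ : 𝓞 F, ∀ w w' : {w : InfinitePlace F // w.IsReal},
      embedding_of_isReal w.2 (θ : F) = embedding_of_isReal w'.2 (θ : F) → w = w' := by
  let pb := Field.powerBasisOfFiniteOfSeparable ℚ F
  have halg : IsAlgebraic ℤ pb.gen :=
    (IsFractionRing.isAlgebraic_iff ℤ ℚ F).mpr (Algebra.IsAlgebraic.isAlgebraic pb.gen)
  obtain ⟨y, hy0, hyint⟩ := halg.exists_integral_multiple
  obtain ⟨θ, hθ⟩ : ∃ θ : 𝓞 F, (θ : F) = y • pb.gen := ⟨⟨_, hyint⟩, rfl⟩
  refine ⟨θ, fun w w' hww' => ?_⟩
  rw [hθ, map_zsmul, map_zsmul, zsmul_eq_mul, zsmul_eq_mul] at hww'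
  have hyR : (y : ℝ) ≠ 0 := Int.cast_ne_zero.mpr hy0
  have h1 : embedding_of_isReal w.2 pb.gen = embedding_of_isReal w'.2 pb.gen :=
    mul_left_cancel₀ hyR hww'
  have h2 : (embedding w.1) pb.gen = (embedding w'.1) pb.gen := by
    rw [← embedding_of_isReal_apply w.2, ← embedding_of_isReal_apply w'.2, h1]
  have h3 : RingHom.equivRatAlgHom F ℂ (embedding w.1) = RingHom.equivRatAlgHom F ℂ (embedding w'.1) :=
    pb.algHom_ext h2
  have h4 : embedding w.1 = embedding w'.1 := (RingHom.equivRatAlgHom F ℂ).injective h3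
  apply Subtype.ext
  rw [← mk_embedding w.1, ← mk_embedding w'.1, h4]

/-- **if `F` has a real place, some integer of `F` has negative norm** -/
theorem exists_norm_neg (h : ∃ w : InfinitePlace F, w.IsReal) :
    ∃ b : 𝓞 F, Algebra.norm ℤ b < 0 := by
  obtain ⟨w₁, hw₁⟩ := h
  obtain ⟨θ, hθ⟩ := exists_separating_integer F
  -- the values of `θ` at the real places
  set v : {w : InfinitePlace F // w.IsReal} → ℝ := fun w => embedding_of_isReal w.2 (θ : F) with hv
  obtain ⟨w₀, -, hmin⟩ := Finset.exists_min_image (Finset.univ : Finset {w : InfinitePlace F // w.IsReal})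
    v ⟨⟨w₁, hw₁⟩, Finset.mem_univ _⟩
  have hd : ∀ w, w ≠ w₀ → 0 < v w - v w₀ := by
    intro w hw
    have h1 : v w₀ ≤ v w := hmin w (Finset.mem_univ _)
    have h2 : v w ≠ v w₀ := fun h => hw (hθ w w₀ h)
    exact sub_pos.mpr (lt_of_le_of_ne h1 (Ne.symm h2))
  -- the multiplier
  set m : ℕ := ⌈∑ w ∈ Finset.univ.erase w₀, 1 / (v w - v w₀)⌉₊ + 1 with hm
  have hmd : ∀ w, w ≠ w₀ → 1 < (m : ℝ) * (v w - v w₀) := by
    intro w hw
    have h1 : 1 / (v w - v w₀) ≤ ∑ w ∈ Finset.univ.erase w₀, 1 / (v w - v w₀) :=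
      Finset.single_le_sum (f := fun w => 1 / (v w - v w₀))
        (fun u hu => le_of_lt (one_div_pos.mpr (hd u (Finset.ne_of_mem_erase hu))))
        (Finset.mem_erase.mpr ⟨hw, Finset.mem_univ _⟩)
    have h2 : ∑ w ∈ Finset.univ.erase w₀, 1 / (v w - v w₀) < (m : ℝ) := by
      rw [hm]
      push_cast
      have := Nat.le_ceil (∑ w ∈ Finset.univ.erase w₀, 1 / (v w - v w₀))
      linarith
    have h3 : 1 / (v w - v w₀) < (m : ℝ) := lt_of_le_of_lt h1 h2
    rwa [div_lt_iff₀ (hd w hw)] at h3
  -- the shift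
  set t : ℤ := ⌊(m : ℝ) * v w₀⌋ + 1 with ht
  have ht1 : (m : ℝ) * v w₀ < (t : ℝ) := by
    rw [ht]; push_cast; exact Int.lt_floor_add_one _
  have ht2 : (t : ℝ) ≤ (m : ℝ) * v w₀ + 1 := by
    rw [ht]; push_cast
    have := Int.floor_le ((m : ℝ) * v w₀)
    linarith
  -- the element
  set b : 𝓞 F := (m : 𝓞 F) * θ - (t : 𝓞 F) with hb
  have hbv : ∀ w : {w : InfinitePlace F // w.IsReal},
      embedding_of_isReal w.2 (b : F) = (m : ℝ) * v w - (t : ℝ) := by
    intro w
    have hbF : (b : F) = (m : F) * (θ : F) - (t : F) := by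
      rw [hb, RingOfIntegers.coe_eq_algebraMap, map_sub, map_mul, map_natCast, map_intCast]
    rw [hbF, map_sub, map_mul, map_natCast, map_intCast]
  have hb0 : embedding_of_isReal w₀.2 (b : F) < 0 := by rw [hbv]; linarith
  have hbpos : ∀ w, w ≠ w₀ → 0 < embedding_of_isReal w.2 (b : F) := by
    intro w hw
    rw [hbv]
    have := hmd w hw
    nlinarith
  have hbne : (b : F) ≠ 0 := by
    intro h0
    rw [h0, map_zero] at hb0
    exact lt_irrefl _ hb0
  -- the sign of the norm
  have hsg : sg ((Algebra.norm ℚ (b : F) : ℚ) : ℝ) = -1 := by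
    rw [sg_norm_eq_prod F hbne, ← Finset.mul_prod_erase Finset.univ _ (Finset.mem_univ w₀),
      sg_of_neg hb0, Finset.prod_eq_one, mul_one]
    intro w hw
    exact sg_of_pos (hbpos w (Finset.ne_of_mem_erase hw))
  refine ⟨b, ?_⟩
  by_contra hcon
  rw [not_lt] at hcon
  have h1 : (0 : ℝ) ≤ ((Algebra.norm ℚ (b : F) : ℚ) : ℝ) := by
    rw [← Algebra.coe_norm_int]
    push_cast
    exact_mod_cast hcon
  rcases h1.lt_or_eq with h2 | h2
  · rw [sg_of_pos h2] at hsg; norm_num at hsg
  · rw [← h2, sg_zero] at hsg; norm_num at hsg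

end Fermat.Agent.S48.A.TwistL.Sign

end
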