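/-
PROJECT D (S48), part A, brick A6c (helper24): THE ANALYTIC CORE OF CHEBOTAREV, file 13.

THE ODD CASE: `ψ(-1) = -1` and `F` has a real place.  Then `ψ(|N α|) = sgn(N α) ψ(N α)` and the
sums are twisted by the sign of the norm.

* `sgN`, `sig`: the sign of the norm of an integer, of a generator of a principal ideal;
* `unfold_sign`: the sign-twisted sum over an ideal `𝔟` is `w` times a sum over the principal
  ideals contained in `𝔟` (when every unit has norm `1`);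
* `ssum_mul`: multiplication by an integer of negative norm changes the sign of that sum;
* `isBL_signsum`: hence the sign-twisted sum over `𝔟` is bounded and Lipschitz on `(1, 2]`;
* `isBL_lfun_of_odd`: the twisted Dedekind series of an odd character over a field with a real
  place is bounded and Lipschitz on `(1, 2]`.

Mathlib + `Main.lean` + `Sign` (helper10).
-/
import Mathlib
import Fermat.Agent.S48.A.TwistL.Main
import Fermat.Agent.S48.A.TwistL.Sign

set_option autoImplicit false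
set_option linter.unusedSectionVars false

noncomputable section

namespace Fermat.Agent.S48.A.TwistL.Odd

open NumberField NumberField.Units NumberField.mixedEmbedding Ideal nonZeroDivisors
  Fermat.Agent.S48.A.TwistL.Seams Fermat.Agent.S48.A.TwistL.Weight
  Fermat.Agent.S48.A.TwistL.Lip Fermat.Agent.S48.A.TwistL.Family
  Fermat.Agent.S48.A.TwistL.Cosets Fermat.Agent.S48.A.TwistL.BL
  Fermat.Agent.S48.A.TwistL.Parts Fermat.Agent.S48.A.TwistL.Alg
  Fermat.Agent.S48.A.TwistL.Zeta Fermat.Agent.S48.A.TwistL.Main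
  Fermat.Agent.S48.A.TwistL.Sign

open scoped Classical

variable (F : Type) [Field F] [NumberField F]

/-! ### the sign of the norm -/

/-- the sign of the norm of an integer of `F` -/
def sgN (α : 𝓞 F) : ℝ := sg ((Algebra.norm ℤ α : ℤ) : ℝ)

theorem sgN_mul (α β : 𝓞 F) : sgN F (α * β) = sgN F α * sgN F β := by
  unfold sgN
  rw [map_mul, Int.cast_mul, sg_mul]

theorem sgN_of_neg {β : 𝓞 F} (hβ : Algebra.norm ℤ β < 0) : sgN F β = -1 :=
  sg_of_neg (Int.cast_lt_zero.mpr hβ)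

theorem abs_sgN_le (α : 𝓞 F) : |sgN F α| ≤ 1 := abs_sg_le _

theorem sgn_emb {α : 𝓞 F} (hα : α ≠ 0) : sgn F (emb F α) = sgN F α := by
  unfold emb sgN
  rw [sgn_mixedEmbedding F α hα, sg_intCast]

/-- the sign of the norm of a generator of a principal ideal (`0` on the other ideals) -/
def sig (I : Ideal (𝓞 F)) : ℝ :=
  if h : ∃ α : 𝓞 F, I = Ideal.span {α} then sgN F h.choose else 0

theorem sig_span (hU : ∀ u : (𝓞 F)ˣ, Algebra.norm ℤ (u : 𝓞 F) = 1) (α : 𝓞 F) :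
    sig F (Ideal.span {α}) = sgN F α := by
  have h : ∃ α' : 𝓞 F, Ideal.span {α} = Ideal.span {α'} := ⟨α, rfl⟩
  unfold sig
  rw [dif_pos h]
  have h1 := h.choose_spec
  rw [Ideal.span_singleton_eq_span_singleton] at h1
  obtain ⟨u, hu⟩ := h1
  rw [← hu, sgN_mul]
  have : sgN F (u : 𝓞 F) = 1 := by
    unfold sgN
    rw [hU u, Int.cast_one]
    exact sg_of_pos one_pos
  rw [this, mul_one]

theorem abs_sig_le (I : Ideal (𝓞 F)) : |sig F I| ≤ 1 := by
  unfold sig
  split_ifs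
  · exact abs_sgN_le F _
  · rw [abs_zero]; exact zero_le_one

/-! ### the sum over the principal ideals contained in an ideal -/

/-- the term of the sign-twisted sum over the principal ideals contained in `𝔟` -/
def sterm (𝔟 : Ideal (𝓞 F)) (s : ℝ) (I : Ideal (𝓞 F)) : ℂ :=
  if I ≤ 𝔟 then ((sig F I * (Ideal.absNorm I : ℝ) ^ (-s) : ℝ) : ℂ) else 0

theorem norm_sterm_le (𝔟 : Ideal (𝓞 F)) (s : ℝ) (I : Ideal (𝓞 F)) :
    ‖sterm F 𝔟 s I‖ ≤ Fermat.Agent.S30.Density.ZetaEuler.zterm F s I := by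
  have h0 : (0 : ℝ) ≤ (Ideal.absNorm I : ℝ) ^ (-s) := Real.rpow_nonneg (Nat.cast_nonneg _) _
  unfold sterm Fermat.Agent.S30.Density.ZetaEuler.zterm
  split_ifs
  · rw [Complex.norm_real, Real.norm_eq_abs, abs_mul, abs_of_nonneg h0]
    exact mul_le_of_le_one_left h0 (abs_sig_le F I)
  · rw [norm_zero]; exact h0

theorem summable_norm_sterm (𝔟 : Ideal (𝓞 F)) {s : ℝ} (hs : 1 < s) :
    Summable fun I : Ideal (𝓞 F) => ‖sterm F 𝔟 s I‖ :=
  Summable.of_nonneg_of_le (fun _ => norm_nonneg _) (norm_sterm_le F 𝔟 s)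
    (Fermat.Agent.S30.Density.ZetaEuler.summable_zterm F hs)

/-- the sign-twisted sum over the principal ideals contained in `𝔟` -/
def ssum (𝔟 : Ideal (𝓞 F)) (s : ℝ) : ℂ :=
  ∑' I : Ideal (𝓞 F), if I ≠ ⊥ ∧ (I * ⊤).IsPrincipal then sterm F 𝔟 s I else 0

/-- **the unfolding of the sign-twisted sum** -/
theorem unfold_sign (hU : ∀ u : (𝓞 F)ˣ, Algebra.norm ℤ (u : 𝓞 F) = 1) (𝔟 : Ideal (𝓞 F)) {s : ℝ}
    (hs : 1 < s) :
    wsum F (sgn F) (fun α => if α ∈ 𝔟 then 1 else 0) s = (torsionOrder F : ℂ) * ssum F 𝔟 s := by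
  set g : 𝓞 F → ℂ := fun α =>
    if α ∈ 𝔟 then ((sgN F α * (Ideal.absNorm (Ideal.span {α}) : ℝ) ^ (-s) : ℝ) : ℂ) else 0 with hg
  have hfg : ∀ (α : 𝓞 F) (I : Ideal (𝓞 F)), α ≠ 0 → I * ⊤ = Ideal.span {α} →
      g α = sterm F 𝔟 s I := by
    intro α I _ hI
    rw [Ideal.mul_top] at hI
    rw [hI, hg]
    unfold sterm
    simp only
    rw [sig_span F hU α]
    by_cases hα : α ∈ 𝔟
    · rw [if_pos hα, if_pos ((Ideal.span_singleton_le_iff_mem _).mpr hα)]
    · rw [if_neg hα, if_neg (fun h => hα ((Ideal.span_singleton_le_iff_mem _).mp h))]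
  have hU' := Unfold.unfold F (fun α : 𝓞 F => omega F (mixedEmbedding F (α : F)))
    (unitWeight_omega F) ⊤ top_ne_bot (sterm F 𝔟 s) (summable_norm_sterm F 𝔟 hs) g hfg
  have hterm : ∀ α : 𝓞 F,
      (if α ∈ (⊤ : Ideal (𝓞 F)) ∧ α ≠ 0 then
        ((omega F (mixedEmbedding F (α : F)) : ℝ) : ℂ) * g α else 0) =
        (if α ∈ 𝔟 then 1 else 0) * ((gfun F (sgn F) s (emb F α) : ℝ) : ℂ) := by
    intro α
    by_cases hα0 : α = 0
    · rw [if_neg (fun h => h.2 hα0), hα0, gfun_emb_zero, Complex.ofReal_zero, mul_zero]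
    · rw [if_pos ⟨Submodule.mem_top, hα0⟩, gfun_emb F (sgn F) s hα0, sgn_emb F hα0, hg]
      simp only
      by_cases hα : α ∈ 𝔟
      · rw [if_pos hα, if_pos hα]
        show ((omega F (emb F α) : ℝ) : ℂ) * _ = _
        push_cast
        ring
      · rw [if_neg hα, if_neg hα, mul_zero, zero_mul]
  have h1 := hU'.tsum_eq
  rw [tsum_congr hterm] at h1
  unfold wsum ssum
  exact h1

theorem span_singleton_ne_bot {β : 𝓞 F} (hβ : β ≠ 0) : Ideal.span {β} ≠ (⊥ : Ideal (𝓞 F)) := by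
  rw [ne_eq, Ideal.span_singleton_eq_bot]
  exact hβ

theorem ne_zero_of_norm_neg {β : 𝓞 F} (hβ : Algebra.norm ℤ β < 0) : β ≠ 0 := by
  rintro rfl
  rw [Algebra.norm_zero] at hβ
  exact lt_irrefl _ hβ

/-- **multiplication by an integer of negative norm changes the sign of the sum** -/
theorem ssum_mul (hU : ∀ u : (𝓞 F)ˣ, Algebra.norm ℤ (u : 𝓞 F) = 1) {β : 𝓞 F}
    (hβ : Algebra.norm ℤ β < 0) (𝔟 : Ideal (𝓞 F)) (s : ℝ) :
    ssum F (Ideal.span {β} * 𝔟) s =
      -((((Ideal.absNorm (Ideal.span {β}) : ℝ) ^ (-s) : ℝ)) : ℂ) * ssum F 𝔟 s := by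
  have hβ0 : β ≠ 0 := ne_zero_of_norm_neg F hβ
  have hsp : Ideal.span {β} ≠ (⊥ : Ideal (𝓞 F)) := span_singleton_ne_bot F hβ0
  set μ : Ideal (𝓞 F) → Ideal (𝓞 F) := fun I => Ideal.span {β} * I with hμ
  have hμinj : Function.Injective μ := fun I I' h => mul_left_cancel₀ hsp h
  set T : Ideal (𝓞 F) → ℂ := fun I =>
    if I ≠ ⊥ ∧ (I * ⊤).IsPrincipal then sterm F (Ideal.span {β} * 𝔟) s I else 0 with hT
  have hsupp : Function.support T ⊆ Set.range μ := by
    intro I hI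
    rw [Function.mem_support] at hI
    have h1 : I ≤ Ideal.span {β} * 𝔟 := by
      by_contra hle
      apply hI
      rw [hT]
      simp only
      unfold sterm
      rw [if_neg hle, ite_self]
    have h2 : I ≤ Ideal.span {β} := h1.trans Ideal.mul_le_left
    obtain ⟨I', hI'⟩ := Ideal.dvd_iff_le.mpr h2
    exact ⟨I', hI'.symm⟩
  have hTμ : ∀ I : Ideal (𝓞 F), T (μ I) =
      -((((Ideal.absNorm (Ideal.span {β}) : ℝ) ^ (-s) : ℝ)) : ℂ) *
        (if I ≠ ⊥ ∧ (I * ⊤).IsPrincipal then sterm F 𝔟 s I else 0) := by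
    intro I
    rw [hT, hμ]
    simp only
    rw [Ideal.mul_top, Ideal.mul_top]
    by_cases hI0 : I = ⊥
    · rw [hI0, Ideal.mul_bot, if_neg (fun h => h.1 rfl), if_neg (fun h => h.1 rfl), mul_zero]
    by_cases hIp : I.IsPrincipal
    · obtain ⟨δ, hδ⟩ := hIp.principal
      have hδ' : I = Ideal.span {δ} := hδ
      have hprod : Ideal.span {β} * I = Ideal.span {β * δ} := by
        rw [hδ', Ideal.span_singleton_mul_span_singleton]
      have hne : Ideal.span {β} * I ≠ ⊥ := mul_ne_zero hsp hI0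
      have hpp : (Ideal.span {β} * I).IsPrincipal := by
        rw [hprod]; exact ⟨⟨β * δ, rfl⟩⟩
      rw [if_pos ⟨hne, hpp⟩, if_pos ⟨hI0, hIp⟩]
      unfold sterm
      have hle : Ideal.span {β} * I ≤ Ideal.span {β} * 𝔟 ↔ I ≤ 𝔟 :=
        Ideal.span_singleton_mul_right_mono hβ0
      by_cases hI𝔟 : I ≤ 𝔟
      · rw [if_pos (hle.mpr hI𝔟), if_pos hI𝔟]
        have hsig : sig F (Ideal.span {β} * I) = -sig F I := by
          rw [hprod, hδ', sig_span F hU, sig_span F hU, sgN_mul, sgN_of_neg F hβ]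
          ring
        have hN : ((Ideal.absNorm (Ideal.span {β} * I) : ℕ) : ℝ) ^ (-s) =
            ((Ideal.absNorm (Ideal.span {β}) : ℕ) : ℝ) ^ (-s) *
              ((Ideal.absNorm I : ℕ) : ℝ) ^ (-s) := by
          rw [map_mul, Nat.cast_mul, Real.mul_rpow (Nat.cast_nonneg _) (Nat.cast_nonneg _)]
        rw [hsig, hN]
        push_cast
        ring
      · rw [if_neg (fun h => hI𝔟 (hle.mp h)), if_neg hI𝔟, mul_zero]
    · have hpp : ¬ (Ideal.span {β} * I).IsPrincipal := by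
        intro hp
        apply hIp
        obtain ⟨γ, hγ⟩ := hp.principal
        have hγ' : Ideal.span {β} * I = Ideal.span {γ} := hγ
        have hγmem : γ ∈ Ideal.span {β} := by
          have : γ ∈ Ideal.span {β} * I := by
            rw [hγ']; exact Ideal.mem_span_singleton_self γ
          exact Ideal.mul_le_left this
        obtain ⟨δ, rfl⟩ := Ideal.mem_span_singleton'.mp hγmem
        have h3 : Ideal.span {β} * I = Ideal.span {β} * Ideal.span {δ} := by
          rw [hγ', Ideal.span_singleton_mul_span_singleton, mul_comm]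
        have hI : I = Ideal.span {δ} := mul_left_cancel₀ hsp h3
        exact ⟨⟨δ, hI⟩⟩
      rw [if_neg (fun h => hpp h.2), if_neg (fun h => hIp h.2), mul_zero]
  calc ssum F (Ideal.span {β} * 𝔟) s = ∑' I : Ideal (𝓞 F), T I := rfl
    _ = ∑' I : Ideal (𝓞 F), T (μ I) := (hμinj.tsum_eq hsupp).symm
    _ = ∑' I : Ideal (𝓞 F), -((((Ideal.absNorm (Ideal.span {β}) : ℝ) ^ (-s) : ℝ)) : ℂ) *
          (if I ≠ ⊥ ∧ (I * ⊤).IsPrincipal then sterm F 𝔟 s I else 0) := tsum_congr hTμ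
    _ = -((((Ideal.absNorm (Ideal.span {β}) : ℝ) ^ (-s) : ℝ)) : ℂ) * ssum F 𝔟 s := tsum_mul_left

/-- **the sign-twisted sum over an ideal is bounded and Lipschitz on `(1, 2]`** -/
theorem isBL_signsum (hU : ∀ u : (𝓞 F)ˣ, Algebra.norm ℤ (u : 𝓞 F) = 1)
    (hreal : ∃ w : InfinitePlace F, w.IsReal) {𝔟 : Ideal (𝓞 F)} (h𝔟 : 𝔟 ≠ ⊥) :
    IsBL fun s => wsum F (sgn F) (fun α => if α ∈ 𝔟 then 1 else 0) s := by
  obtain ⟨β, hβ⟩ := exists_norm_neg F hreal
  have hβ0 : β ≠ 0 := ne_zero_of_norm_neg F hβ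
  have hsp : Ideal.span {β} ≠ (⊥ : Ideal (𝓞 F)) := span_singleton_ne_bot F hβ0
  set 𝔟' : Ideal (𝓞 F) := Ideal.span {β} * 𝔟 with h𝔟'def
  have h𝔟' : 𝔟' ≠ ⊥ := mul_ne_zero hsp h𝔟
  have hle : 𝔟' ≤ 𝔟 := Ideal.mul_le_right
  have hper : ∀ α γ : 𝓞 F, γ ∈ 𝔟' →
      (fun α : 𝓞 F => if α ∈ 𝔟 then (1 : ℂ) else 0) (α + γ) =
        (fun α : 𝓞 F => if α ∈ 𝔟 then (1 : ℂ) else 0) α := by
    intro α γ hγ
    have h1 : α + γ ∈ 𝔟 ↔ α ∈ 𝔟 := 𝔟.add_mem_iff_left (hle hγ)
    simp only [h1]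
  have h := isBL_coset F (signLike_sgn F) h𝔟' (fun α : 𝓞 F => if α ∈ 𝔟 then (1 : ℂ) else 0) hper
  obtain ⟨n, hn⟩ : ∃ n : ℕ, (∑ᶠ q : 𝓞 F ⧸ 𝔟',
      (fun α : 𝓞 F => if α ∈ 𝔟 then (1 : ℂ) else 0) (Quotient.out q)) = (n : ℂ) := by
    have : Finite (𝓞 F ⧸ 𝔟') := Ideal.finiteQuotientOfFreeOfNeBot 𝔟' h𝔟'
    have : Fintype (𝓞 F ⧸ 𝔟') := Fintype.ofFinite _
    rw [finsum_eq_sum_of_fintype]
    exact ⟨_, Finset.sum_boole _ _⟩
  rw [hn] at h
  set b : ℝ := ((Ideal.absNorm (Ideal.span {β}) : ℕ) : ℝ) with hb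
  have hb0 : 0 < b := absNorm_pos' F hsp
  set y : ℝ → ℝ := fun s => 1 + (n : ℝ) * b ^ (-s) with hy
  have hyBL : IsBL fun s => ((y s : ℝ) : ℂ) := by
    have h1 := (isBL_const 1).add ((isBL_rpow_affine hb0 (-1) 0).const_mul (n : ℂ))
    refine h1.congr fun s _ => ?_
    have e : (-1 : ℝ) * s + 0 = -s := by ring
    rw [e, hy]
    push_cast
    rfl
  have hy1 : ∀ s ∈ Set.Ioc (1 : ℝ) 2, 1 ≤ y s := by
    intro s _
    rw [hy]
    simp only
    have h2 : (0 : ℝ) ≤ (n : ℝ) * b ^ (-s) :=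
      mul_nonneg (Nat.cast_nonneg n) (Real.rpow_nonneg hb0.le _)
    linarith
  have hinv := hyBL.inv_of_one_le hy1
  refine (hinv.mul h).congr fun s hs => ?_
  have hΦ' : wsum F (sgn F) (fun α => if α ∈ 𝔟' then 1 else 0) s =
      -(((b ^ (-s) : ℝ)) : ℂ) * wsum F (sgn F) (fun α => if α ∈ 𝔟 then 1 else 0) s := by
    rw [unfold_sign F hU 𝔟' hs.1, h𝔟'def, ssum_mul F hU hβ 𝔟 s, unfold_sign F hU 𝔟 hs.1]
    ring
  have hypos : ((y s : ℝ) : ℂ) ≠ 0 :=
    Complex.ofReal_ne_zero.mpr (lt_of_lt_of_le one_pos (hy1 s hs)).ne'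
  rw [hΦ', Complex.ofReal_inv]
  have hyc : ((y s : ℝ) : ℂ) = 1 + (n : ℂ) * (((b ^ (-s) : ℝ)) : ℂ) := by
    rw [hy]; push_cast; rfl
  have hkey : wsum F (sgn F) (fun α => if α ∈ 𝔟 then 1 else 0) s -
      (n : ℂ) * (-(((b ^ (-s) : ℝ)) : ℂ) * wsum F (sgn F) (fun α => if α ∈ 𝔟 then 1 else 0) s) =
      ((y s : ℝ) : ℂ) * wsum F (sgn F) (fun α => if α ∈ 𝔟 then 1 else 0) s := by
    rw [hyc]; ring
  rw [hkey, inv_mul_cancel_left₀ hypos]

/-! ### the compatibility of an odd character with the sign -/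

theorem compat_sgn {m : ℕ} (ψ : DirichletCharacter ℂ m) (hodd : ψ (-1) = -1) :
    Compat F ψ (sgn F) where
  sign := signLike_sgn F
  compat α hα := by
    rw [Ideal.absNorm_span_singleton, sgn_emb F hα]
    unfold psiN sgN
    set n : ℤ := Algebra.norm ℤ α with hn
    have hn0 : n ≠ 0 := Algebra.norm_ne_zero_iff.mpr hα
    have hcast : ((n.natAbs : ℕ) : ZMod m) = (((n.natAbs : ℕ) : ℤ) : ZMod m) :=
      (Int.cast_natCast _).symm
    rcases lt_or_gt_of_ne hn0 with h | h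
    · have h1 : ((n.natAbs : ℕ) : ℤ) = -n := by omega
      rw [hcast, h1, sg_of_neg (Int.cast_lt_zero.mpr h)]
      have h2 : ((-n : ℤ) : ZMod m) = (-1) * ((n : ℤ) : ZMod m) := by push_cast; ring
      rw [h2, map_mul, hodd]
      push_cast
      ring
    · have h1 : ((n.natAbs : ℕ) : ℤ) = n := by omega
      rw [hcast, h1, sg_of_pos (Int.cast_pos.mpr h), Complex.ofReal_one, one_mul]

theorem compat_one_of_even {m : ℕ} (ψ : DirichletCharacter ℂ m) (heven : ψ (-1) = 1) :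
    Compat F ψ (fun _ => 1) where
  sign := signLike_one F
  compat α hα := by
    rw [Ideal.absNorm_span_singleton, Complex.ofReal_one, one_mul]
    unfold psiN
    set n : ℤ := Algebra.norm ℤ α with hn
    have hcast : ((n.natAbs : ℕ) : ZMod m) = (((n.natAbs : ℕ) : ℤ) : ZMod m) :=
      (Int.cast_natCast _).symm
    rcases le_or_gt n 0 with h | h
    · have h1 : ((n.natAbs : ℕ) : ℤ) = -n := by omega
      have h2 : ((-n : ℤ) : ZMod m) = (-1) * ((n : ℤ) : ZMod m) := by push_cast; ring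
      rw [hcast, h1, h2, map_mul, heven, one_mul]
    · have h1 : ((n.natAbs : ℕ) : ℤ) = n := by omega
      rw [hcast, h1]

/-- without a real place the sign is `1` -/
theorem sgn_eq_one (hreal : ¬ ∃ w : InfinitePlace F, w.IsReal) (x : mixedSpace F) :
    sgn F x = 1 := by
  have : IsEmpty {w : InfinitePlace F // w.IsReal} :=
    ⟨fun w => hreal ⟨w.1, w.2⟩⟩
  unfold sgn
  exact Finset.prod_of_isEmpty _

theorem compat_one_of_complex {m : ℕ} (ψ : DirichletCharacter ℂ m) (hodd : ψ (-1) = -1)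
    (hreal : ¬ ∃ w : InfinitePlace F, w.IsReal) : Compat F ψ (fun _ => 1) := by
  have h := compat_sgn F ψ hodd
  have h1 : sgn F = fun _ => 1 := funext (sgn_eq_one F hreal)
  rwa [h1] at h

/-! ### the series of an odd character over a field with a real place -/

/-- if `ψ` is odd and `ψ ∘ N` is trivial on the integers prime to `m`, every unit has norm `1` -/
theorem norm_unit_eq_one {m : ℕ} {ψ : DirichletCharacter ℂ m} (hodd : ψ (-1) = -1)
    (hone : ∀ β : 𝓞 F, IsCoprime (Ideal.span {β}) (Ideal.span {(m : 𝓞 F)}) → psiN F ψ β = 1)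
    (u : (𝓞 F)ˣ) : Algebra.norm ℤ (u : 𝓞 F) = 1 := by
  have hunit : IsUnit (Algebra.norm ℤ (u : 𝓞 F)) := u.isUnit.map (Algebra.norm ℤ)
  rcases Int.isUnit_iff.mp hunit with h | h
  · exact h
  · exfalso
    have hcop : IsCoprime (Ideal.span {(u : 𝓞 F)}) (Ideal.span {(m : 𝓞 F)}) := by
      rw [Ideal.span_singleton_eq_top.mpr u.isUnit, ← Ideal.one_eq_top]
      exact isCoprime_one_left
    have h1 := hone u hcop
    unfold psiN at h1
    rw [h] at h1
    have h2 : (((-1 : ℤ)) : ZMod m) = -1 := by push_cast; rfl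
    rw [h2, hodd] at h1
    norm_num at h1

/-- **a partial `L`-function of an odd character over a field with a real place** -/
theorem isBL_lpart_of_odd {m : ℕ} [NeZero m] {ψ : DirichletCharacter ℂ m} (hodd : ψ (-1) = -1)
    (hreal : ∃ w : InfinitePlace F, w.IsReal) {J : Ideal (𝓞 F)} (hJ : J ≠ ⊥)
    (hJm : IsCoprime J (Ideal.span {(m : 𝓞 F)})) : IsBL (lpart F ψ J) := by
  have hc := compat_sgn F ψ hodd
  have hb : Ideal.span {(m : 𝓞 F)} * J ≠ ⊥ := mul_ne_zero (span_natCast_ne_bot F) hJ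
  have f1 := isBL_twist F ψ hc.sign hJ hJm
  have f2 : IsBL fun s => resSum F ψ *
      wsum F (sgn F) (fun α => if α ∈ Ideal.span {(m : 𝓞 F)} * J then 1 else 0) s := by
    by_cases hT : resSum F ψ = 0
    · refine (isBL_const 0).congr fun s _ => ?_
      rw [hT, zero_mul]
    · have hone : ∀ β : 𝓞 F, IsCoprime (Ideal.span {β}) (Ideal.span {(m : 𝓞 F)}) →
          psiN F ψ β = 1 := fun β hβ => Residue.psiN_eq_one_of_finsum_ne_zero ψ hT β hβ
      exact (isBL_signsum F (norm_unit_eq_one F hodd hone) hreal hb).const_mul _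
  have f3 : IsBL fun s => wsum F (sgn F) (cJ F ψ J) s :=
    (f1.add f2).congr fun s _ => by ring
  set a : ℂ := (ψ ((Ideal.absNorm J : ℕ) : ZMod m))⁻¹ with ha
  set w : ℂ := (torsionOrder F : ℂ) with hw
  have hw0 : w ≠ 0 := Nat.cast_ne_zero.mpr (torsionOrder_ne_zero F)
  set n : ℝ := ((Ideal.absNorm J : ℕ) : ℝ) with hn
  have hn0 : 0 < n := absNorm_pos' F hJ
  have hns : IsBL fun s => (((n ^ (1 * s + 0) : ℝ)) : ℂ) := isBL_rpow_affine hn0 1 0
  refine ((hns.mul f3).const_mul (a / w)).congr fun s hs => ?_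
  have hA := unfold_lpart F hc hJ (isUnit_absNorm F hJ hJm) hs.1
  have hpow : (((n ^ (1 * s + 0) : ℝ)) : ℂ) = (((n ^ s : ℝ)) : ℂ) := by
    congr 2; ring
  have : lpart F ψ J s = (w * lpart F ψ J s) / w := by field_simp
  rw [this, hw, hA, hpow]
  unfold cJ
  ring

/-- **THE MAIN THEOREM, for an odd character over a field with a real place** -/
theorem isBL_lfun_of_odd {m : ℕ} [NeZero m] {ψ : DirichletCharacter ℂ m} (hodd : ψ (-1) = -1)
    (hreal : ∃ w : InfinitePlace F, w.IsReal) : IsBL (lfun F ψ) := by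
  obtain ⟨J, hJ⟩ := exists_repSystem F m
  have h1 : IsBL fun s => ∑ C : ClassGroup (𝓞 F), lpart F ψ (J C) s :=
    IsBL.sum _ fun C _ => isBL_lpart_of_odd F hodd hreal (hJ.ne_bot C) (hJ.coprime C)
  refine h1.congr fun s hs => ?_
  rw [lfun_eq_sum F ψ hJ hs.1]

/-- **THE MAIN THEOREM**: the twisted Dedekind series `L_F(s, ψ ∘ N)` is bounded and Lipschitz on
`(1, 2]` as soon as `ψ ∘ N` takes a value other than `0` and `1` on the ideals of `F` -/
theorem isBL_lfun {m : ℕ} [NeZero m] (ψ : DirichletCharacter ℂ m)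
    (hnt : ∃ I : Ideal (𝓞 F), ψ ((Ideal.absNorm I : ℕ) : ZMod m) ≠ 0 ∧
      ψ ((Ideal.absNorm I : ℕ) : ZMod m) ≠ 1) : IsBL (lfun F ψ) := by
  have hsq : ψ (-1) * ψ (-1) = 1 := by
    rw [← map_mul, neg_one_mul, neg_neg, map_one]
  have hpm : ψ (-1) = 1 ∨ ψ (-1) = -1 := mul_self_eq_one_iff.mp hsq
  rcases hpm with heven | hodd
  · exact isBL_lfun_of_compat F (compat_one_of_even F ψ heven) hnt
  · by_cases hreal : ∃ w : InfinitePlace F, w.IsReal
    · exact isBL_lfun_of_odd F hodd hreal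
    · exact isBL_lfun_of_compat F (compat_one_of_complex F ψ hodd hreal) hnt

end Fermat.Agent.S48.A.TwistL.Odd
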