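/-
PROJECT D (S48), part A, brick A6c (helper24): THE ANALYTIC CORE OF CHEBOTAREV, file 14.

THE SEAM (S-LC) OF `Cheb/Seams.lean` (helper4) IS A THEOREM: `L_M(s, χ ∘ N)` extends continuously
to `[1, 2]` when `χ ∘ N` is non-trivial.

Mathlib + `Odd.lean` + `Cheb/Seams` (helper4).
-/
import Mathlib
import Fermat.Agent.S48.A.TwistL.Odd
import Fermat.Agent.S48.A.Cheb.Seams

set_option autoImplicit false

noncomputable section

namespace Fermat.Agent.S48.A.TwistL.LCont

open NumberField IsDedekindDomain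

/-- the two literals of the twisted Dedekind series agree -/
theorem lfun_eq (M : Type) [Field M] [NumberField M] {m : ℕ} (χ : DirichletCharacter ℂ m)
    (s : ℝ) :
    Fermat.Agent.S48.A.Cheb.Seams.lfun M χ s = Fermat.Agent.S48.A.TwistL.Parts.lfun M χ s := rfl

/-- **(S-LC)**: `L_M(s, χ ∘ N)` extends continuously to `[1, 2]` when `χ ∘ N` is non-trivial -/
theorem lContinuous : Fermat.Agent.S48.A.Cheb.Seams.LContinuous := by
  intro M _ _ m _ χ hnt
  obtain ⟨v, hv0, hv1⟩ := hnt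
  have hBL : Fermat.Agent.S48.A.TwistL.BL.IsBL (Fermat.Agent.S48.A.TwistL.Parts.lfun M χ) :=
    Fermat.Agent.S48.A.TwistL.Odd.isBL_lfun M χ ⟨v.asIdeal, hv0, hv1⟩
  obtain ⟨G, hG1, hG2⟩ := hBL.exists_continuousOn
  exact ⟨G, hG1, fun s hs1 hs2 => (lfun_eq M χ s).trans (hG2 s hs1 hs2)⟩

end Fermat.Agent.S48.A.TwistL.LCont
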